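import Mathlib
import Fermat.Prelude.Def_AlgebraicCurve_CanonicalDivisor

/-!
# S24 library: basic facts on `AlgebraicCurve.Place.ord`
-/

set_option autoImplicit false

open AlgebraicCurve IsLocalRing

namespace Fermat.Agent.S24RH

variable {K F : Type*} [Field K] [Field F] [Algebra K F]

theorem exists_ord_eq_one (v : Place K F) : ∃ t : F, v.ord t = 1 := by
  obtain ⟨π, hπ⟩ := IsDiscreteValuationRing.exists_irreducible v.toValuationSubring
  exact ⟨π, v.ord_coe_irreducible hπ⟩

theorem mem_of_ord_nonneg (v : Place K F) {f : F} (h : 0 ≤ v.ord f) :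
    f ∈ v.toValuationSubring := by
  rcases eq_or_ne f 0 with rfl | hf
  · exact zero_mem _
  obtain ⟨π, hπ⟩ := IsDiscreteValuationRing.exists_irreducible v.toValuationSubring
  obtain ⟨u, hu⟩ := v.exists_unit_mul_zpow hf hπ
  rw [hu]
  obtain ⟨n, hn⟩ := Int.eq_ofNat_of_zero_le h
  rw [hn, zpow_natCast]
  exact mul_mem (u : v.toValuationSubring).2 (pow_mem π.2 n)

theorem ord_coe_nonneg (v : Place K F) (a : v.toValuationSubring) : 0 ≤ v.ord (a : F) := by
  rcases eq_or_ne a 0 with rfl | ha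
  · simp
  obtain ⟨π, hπ⟩ := IsDiscreteValuationRing.exists_irreducible v.toValuationSubring
  obtain ⟨n, u, hu⟩ := IsDiscreteValuationRing.eq_unit_mul_pow_irreducible ha hπ
  have : (a : F) = ((u : v.toValuationSubring) : F) * ((π : F) ^ (n : ℤ)) := by
    rw [hu]; simp
  rw [this, v.ord_unit_smul_zpow u hπ]
  exact Int.natCast_nonneg n

theorem ord_nonneg_of_mem (v : Place K F) {f : F} (h : f ∈ v.toValuationSubring) :
    0 ≤ v.ord f := ord_coe_nonneg v ⟨f, h⟩

theorem ord_nonneg_iff (v : Place K F) {f : F} : 0 ≤ v.ord f ↔ f ∈ v.toValuationSubring :=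
  ⟨mem_of_ord_nonneg v, ord_nonneg_of_mem v⟩

theorem ord_neg (v : Place K F) (f : F) : v.ord (-f) = v.ord f := by
  simp [Place.ord]

theorem ord_algebraMap (v : Place K F) (a : K) : v.ord (algebraMap K F a) = 0 := by
  rcases eq_or_ne a 0 with rfl | ha
  · simp
  have h1 := ord_nonneg_of_mem v (v.algebraMap_mem' a)
  have h2 := ord_nonneg_of_mem v (v.algebraMap_mem' a⁻¹)
  rw [map_inv₀, v.ord_inv] at h2
  omega

theorem ord_pow (v : Place K F) (f : F) (n : ℕ) : v.ord (f ^ n) = n * v.ord f := by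
  rw [← zpow_natCast, v.ord_zpow]

theorem ord_div (v : Place K F) {f g : F} (hf : f ≠ 0) (hg : g ≠ 0) :
    v.ord (f / g) = v.ord f - v.ord g := by
  rw [div_eq_mul_inv, v.ord_mul hf (inv_ne_zero hg), v.ord_inv]; ring

/-- ultrametric inequality -/
theorem le_ord_add (v : Place K F) {f g : F} {n : ℤ} (hf : f = 0 ∨ n ≤ v.ord f)
    (hg : g = 0 ∨ n ≤ v.ord g) : f + g = 0 ∨ n ≤ v.ord (f + g) := by
  rcases hf with rfl | hf
  · simpa using hg
  rcases hg with rfl | hg
  · simpa using Or.inr hf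
  by_cases h0 : f + g = 0
  · exact Or.inl h0
  right
  rcases eq_or_ne f 0 with rfl | hf0
  · simpa using hg
  rcases eq_or_ne g 0 with rfl | hg0
  · simpa using hf
  obtain ⟨t, ht⟩ := exists_ord_eq_one v
  have ht0 : t ≠ 0 := by rintro rfl; simp at ht
  have htn : t ^ (-n) ≠ 0 := zpow_ne_zero _ ht0
  have h1 : f * t ^ (-n) ∈ v.toValuationSubring := by
    apply mem_of_ord_nonneg
    rw [v.ord_mul hf0 htn, v.ord_zpow, ht]; omega
  have h2 : g * t ^ (-n) ∈ v.toValuationSubring := by
    apply mem_of_ord_nonneg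
    rw [v.ord_mul hg0 htn, v.ord_zpow, ht]; omega
  have h3 := ord_nonneg_of_mem v (add_mem h1 h2)
  rw [← add_mul, v.ord_mul h0 htn, v.ord_zpow, ht] at h3
  omega

theorem ord_add_eq_of_lt (v : Place K F) {f g : F} (hf : f ≠ 0)
    (hg : g = 0 ∨ v.ord f < v.ord g) : f + g ≠ 0 ∧ v.ord (f + g) = v.ord f := by
  rcases hg with rfl | hg
  · simpa using hf
  have hne : f + g ≠ 0 := by
    intro h
    have : g = -f := by linear_combination h
    rw [this, ord_neg] at hg
    exact lt_irrefl _ hg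
  refine ⟨hne, le_antisymm ?_ ?_⟩
  · by_contra hlt
    rw [not_le] at hlt
    have := le_ord_add v (f := f + g) (g := -g) (n := v.ord f + 1) (Or.inr (by omega))
      (Or.inr (by rw [ord_neg]; omega))
    rw [add_neg_cancel_right] at this
    rcases this with h | h
    · exact hf h
    · omega
  · rcases le_ord_add v (f := f) (g := g) (n := v.ord f) (Or.inr le_rfl) (Or.inr hg.le) with h | h
    · exact absurd h hne
    · exact h

theorem ord_pos_iff_mem_maximalIdeal (v : Place K F) (a : v.toValuationSubring) (ha : a ≠ 0) :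
    0 < v.ord (a : F) ↔ a ∈ maximalIdeal v.toValuationSubring := by
  have ha' : (a : F) ≠ 0 := by simpa using ha
  rw [mem_maximalIdeal, mem_nonunits_iff]
  constructor
  · intro h hu
    have := v.ord_coe_unit hu.unit
    rw [IsUnit.unit_spec] at this
    omega
  · intro h
    by_contra hle
    have h0 : v.ord (a : F) = 0 := le_antisymm (not_lt.1 hle) (ord_coe_nonneg v a)
    have h1 : (a : F)⁻¹ ∈ v.toValuationSubring := by
      apply mem_of_ord_nonneg
      rw [v.ord_inv, h0]; simp
    apply h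
    refine IsUnit.of_mul_eq_one ⟨(a : F)⁻¹, h1⟩ (Subtype.ext ?_)
    simp [ha']

/-- A place is determined by its order function being non-negative. -/
theorem place_ext_of_le {v w : Place K F}
    (h : v.toValuationSubring ≤ w.toValuationSubring) : v = w := by
  apply Place.ext
  refine le_antisymm h ?_
  intro f hf
  by_contra hfv
  have hf0 : f ≠ 0 := by rintro rfl; exact hfv (zero_mem _)
  have h1 : v.ord f < 0 := by
    by_contra hh
    exact hfv (mem_of_ord_nonneg v (not_lt.1 hh))
  -- every element of `F` is then in `w`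
  apply w.ne_top'
  rw [eq_top_iff]
  intro g _
  rcases eq_or_ne g 0 with rfl | hg0
  · exact zero_mem _
  -- `g = (g * f⁻¹ ^ n) * f ^ n` with `n` large
  obtain ⟨n, hn⟩ : ∃ n : ℕ, 0 ≤ v.ord g + n * (- v.ord f) := by
    refine ⟨(- v.ord g).toNat, ?_⟩
    have : (((- v.ord g).toNat : ℕ) : ℤ) ≥ - v.ord g := Int.self_le_toNat _
    nlinarith [Int.natCast_nonneg (- v.ord g).toNat]
  have h2 : g * (f⁻¹) ^ n ∈ v.toValuationSubring := by
    apply mem_of_ord_nonneg
    rw [v.ord_mul hg0 (pow_ne_zero _ (inv_ne_zero hf0)), ord_pow, v.ord_inv]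
    exact hn
  have h3 : g = (g * (f⁻¹) ^ n) * f ^ n := by
    rw [mul_assoc, ← mul_pow, inv_mul_cancel₀ hf0, one_pow, mul_one]
  rw [h3]
  exact mul_mem (h h2) (pow_mem hf n)

end Fermat.Agent.S24RH
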