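import Fermat.Agent.S20.LevelOne

/-!
# S24 library: the analytic `j`-function, definition and first properties
-/

set_option autoImplicit false

open UpperHalfPlane ModularForm MatrixGroups Filter Topology
open scoped Manifold

namespace Fermat.Agent.S24lib

local notation "Δ" => ModularForm.discriminant

/-- the analytic `j`-invariant -/
noncomputable def jfun (τ : ℍ) : ℂ := (E₄ τ) ^ 3 / Δ τ

theorem mdiff_disc : MDiff (Δ : ℍ → ℂ) := S20lib.isR_disc.holo

theorem mdiff_disc_inv : MDiff (fun τ : ℍ => (Δ τ)⁻¹) := by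
  rw [UpperHalfPlane.mdifferentiable_iff]
  have h := UpperHalfPlane.mdifferentiable_iff.mp mdiff_disc
  exact h.inv (fun z _ => discriminant_ne_zero _)

theorem mdiff_jfun : MDiff jfun := by
  have h : jfun = ((E₄ : ℍ → ℂ) ^ 3) * (fun τ : ℍ => (Δ τ)⁻¹) := by
    funext τ
    simp [jfun, div_eq_mul_inv]
  rw [h]
  exact (S20lib.isR_E4.holo.pow 3).mul mdiff_disc_inv

theorem jfun_smul (g : SL(2, ℤ)) (τ : ℍ) : jfun (g • τ) = jfun τ := by
  have h4 := congrFun (S20lib.isR_E4.inv g) τ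
  have h12 := congrFun (S20lib.isR_disc.inv g) τ
  rw [ModularForm.SL_slash_apply] at h4 h12
  have hd : denom g τ ≠ 0 := denom_ne_zero g τ
  have e4 : (E₄ : ℍ → ℂ) (g • τ) = E₄ τ * denom g τ ^ (4 : ℤ) := by
    rw [← h4, mul_assoc, ← zpow_add₀ hd]; simp
  have e12 : Δ (g • τ) = Δ τ * denom g τ ^ (12 : ℤ) := by
    rw [← h12, mul_assoc, ← zpow_add₀ hd]; simp
  unfold jfun
  rw [e4, e12]
  have h1 := discriminant_ne_zero τ
  have : (denom g τ ^ (4 : ℤ)) ^ 3 = denom g τ ^ (12 : ℤ) := by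
    rw [← zpow_natCast, ← zpow_mul]; norm_num
  rw [mul_pow, this]
  field_simp

end Fermat.Agent.S24lib
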