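import Fermat.Agent.S24.Taylor
import Fermat.Agent.S24.JDef

/-!
# S24 library: the analytic `j`-function, part A (task J1)
-/

set_option autoImplicit false

open UpperHalfPlane ModularForm MatrixGroups Filter Topology
open scoped Manifold

namespace Fermat.Agent.S24lib

local notation "Δ" => ModularForm.discriminant

/-- `j` as a function of `q = exp (2 π i τ)` -/
noncomputable def jcusp (q : ℂ) : ℂ := (cuspFunction 1 E₄ q) ^ 3 / cuspFunction 1 Δ q

theorem jfun_eq_jcusp (τ : ℍ) : jfun τ = jcusp (Function.Periodic.qParam 1 τ) := by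
  rw [jfun, jcusp, SlashInvariantFormClass.eq_cuspFunction E₄ τ one_mem_strictPeriods_SL one_ne_zero]
  have := SlashInvariantFormClass.eq_cuspFunction CuspForm.discriminant τ one_mem_strictPeriods_SL one_ne_zero
  rw [CuspForm.coe_discriminant] at this
  rw [this]

theorem analyticAt_cusp_E4 : AnalyticAt ℂ (cuspFunction 1 E₄) 0 :=
  ModularFormClass.analyticAt_cuspFunction_zero E₄ one_pos one_mem_strictPeriods_SL

theorem analyticAt_cusp_disc : AnalyticAt ℂ (cuspFunction 1 Δ) 0 := by
  have := ModularFormClass.analyticAt_cuspFunction_zero CuspForm.discriminant one_pos one_mem_strictPeriods_SL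
  rwa [CuspForm.coe_discriminant] at this

theorem meromorphicAt_jcusp : MeromorphicAt jcusp 0 :=
  (analyticAt_cusp_E4.meromorphicAt.pow 3).div analyticAt_cusp_disc.meromorphicAt


theorem tendstoLocallyUniformlyOn_iteratedDeriv {ι : Type*} {φ : Filter ι} [φ.NeBot]
    {F : ι → ℂ → ℂ} {f : ℂ → ℂ} {U : Set ℂ} (hU : IsOpen U)
    (hf : TendstoLocallyUniformlyOn F f φ U) (hF : ∀ᶠ i in φ, DifferentiableOn ℂ (F i) U) (n : ℕ) :
    TendstoLocallyUniformlyOn (fun i => iteratedDeriv n (F i)) (iteratedDeriv n f) φ U ∧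
      ∀ᶠ i in φ, DifferentiableOn ℂ (iteratedDeriv n (F i)) U := by
  induction n with
  | zero => simpa using ⟨hf, hF⟩
  | succ n ih =>
    refine ⟨?_, ?_⟩
    · have := ih.1.deriv ih.2 hU
      simp only [iteratedDeriv_succ]
      exact this
    · filter_upwards [ih.2] with i hi
      rw [iteratedDeriv_succ]
      exact hi.deriv hU

theorem analyticAt_eval (p : Polynomial ℂ) (z : ℂ) : AnalyticAt ℂ (fun z => p.eval z) z :=
  AnalyticOnNhd.eval_polynomial (𝕜 := ℂ) p z (Set.mem_univ z)

theorem taylor_polynomial (p : Polynomial ℂ) : taylor (fun z => p.eval z) = (p : PowerSeries ℂ) := by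
  induction p using Polynomial.induction_on with
  | C a => simpa using taylor_const a
  | add p q hp hq =>
    have := taylor_add (f := fun z => p.eval z) (g := fun z => q.eval z)
      (analyticAt_eval _ _) (analyticAt_eval _ _)
    simp only [Polynomial.eval_add, Polynomial.coe_add, ← hp, ← hq, ← this]
    rfl
  | monomial n a h =>
    have := taylor_mul (f := fun z => (Polynomial.C a * Polynomial.X ^ n).eval z) (g := fun z => z)
      (analyticAt_eval _ _) analyticAt_id
    rw [h, taylor_id] at this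
    rw [pow_succ, ← mul_assoc, Polynomial.coe_mul, Polynomial.coe_X, ← this]
    congr 1
    funext z
    simp

open scoped PowerSeries.WithPiTopology in
theorem taylor_tprod :
    taylor (fun q : ℂ => ∏' n : ℕ, (1 - q ^ (n + 1))) =
      ModularCurve.etaProd.map (Int.castRingHom ℂ) := by
  ext n
  rw [coeff_taylor, PowerSeries.coeff_map]
  have hloc := multipliableLocallyUniformlyOn_one_sub_pow.hasProdLocallyUniformlyOn
  rw [hasProdLocallyUniformlyOn_iff_tendstoLocallyUniformlyOn] at hloc
  have hdiff : ∀ s : Finset ℕ, DifferentiableOn ℂ (fun q : ℂ => ∏ i ∈ s, (1 - q ^ (i + 1)))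
      (Metric.ball 0 1) := fun s => DifferentiableOn.fun_finsetProd (fun _ _ ↦ by fun_prop)
  have h1 := ((tendstoLocallyUniformlyOn_iteratedDeriv Metric.isOpen_ball hloc
    (.of_forall hdiff) n).1.tendsto_at (Metric.mem_ball_self one_pos)).const_mul
      ((n.factorial : ℂ)⁻¹)
  have h2 : Tendsto (fun s : Finset ℕ =>
      (∏ i ∈ s, (1 - PowerSeries.X ^ (i + 1)) : PowerSeries ℤ).coeff n) atTop
      (𝓝 (ModularCurve.etaProd.coeff n)) :=
    ((PowerSeries.WithPiTopology.continuous_coeff ℤ n).tendsto _).comp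
      (PowerSeries.WithPiTopology.multipliable_one_sub_X_pow ℤ).hasProd
  have h3 : Tendsto (fun s : Finset ℕ =>
      (((∏ i ∈ s, (1 - PowerSeries.X ^ (i + 1)) : PowerSeries ℤ).coeff n : ℤ) : ℂ)) atTop
      (𝓝 ((ModularCurve.etaProd.coeff n : ℤ) : ℂ)) :=
    ((continuous_of_discreteTopology (f := fun m : ℤ => (m : ℂ))).tendsto _).comp h2
  refine tendsto_nhds_unique h1 (h3.congr fun s => ?_)
  have h4 := taylor_polynomial
    ((∏ i ∈ s, (1 - Polynomial.X ^ (i + 1)) : Polynomial ℤ).map (Int.castRingHom ℂ))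
  have h5 := congrArg (PowerSeries.coeff n) h4
  rw [coeff_taylor] at h5
  have h6 : (fun z : ℂ => Polynomial.eval z
      ((∏ i ∈ s, (1 - Polynomial.X ^ (i + 1)) : Polynomial ℤ).map (Int.castRingHom ℂ))) =
      fun q : ℂ => ∏ i ∈ s, (1 - q ^ (i + 1)) := by
    funext z
    simp [Polynomial.map_prod, Polynomial.eval_prod]
  rw [h6] at h5
  rw [h5, Polynomial.coeff_coe, Polynomial.coeff_map, ← Polynomial.coeff_coe]
  congr 2
  rw [← Polynomial.coeToPowerSeries.ringHom_apply, map_prod]
  refine Finset.prod_congr rfl fun i _ => ?_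
  simp


theorem taylor_cusp_E4 :
    taylor (cuspFunction 1 E₄) = ModularCurve.eisenstein4.map (Int.castRingHom ℂ) := by
  ext n
  have h : (taylor (cuspFunction 1 E₄)).coeff n = (qExpansion 1 E₄).coeff n := rfl
  rw [h, EisensteinSeries.E_qExpansion_coeff _ ⟨2, rfl⟩, PowerSeries.coeff_map,
    ModularCurve.eisenstein4, PowerSeries.coeff_mk]
  split_ifs with h0
  · simp
  · norm_num [show bernoulli 4 = -1 / 30 by decide +kernel, ArithmeticFunction.sigma_apply]

theorem coeffMap_ofPowerSeries {R S : Type*} [CommRing R] [CommRing S] (f : R →+* S)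
    (p : PowerSeries R) :
    ModularCurve.coeffMap f (HahnSeries.ofPowerSeries ℤ R p) =
      HahnSeries.ofPowerSeries ℤ S (p.map f) := by
  ext k
  rw [ModularCurve.coeffMap_coeff]
  rcases lt_or_ge k 0 with hk | hk
  · rw [ModularCurve.ofPowerSeries_coeff_of_neg _ hk, ModularCurve.ofPowerSeries_coeff_of_neg _ hk,
      map_zero]
  · obtain ⟨m, rfl⟩ := Int.eq_ofNat_of_zero_le hk
    rw [HahnSeries.ofPowerSeries_apply_coeff, HahnSeries.ofPowerSeries_apply_coeff,
      PowerSeries.coeff_map]

/-- the Laurent expansion of `j` at `q = 0` is the formal series `jq` of the prelude -/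
theorem laurent_jcusp :
    laurent jcusp = ModularCurve.coeffMap (algebraMap ℚ ℂ) ModularCurve.jq := by
  set P : ℂ → ℂ := fun q => ∏' n : ℕ, (1 - q ^ (n + 1)) with hP
  have hPan : AnalyticAt ℂ P 0 :=
    differentiableOn_tprod_one_sub_pow.analyticAt (Metric.ball_mem_nhds 0 one_pos)
  have hP0 : P 0 ≠ 0 := by simp [hP]
  set g : ℂ → ℂ := fun q => (cuspFunction 1 E₄ q) ^ 3 / (P q) ^ 24 with hgdef
  have hg : AnalyticAt ℂ g 0 := (analyticAt_cusp_E4.pow 3).div (hPan.pow 24) (pow_ne_zero _ hP0)
  have hev : ∀ᶠ z in 𝓝[≠] (0 : ℂ), jcusp z = z ^ (-1 : ℤ) * g z := by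
    filter_upwards [nhdsWithin_le_nhds (Metric.ball_mem_nhds (0 : ℂ) one_pos)] with z hz
    rw [jcusp, discriminant_cuspFunction_eqOn hz]
    simp only [hgdef, hP]
    rw [(multipliable_one_sub_pow (by simpa using hz)).tprod_pow, zpow_neg_one, div_mul_eq_div_div,
      div_eq_mul_inv _ z, div_eq_mul_inv, div_eq_mul_inv]
    ring
  rw [laurent_eq hg hev]
  have ht : taylor g = ModularCurve.jNum.map (Int.castRingHom ℂ) := by
    have h1 : g * (P ^ 24) =ᶠ[𝓝 0] (cuspFunction 1 E₄) ^ 3 := by
      filter_upwards [hPan.continuousAt.eventually_ne hP0] with z hz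
      simp only [hgdef, Pi.mul_apply, Pi.pow_apply]
      rw [div_mul_cancel₀ _ (pow_ne_zero _ hz)]
    have h2 := taylor_congr h1
    rw [taylor_mul hg (hPan.pow 24), taylor_pow hPan, taylor_pow analyticAt_cusp_E4, taylor_tprod,
      taylor_cusp_E4, ← map_pow, ← map_pow] at h2
    have h3 := congrArg (PowerSeries.map (Int.castRingHom ℂ)) ModularCurve.dedekindEtaUnit_mul_inv
    rw [map_mul, map_one, ModularCurve.dedekindEtaUnit] at h3
    rw [ModularCurve.jNum, map_mul, ← h2, mul_assoc, h3, mul_one]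
  rw [ht, ModularCurve.jq, map_mul, ModularCurve.coeffMap_single, (algebraMap ℚ ℂ).map_one,
    coeffMap_ofPowerSeries, ModularCurve.jNumQ]
  congr 2

end Fermat.Agent.S24lib
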