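import Mathlib

/-!
# S24 library: abstract computation of the degree of a function field over `K(j)`
-/

set_option autoImplicit false

open IntermediateField Polynomial

namespace Fermat.Agent.S24lib.DegAbs

variable {K F L σ : Type*} [Field K] [Field F] [Algebra K F]

/-- the map `K[X] → K(j)` -/
noncomputable def toE (j : F) : K[X] →+* K⟮j⟯ := (aeval (AdjoinSimple.gen K j)).toRingHom

theorem algebraMap_comp_toE (j : F) :
    (algebraMap K⟮j⟯ F).comp (toE (K := K) j) = (aeval j : K[X] →ₐ[K] F).toRingHom := by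
  apply Polynomial.ringHom_ext
  · intro a
    simp [toE]
  · simp [toE]

theorem aeval_map_toE (j b : F) (χ : K[X][X]) :
    aeval b (χ.map (toE (K := K) j)) = eval₂ (aeval j : K[X] →ₐ[K] F).toRingHom b χ := by
  rw [aeval_def, eval₂_map, algebraMap_comp_toE]

theorem isIntegral_of_annihilator (j b : F) {χ : K[X][X]} (hχ : χ.Monic)
    (h : eval₂ (aeval j : K[X] →ₐ[K] F).toRingHom b χ = 0) : IsIntegral K⟮j⟯ b :=
  ⟨χ.map (toE j), hχ.map _, by rw [← aeval_def, aeval_map_toE, h]⟩

theorem natDegree_minpoly_le (j b : F) {χ : K[X][X]} (hχ : χ.Monic)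
    (h : eval₂ (aeval j : K[X] →ₐ[K] F).toRingHom b χ = 0) :
    (minpoly K⟮j⟯ b).natDegree ≤ χ.natDegree := by
  have h1 : minpoly K⟮j⟯ b ∣ χ.map (toE j) := minpoly.dvd _ _ (by rw [aeval_map_toE, h])
  have h2 := Polynomial.natDegree_le_of_dvd h1 (hχ.map _).ne_zero
  rwa [hχ.natDegree_map] at h2

/-- a nonzero algebraic element divides a nonzero element of `K[j]`, with cofactor in `K[j][b]` -/
theorem exists_cofactor (j b : F) (hb : b ≠ 0) :
    ∀ (m : ℕ) (χ : K[X][X]), χ.natDegree ≤ m → χ ≠ 0 →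
      eval₂ (aeval j : K[X] →ₐ[K] F).toRingHom b χ = 0 →
      ∃ (ψ : K[X][X]) (c : K[X]), c ≠ 0 ∧
        b * eval₂ (aeval j : K[X] →ₐ[K] F).toRingHom b ψ = aeval j c := by
  intro m
  induction m with
  | zero =>
    intro χ hdeg h0 h
    rw [Polynomial.eq_C_of_natDegree_le_zero hdeg, eval₂_C] at h
    refine ⟨0, χ.coeff 0, ?_, ?_⟩
    · intro hc
      apply h0
      rw [Polynomial.eq_C_of_natDegree_le_zero hdeg, hc, map_zero]
    · rw [eval₂_zero, mul_zero]; exact h.symm
  | succ m ih =>
    intro χ hdeg h0 h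
    have hdiv := Polynomial.divX_mul_X_add χ
    by_cases hc : χ.coeff 0 = 0
    · rw [hc, map_zero, add_zero] at hdiv
      have h1 : χ.divX ≠ 0 := by
        intro h2; rw [h2, zero_mul] at hdiv; exact h0 hdiv.symm
      have h2 : eval₂ (aeval j : K[X] →ₐ[K] F).toRingHom b χ.divX = 0 := by
        rw [← hdiv, eval₂_mul, eval₂_X] at h
        exact (mul_eq_zero.1 h).resolve_right hb
      refine ih χ.divX ?_ h1 h2
      rw [Polynomial.natDegree_divX_eq_natDegree_tsub_one]
      omega
    · refine ⟨-χ.divX, χ.coeff 0, hc, ?_⟩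
      rw [← hdiv, eval₂_add, eval₂_mul, eval₂_X, eval₂_C] at h
      rw [eval₂_neg]
      have h3 : (aeval j : K[X] →ₐ[K] F).toRingHom (χ.coeff 0) = aeval j (χ.coeff 0) := rfl
      rw [h3] at h
      linear_combination -h

section Main

variable (φ : MvPolynomial σ K →ₐ[K] F) (X1 : MvPolynomial σ K) (n : ℕ)
  (hfrac : ∀ f : F, ∃ P Q, φ Q ≠ 0 ∧ f = φ P / φ Q)
  (hann : ∀ P, ∃ χ : K[X][X], χ.Monic ∧ χ.natDegree = n ∧
    eval₂ (aeval (φ X1) : K[X] →ₐ[K] F).toRingHom (φ P) χ = 0)

include hfrac hann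

theorem finiteDimensional [Finite σ] : FiniteDimensional K⟮φ X1⟯ F := by
  set E := K⟮φ X1⟯ with hE
  have hint : ∀ x ∈ Set.range (fun i : σ => φ (MvPolynomial.X i)), IsIntegral E x := by
    rintro _ ⟨i, rfl⟩
    obtain ⟨χ, h1, -, h2⟩ := hann (MvPolynomial.X i)
    exact isIntegral_of_annihilator _ _ h1 h2
  have h1 := IntermediateField.finiteDimensional_adjoin hint
  have h2 : IntermediateField.adjoin E (Set.range (fun i : σ => φ (MvPolynomial.X i))) = ⊤ := by
    rw [eq_top_iff]
    intro f _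
    have h3 : ∀ P, φ P ∈ IntermediateField.adjoin E (Set.range (fun i : σ => φ (MvPolynomial.X i))) := by
      intro P
      induction P using MvPolynomial.induction_on with
      | C a =>
        have : φ (MvPolynomial.C a) = algebraMap E F (algebraMap K E a) := by
          rw [← IsScalarTower.algebraMap_apply, ← MvPolynomial.algebraMap_eq, AlgHom.commutes]
        rw [this]
        exact IntermediateField.algebraMap_mem _ _
      | add p q hp hq => rw [map_add]; exact add_mem hp hq
      | mul_X p i hp =>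
        rw [map_mul]
        exact mul_mem hp (IntermediateField.subset_adjoin _ _ ⟨i, rfl⟩)
    obtain ⟨P, Q, -, rfl⟩ := hfrac f
    exact div_mem (h3 P) (h3 Q)
  rw [h2] at h1
  exact Module.Finite.equiv (IntermediateField.topEquiv (F := E) (E := F)).toLinearEquiv

theorem finrank_le [Finite σ] [CharZero K] (hj : Transcendental K (φ X1)) :
    Module.finrank K⟮φ X1⟯ F ≤ n := by
  have hfin := finiteDimensional φ X1 n hfrac hann
  set E := K⟮φ X1⟯ with hE
  obtain ⟨α, hα⟩ := Field.exists_primitive_element E F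
  obtain ⟨P, Q, hQ, hPQ⟩ := hfrac α
  obtain ⟨χ, h1, -, h2⟩ := hann Q
  obtain ⟨ψ, c, hc, hψ⟩ := exists_cofactor (φ X1) (φ Q) hQ _ χ le_rfl h1.ne_zero h2
  -- `eval₂ .. ψ` lies in the range of `φ`
  have hrange : ∀ ψ : K[X][X], ∃ R, eval₂ (aeval (φ X1) : K[X] →ₐ[K] F).toRingHom (φ Q) ψ = φ R := by
    intro ψ
    induction ψ using Polynomial.induction_on' with
    | add p q hp hq =>
      obtain ⟨R1, h1⟩ := hp
      obtain ⟨R2, h2⟩ := hq
      exact ⟨R1 + R2, by rw [eval₂_add, h1, h2, map_add]⟩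
    | monomial k a =>
      refine ⟨aeval X1 a * Q ^ k, ?_⟩
      rw [eval₂_monomial, map_mul, map_pow, ← Polynomial.aeval_algHom_apply]
      rfl
  obtain ⟨R, hR⟩ := hrange ψ
  have hs : aeval (φ X1) c ≠ 0 := fun h => hc ((transcendental_iff.1 hj) c h)
  set β := φ (P * R) with hβ
  have hαβ : α = β * (aeval (φ X1) c)⁻¹ := by
    rw [hPQ, hβ, map_mul, ← hψ, hR]
    have hR0 : φ R ≠ 0 := by
      intro h; rw [hR, h, mul_zero] at hψ; exact hs hψ.symm
    field_simp
  have hsE : aeval (φ X1) c ∈ E⟮β⟯ := by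
    have : aeval (φ X1) c = algebraMap E F (aeval (AdjoinSimple.gen K (φ X1)) c) := by
      rw [← Polynomial.aeval_algebraMap_apply]
      rfl
    rw [this]
    exact IntermediateField.algebraMap_mem _ _
  have htop : E⟮β⟯ = ⊤ := by
    rw [eq_top_iff, ← hα, adjoin_simple_le_iff, hαβ]
    exact mul_mem (mem_adjoin_simple_self E β) (inv_mem hsE)
  obtain ⟨χ', h1', h2', h3'⟩ := hann (P * R)
  have hint : IsIntegral E β := isIntegral_of_annihilator _ _ h1' h3'
  have h4 := IntermediateField.adjoin.finrank hint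
  rw [htop, IntermediateField.finrank_top'] at h4
  rw [h4, ← h2']
  exact natDegree_minpoly_le _ _ h1' h3'

omit hfrac hann in
theorem le_finrank [Field L] [Algebra K L] {X : Type*} [Finite X] (j : F)
    [FiniteDimensional K⟮j⟯ F] (e : X → (F →ₐ[K] L)) (he : Function.Injective e)
    (hj : ∀ x y, e x j = e y j) : Nat.card X ≤ Module.finrank K⟮j⟯ F := by
  rcases isEmpty_or_nonempty X with h | ⟨⟨x0⟩⟩
  · simp
  set E := K⟮j⟯ with hE
  let _ : Algebra E L := ((e x0).comp E.val).toRingHom.toAlgebra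
  have hagree : ∀ x, (e x).comp E.val = (e x0).comp E.val := by
    intro x
    apply IntermediateField.adjoin_algHom_ext
    intro y hy
    rw [Set.mem_singleton_iff] at hy
    subst hy
    exact hj x x0
  let e' : X → (F →ₐ[E] L) := fun x =>
    { (e x).toRingHom with
      commutes' := fun c => by
        have := congrArg (fun f : E →ₐ[K] L => f c) (hagree x)
        exact this }
  have he' : Function.Injective e' := by
    intro x y h
    apply he
    ext f
    exact congrArg (fun g : F →ₐ[E] L => g f) h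
  calc Nat.card X ≤ Nat.card (F →ₐ[E] L) := Nat.card_le_card_of_injective e' he'
    _ ≤ Module.finrank E F := card_algHom_le_finrank E F L

end Main

end Fermat.Agent.S24lib.DegAbs
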