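import Fermat.Agent.S20.LevelOne

/-!
# S24 library, task J2: surjectivity of the analytic `j`-function
-/

set_option autoImplicit false

open UpperHalfPlane ModularForm MatrixGroups Filter Topology
open scoped Manifold

namespace Fermat.Agent.S24lib.JSurj

open Fermat.Agent.S20lib

local notation "Δ" => ModularForm.discriminant

/-- local copy of the `j`-function -/
noncomputable def jf (τ : ℍ) : ℂ := (E₄ τ) ^ 3 / Δ τ

theorem mdiff_jf : MDiff jf :=
  (isR_E4.holo.pow 3).div isR_disc.holo discriminant_ne_zero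

theorem jf_smul (g : SL(2, ℤ)) (τ : ℍ) : jf (g • τ) = jf τ := by
  have hd : denom g τ ≠ 0 := denom_ne_zero g τ
  have h4 : E₄ (g • τ) = E₄ τ * denom g τ ^ (4 : ℤ) := by
    have h := congrFun (isR_E4.inv g) τ
    rw [ModularForm.SL_slash_apply] at h
    rw [← h, mul_assoc, ← zpow_add₀ hd]
    simp
  have h12 : Δ (g • τ) = Δ τ * denom g τ ^ (12 : ℤ) := by
    have h := congrFun (isR_disc.inv g) τ
    rw [ModularForm.SL_slash_apply] at h
    rw [← h, mul_assoc, ← zpow_add₀ hd]
    simp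
  have hΔ := discriminant_ne_zero τ
  unfold jf
  rw [h4, h12]
  have h5 : (denom g τ ^ (4 : ℤ)) ^ 3 = denom g τ ^ (12 : ℤ) := by
    rw [← zpow_natCast, ← zpow_mul]; norm_num
  rw [mul_pow, h5, mul_div_mul_right _ _ (zpow_ne_zero _ hd)]

theorem tendsto_norm_jf : Tendsto (fun τ => ‖jf τ‖) atImInfty atTop := by
  have h1 : Tendsto (fun τ : ℍ => ‖(E₄ τ) ^ 3‖) atImInfty (𝓝 1) := by
    simpa using ((tendsto_E4.pow 3).norm)
  have h2 : Tendsto (fun τ : ℍ => ‖Δ τ‖) atImInfty (𝓝[>] 0) := by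
    rw [tendsto_nhdsWithin_iff]
    refine ⟨?_, Eventually.of_forall fun τ => norm_pos_iff.2 (discriminant_ne_zero τ)⟩
    have : Tendsto (fun τ : ℍ => Δ τ) atImInfty (𝓝 0) := discriminant_isZeroAtImInfty
    simpa using this.norm
  have h3 := h2.inv_tendsto_nhdsGT_zero
  have h4 := h3.atTop_mul_pos one_pos h1
  refine h4.congr fun τ => ?_
  simp [jf, div_eq_mul_inv, mul_comm]

/-- `j` as a function on `ℂ` -/
noncomputable def J (z : ℂ) : ℂ := jf (ofComplex z)

theorem differentiableOn_J : DifferentiableOn ℂ J upperHalfPlaneSet :=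
  UpperHalfPlane.mdifferentiable_iff.1 mdiff_jf

theorem J_coe (τ : ℍ) : J τ = jf τ := by
  simp [J]

theorem range_jf : Set.range jf = J '' upperHalfPlaneSet := by
  ext w
  constructor
  · rintro ⟨τ, rfl⟩
    exact ⟨τ, τ.im_pos, J_coe τ⟩
  · rintro ⟨z, hz, rfl⟩
    exact ⟨ofComplex z, rfl⟩

theorem isOpen_range_jf : IsOpen (Set.range jf) := by
  rw [range_jf]
  have han : AnalyticOnNhd ℂ J upperHalfPlaneSet :=
    differentiableOn_J.analyticOnNhd isOpen_upperHalfPlaneSet
  have hconv : Convex ℝ upperHalfPlaneSet := by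
    have : upperHalfPlaneSet = Complex.imCLM ⁻¹' (Set.Ioi 0) := rfl
    rw [this]
    exact (convex_Ioi 0).linear_preimage Complex.imCLM.toLinearMap
  rcases han.is_constant_or_isOpen hconv.isPreconnected with ⟨w, hw⟩ | h
  · exfalso
    have h1 : ∀ τ : ℍ, ‖jf τ‖ = ‖w‖ := fun τ => by rw [← J_coe, hw _ τ.im_pos]
    have h2 := tendsto_norm_jf
    simp_rw [h1] at h2
    exact not_tendsto_const_atTop _ _ h2
  · exact h _ subset_rfl isOpen_upperHalfPlaneSet

/-- the truncated fundamental domain, as a compact subset of `ℂ` -/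
def box (A : ℝ) : Set ℂ := {z | |z.re| ≤ 1 / 2 ∧ 1 / 2 ≤ z.im ∧ z.im ≤ A}

theorem isCompact_box (A : ℝ) : IsCompact (box A) := by
  have h : box A = Set.Icc (-(1 / 2) : ℝ) (1 / 2) ×ℂ Set.Icc (1 / 2 : ℝ) A := by
    ext z
    simp only [box, Set.mem_ofPred_eq, Complex.mem_reProdIm, Set.mem_Icc, abs_le]
  rw [h]
  exact isCompact_Icc.reProdIm isCompact_Icc

theorem box_subset (A : ℝ) : box A ⊆ upperHalfPlaneSet := by
  intro z hz
  have := hz.2.1
  show 0 < z.im
  linarith

theorem isClosed_range_jf : IsClosed (Set.range jf) := by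
  rw [← closure_subset_iff_isClosed]
  intro w hw
  -- a bound on the imaginary part
  have h1 : ∀ᶠ τ in atImInfty, ‖w‖ + 1 ≤ ‖jf τ‖ := tendsto_norm_jf.eventually_ge_atTop _
  obtain ⟨A, hA⟩ := (atImInfty_mem _).1 h1
  have h2 : Metric.ball 0 (‖w‖ + 1) ∩ Set.range jf ⊆ J '' box A := by
    rintro _ ⟨hb, τ, rfl⟩
    obtain ⟨g, hg⟩ := ModularGroup.exists_smul_mem_fd τ
    refine ⟨((g • τ : ℍ) : ℂ), ⟨hg.2, ?_, ?_⟩, by rw [J_coe, jf_smul]⟩
    · have h3 := ModularGroup.three_le_four_mul_im_sq_of_mem_fd hg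
      have h4 := (g • τ).im_pos
      show 1 / 2 ≤ (g • τ).im
      nlinarith
    · show (g • τ).im ≤ A
      by_contra hcon
      have h5 := hA (g • τ) (not_le.1 hcon).le
      simp only [Set.mem_ofPred_eq, jf_smul] at h5
      rw [mem_ball_zero_iff] at hb
      linarith
  have h3 : IsClosed (J '' box A) :=
    ((isCompact_box A).image_of_continuousOn
      (differentiableOn_J.continuousOn.mono (box_subset A))).isClosed
  have h4 : w ∈ closure (Metric.ball 0 (‖w‖ + 1) ∩ Set.range jf) :=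
    Metric.isOpen_ball.inter_closure ⟨by simp, hw⟩
  have h5 := (closure_minimal h2 h3) h4
  rw [range_jf]
  exact Set.image_mono (box_subset A) h5

/-- **Surjectivity of `j`.** -/
theorem jf_surjective : Function.Surjective jf := by
  rw [← Set.range_eq_univ]
  exact IsClopen.eq_univ ⟨isClosed_range_jf, isOpen_range_jf⟩ (Set.range_nonempty _)

/-- the statement in unfolded form -/
theorem surjective_E4_cube_div_disc :
    Function.Surjective (fun τ : ℍ => (E₄ τ) ^ 3 / Δ τ) := jf_surjective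

end Fermat.Agent.S24lib.JSurj
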