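import Fermat.Agent.S24.ChartDefs

/-!
# S24 library, task G3: Möbius germs, cusp translations
-/

set_option autoImplicit false

open UpperHalfPlane hiding I
open ModularForm MatrixGroups Filter Topology ModularCurve Complex
open scoped Manifold Real

namespace Fermat.Agent.S24lib

theorem mob_det (g : SL(2, ℤ)) :
    ((Matrix.SpecialLinearGroup.mapGL ℝ g : GL (Fin 2) ℝ)).val.det = 1 := by
  have := Matrix.SpecialLinearGroup.det_mapGL (S := ℝ) g
  have h2 := congrArg Units.val this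
  exact h2

theorem mob_det_pos (g : SL(2, ℤ)) :
    0 < ((Matrix.SpecialLinearGroup.mapGL ℝ g : GL (Fin 2) ℝ)).val.det := by
  rw [mob_det]; exact one_pos

theorem mob_eq (g : SL(2, ℤ)) (τ₀ : ℍ) :
    mob g τ₀ = fun t : ℂ => (fun z : ℂ =>
      (((Matrix.SpecialLinearGroup.mapGL ℝ g : GL (Fin 2) ℝ) • ofComplex z : ℍ) : ℂ)) ((τ₀ : ℂ) + t)
        - τ₀ := rfl

theorem analyticAt_mob (g : SL(2, ℤ)) (τ₀ : ℍ) : AnalyticAt ℂ (mob g τ₀) 0 := by
  rw [mob_eq]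
  refine AnalyticAt.sub ?_ analyticAt_const
  have h1 : AnalyticAt ℂ (fun t : ℂ => (τ₀ : ℂ) + t) 0 := analyticAt_const.add analyticAt_id
  have h2 := analyticAt_smul (mob_det_pos g) τ₀
  refine AnalyticAt.fun_comp (g := fun z : ℂ =>
      (((Matrix.SpecialLinearGroup.mapGL ℝ g : GL (Fin 2) ℝ) • ofComplex z : ℍ) : ℂ)) ?_ h1
  simpa using h2

theorem mob_zero {g : SL(2, ℤ)} {τ₀ : ℍ} (h : g • τ₀ = τ₀) : mob g τ₀ 0 = 0 := by
  simp only [mob, add_zero, ofComplex_apply, h, sub_self]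

theorem deriv_mob (g : SL(2, ℤ)) (τ₀ : ℍ) : deriv (mob g τ₀) 0 = (denom g τ₀) ^ (-2 : ℤ) := by
  have h2 := (hasStrictDerivAt_smul (mob_det_pos g) τ₀).hasDerivAt
  have h1 : HasDerivAt (fun t : ℂ => (τ₀ : ℂ) + t) 1 0 := (hasDerivAt_id (0:ℂ)).const_add _
  have h3 : HasDerivAt (mob g τ₀) ((((Matrix.SpecialLinearGroup.mapGL ℝ g : GL (Fin 2) ℝ)).val.det /
      denom (Matrix.SpecialLinearGroup.mapGL ℝ g : GL (Fin 2) ℝ) τ₀ ^ 2) * 1) 0 := by
    rw [mob_eq]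
    refine HasDerivAt.sub_const _ ?_
    refine HasDerivAt.comp (h₂ := fun z : ℂ =>
      (((Matrix.SpecialLinearGroup.mapGL ℝ g : GL (Fin 2) ℝ) • ofComplex z : ℍ) : ℂ)) 0 ?_ h1
    simpa using h2
  rw [h3.deriv, mob_det, mul_one, zpow_neg, Complex.ofReal_one, one_div]
  rfl

theorem ofComplex_add_mob (g : SL(2, ℤ)) (τ₀ : ℍ) (t : ℂ) :
    ofComplex ((τ₀ : ℂ) + mob g τ₀ t) = g • ofComplex ((τ₀ : ℂ) + t) := by
  simp only [mob, add_sub_cancel, ofComplex_apply]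

theorem denom_mul_of_fixed (g' : SL(2, ℤ)) {g : SL(2, ℤ)} {τ₀ : ℍ} (h : g • τ₀ = τ₀) :
    denom (g' * g : SL(2, ℤ)) τ₀ = denom g' τ₀ * denom g τ₀ := by
  have h1 := denom_cocycle (Matrix.SpecialLinearGroup.mapGL ℝ g')
      (Matrix.SpecialLinearGroup.mapGL ℝ g) τ₀.im_ne_zero
  have h2 : num (Matrix.SpecialLinearGroup.mapGL ℝ g) τ₀ /
      denom (Matrix.SpecialLinearGroup.mapGL ℝ g) τ₀ = ((g • τ₀ : ℍ) : ℂ) := by
    rw [coe_specialLinearGroup_apply]; rfl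
  rw [h2, h, ← map_mul] at h1
  exact h1

theorem denom_pow_of_fixed {g : SL(2, ℤ)} {τ₀ : ℍ} (h : g • τ₀ = τ₀) (k : ℕ) :
    denom (g ^ k : SL(2, ℤ)) τ₀ = denom g τ₀ ^ k := by
  induction k with
  | zero => simp [denom]
  | succ k ih =>
    rw [pow_succ, pow_succ, ← ih, denom_mul_of_fixed _ h]

theorem conj_T_zpow_mul_mem_Gamma0 (N : ℕ) (γ : SL(2, ℤ)) (m : ℤ) :
    γ * ModularGroup.T ^ (m * N) * γ⁻¹ ∈ CongruenceSubgroup.Gamma0 N := by
  have h1 : ModularGroup.T ^ (m * N) ∈ CongruenceSubgroup.Gamma N := by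
    rw [CongruenceSubgroup.Gamma_mem, ModularGroup.coe_T_zpow]; simp
  have h2 := (CongruenceSubgroup.Gamma_normal N).conj_mem _ h1 γ
  rw [CongruenceSubgroup.Gamma_mem] at h2
  rw [CongruenceSubgroup.Gamma0_mem]
  exact h2.2.2.1

variable (N : ℕ) [NeZero N]

/-- translating by `T ^ k` in the cusp chart is `q ↦ exp (2 π i k / N) q`, up to `Γ₀(N)` -/
theorem cCusp_T_zpow (γ : SL(2, ℤ)) (k : ℤ) :
    ∀ᶠ q in 𝓝[≠] (0 : ℂ), ∃ δ ∈ CongruenceSubgroup.Gamma0 N,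
      cCusp N (γ * ModularGroup.T ^ k) q = δ • cCusp N γ (Complex.exp (2 * π * I * k / N) * q) := by
  have hN : (0 : ℝ) < N := by exact_mod_cast Nat.pos_of_ne_zero (NeZero.ne N)
  have h0 : ∀ᶠ q in 𝓝[≠] (0 : ℂ), 0 < (Function.Periodic.invQParam N q).im := by
    have := Function.Periodic.invQParam_tendsto hN
    exact this.eventually (Filter.preimage_mem_comap (Filter.Ioi_mem_atTop 0))
  filter_upwards [h0, self_mem_nhdsWithin] with q hq hq0
  have hq0 : q ≠ 0 := hq0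
  set z : ℂ := Function.Periodic.invQParam N q with hz
  obtain ⟨m, hm⟩ := Function.Periodic.qParam_left_inv_mod_period hN.ne' (z + k)
  have h1 : Function.Periodic.qParam N (z + k) = Complex.exp (2 * π * I * k / N) * q := by
    have := Function.Periodic.qParam_right_inv hN.ne' hq0
    rw [← hz] at this
    conv_rhs => rw [← this]
    simp only [Function.Periodic.qParam, ← Complex.exp_add]
    congr 1
    push_cast
    ring
  rw [h1] at hm
  refine ⟨γ * ModularGroup.T ^ ((-m) * N) * γ⁻¹, conj_T_zpow_mul_mem_Gamma0 N γ (-m), ?_⟩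
  simp only [cCusp]
  rw [← hz, hm, ← mul_smul, inv_mul_cancel_right, mul_smul, mul_smul]
  congr 1
  have hz' : 0 < (z + k + m * (N : ℝ) : ℂ).im := by
    simpa using hq
  rw [modular_T_zpow_smul, modular_T_zpow_smul]
  ext
  rw [coe_vadd, coe_vadd, ofComplex_apply_of_im_pos hq, ofComplex_apply_of_im_pos hz']
  simp
  ring

end Fermat.Agent.S24lib
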