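import Mathlib
import Fermat.Agent.S24.RHBasic

/-!
# S24 library: places of a function field and primes of the integral closure of `K[y]`;
the fundamental identity `∑_{v | y} ord_v y = [F : K(y)]`.
-/

set_option autoImplicit false

open AlgebraicCurve IsLocalRing IntermediateField WithZero IsDedekindDomain
open scoped IntermediateField.algebraAdjoinAdjoin

namespace Fermat.Agent.S24RH

variable {K F : Type*} [Field K] [Field F] [Algebra K F]

theorem ord_eq_of_valuation (v : Place K F) (ν : Valuation F ℤᵐ⁰)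
    (hν : ν.valuationSubring = v.toValuationSubring) (hπ : ∃ π : F, ν π = exp (-1 : ℤ)) (f : F) :
    v.ord f = -(WithZero.log (ν f)) := by
  rcases eq_or_ne f 0 with rfl | hf
  · simp
  have hmem : ∀ g : F, g ∈ v.toValuationSubring ↔ ν g ≤ 1 := by
    intro g; rw [← hν, Valuation.mem_valuationSubring_iff]
  have hunit : ∀ u : v.toValuationSubringˣ, ν ((u : v.toValuationSubring) : F) = 1 := by
    intro u
    have h1 := (hmem _).1 (u : v.toValuationSubring).2
    have h2 := (hmem _).1 ((u⁻¹ : v.toValuationSubringˣ) : v.toValuationSubring).2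
    have h3 : ((u : v.toValuationSubring) : F) *
        (((u⁻¹ : v.toValuationSubringˣ) : v.toValuationSubring) : F) = 1 := by
      have := congrArg (Subtype.val) (u.mul_inv)
      exact this
    have h4 : ν ((u : v.toValuationSubring) : F) *
        ν (((u⁻¹ : v.toValuationSubringˣ) : v.toValuationSubring) : F) = 1 := by
      rw [← map_mul, h3, map_one]
    refine le_antisymm h1 ?_
    calc (1 : ℤᵐ⁰) = ν ((u : v.toValuationSubring) : F) *
          ν (((u⁻¹ : v.toValuationSubringˣ) : v.toValuationSubring) : F) := h4.symm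
      _ ≤ ν ((u : v.toValuationSubring) : F) * 1 := by gcongr
      _ = _ := mul_one _
  obtain ⟨ϖ, hϖ⟩ := IsDiscreteValuationRing.exists_irreducible v.toValuationSubring
  have hϖ0 : (ϖ : F) ≠ 0 := by simpa using hϖ.ne_zero
  have hνϖ0 : ν (ϖ : F) ≠ 0 := (Valuation.ne_zero_iff _).2 hϖ0
  have key : ∀ g : F, g ≠ 0 → WithZero.log (ν g) = v.ord g * WithZero.log (ν (ϖ : F)) := by
    intro g hg
    obtain ⟨u, hu⟩ := v.exists_unit_mul_zpow hg hϖ
    conv_lhs => rw [hu]
    rw [map_mul, hunit, one_mul, map_zpow₀, WithZero.log_zpow, smul_eq_mul]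
  obtain ⟨π, hπ⟩ := hπ
  have hπ0 : π ≠ 0 := by
    rintro rfl
    rw [map_zero] at hπ
    exact WithZero.exp_ne_zero hπ.symm
  have h1 := key π hπ0
  rw [hπ, WithZero.log_exp] at h1
  have h2 : WithZero.log (ν (ϖ : F)) ≤ 0 := by
    have := (hmem _).1 ϖ.2
    rw [← WithZero.log_one]
    exact (WithZero.log_le_log hνϖ0 one_ne_zero).2 this
  have h3 : WithZero.log (ν (ϖ : F)) = -1 := by
    have hd : WithZero.log (ν (ϖ : F)) ∣ 1 := ⟨- v.ord π, by linarith⟩
    rcases Int.isUnit_iff.1 (isUnit_of_dvd_one hd) with h | h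
    · omega
    · exact h
  rw [key f hf, h3]; ring

section Dedekind

variable {R : Type*} [CommRing R] [IsDedekindDomain R] [Algebra R F] [IsFractionRing R F]
  [Algebra K R] [IsScalarTower K R F]

theorem ord_ofHeightOneSpectrum (w : HeightOneSpectrum R) (f : F) :
    (Place.ofHeightOneSpectrum (K := K) w).ord f = -(WithZero.log (w.valuation F f)) :=
  ord_eq_of_valuation _ _ rfl (w.valuation_exists_uniformizer F) f

theorem ofHeightOneSpectrum_injective :
    Function.Injective (Place.ofHeightOneSpectrum (K := K) (F := F) (R := R)) := by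
  intro w w' h
  apply HeightOneSpectrum.ext
  ext r
  have h1 : ∀ f : F, w.valuation F f = w'.valuation F f := by
    intro f
    rcases eq_or_ne f 0 with rfl | hf
    · simp
    have h2 := ord_ofHeightOneSpectrum (K := K) w f
    have h3 := ord_ofHeightOneSpectrum (K := K) w' f
    rw [h] at h2
    have h4 : WithZero.log (w.valuation F f) = WithZero.log (w'.valuation F f) := by
      linarith
    rw [← WithZero.exp_log ((Valuation.ne_zero_iff (w.valuation F)).2 hf), h4,
      WithZero.exp_log ((Valuation.ne_zero_iff (w'.valuation F)).2 hf)]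
  rw [← w.valuation_lt_one_iff_mem (K := F), ← w'.valuation_lt_one_iff_mem (K := F), h1]

theorem exists_heightOneSpectrum (v : Place K F)
    (h : ∀ r : R, algebraMap R F r ∈ v.toValuationSubring) :
    ∃ w : HeightOneSpectrum R, Place.ofHeightOneSpectrum (K := K) w = v := by
  let φ : R →+* v.toValuationSubring := (algebraMap R F).codRestrict v.toValuationSubring.toSubring h
  have hφ : ∀ r, ((φ r : v.toValuationSubring) : F) = algebraMap R F r := fun r => rfl
  let P : Ideal R := (maximalIdeal v.toValuationSubring).comap φ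
  have hP : P.IsPrime := Ideal.comap_isPrime φ _
  have hP0 : P ≠ ⊥ := by
    intro hbot
    apply v.ne_top'
    rw [eq_top_iff]
    intro f _
    obtain ⟨a, b, hb, rfl⟩ := IsFractionRing.div_surjective (A := R) f
    have hb0 : b ≠ 0 := nonZeroDivisors.ne_zero hb
    have hbP : b ∉ P := by rw [hbot]; simpa using hb0
    have hu : IsUnit (φ b) := by
      by_contra hnu
      exact hbP hnu
    obtain ⟨u, hu⟩ := hu
    have : (algebraMap R F b)⁻¹ = ((u⁻¹ : v.toValuationSubringˣ) : v.toValuationSubring) := by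
      rw [← hφ, ← hu]
      have h2 : ((u : v.toValuationSubring) : F) *
          (((u⁻¹ : v.toValuationSubringˣ) : v.toValuationSubring) : F) = 1 :=
        congrArg Subtype.val u.mul_inv
      exact inv_eq_of_mul_eq_one_right h2
    rw [div_eq_mul_inv, this]
    exact mul_mem (h a) (Subtype.prop _)
  refine ⟨⟨P, hP, hP0⟩, place_ext_of_le ?_⟩
  intro f hf
  rw [Place.ofHeightOneSpectrum_toValuationSubring, Valuation.mem_valuationSubring_iff] at hf
  obtain ⟨n, d, hnd⟩ := HeightOneSpectrum.exists_primeCompl_mul_eq_of_integer _ f hf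
  have hd : (d : R) ∉ P := d.2
  have hu : IsUnit (φ d) := by
    by_contra hnu
    exact hd hnu
  obtain ⟨u, hu⟩ := hu
  have h1 : f = (φ n : F) * ((u⁻¹ : v.toValuationSubringˣ) : v.toValuationSubring) := by
    have h2 : ((u : v.toValuationSubring) : F) *
        (((u⁻¹ : v.toValuationSubringˣ) : v.toValuationSubring) : F) = 1 :=
      congrArg Subtype.val u.mul_inv
    rw [hφ, ← hnd, ← hφ, ← hu, mul_assoc, h2, mul_one]
  rw [h1]
  exact mul_mem (Subtype.prop _) (Subtype.prop _)

theorem ord_ofHeightOneSpectrum_pos_iff (w : HeightOneSpectrum R) (r : R) (hr : r ≠ 0) :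
    0 < (Place.ofHeightOneSpectrum (K := K) w).ord (algebraMap R F r) ↔ r ∈ w.asIdeal := by
  have h0 : w.valuation F (algebraMap R F r) ≠ 0 :=
    (Valuation.ne_zero_iff _).2 (by simpa using hr)
  rw [ord_ofHeightOneSpectrum, ← w.valuation_lt_one_iff_mem (K := F), Left.neg_pos_iff,
    ← WithZero.log_one, WithZero.log_lt_log h0 one_ne_zero]

end Dedekind

/-! ### abstract commutative algebra -/

theorem exists_const_of_liesOver {K A B : Type*} [Field K] [IsAlgClosed K] [CommRing A]
    [CommRing B] [Algebra K A] [Algebra A B] [Algebra K B] [IsScalarTower K A B]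
    [Algebra.IsIntegral A B] (p : Ideal A) (hp : ∀ a : A, ∃ c : K, a - algebraMap K A c ∈ p)
    (q : Ideal B) [q.IsPrime] [q.LiesOver p] (b : B) : ∃ c : K, b - algebraMap K B c ∈ q := by
  have h1 : Function.Surjective (algebraMap K (A ⧸ p)) := by
    intro a
    obtain ⟨a, rfl⟩ := Ideal.Quotient.mk_surjective a
    obtain ⟨c, hc⟩ := hp a
    refine ⟨c, ?_⟩
    rw [IsScalarTower.algebraMap_apply K A (A ⧸ p),
      Ideal.Quotient.algebraMap_eq, eq_comm, Ideal.Quotient.eq]
    exact hc
  have : Algebra.IsIntegral K (A ⧸ p) :=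
    Algebra.IsIntegral.of_surjective (Algebra.ofId K _) h1
  have : Algebra.IsIntegral (A ⧸ p) (B ⧸ q) := inferInstance
  have : IsScalarTower K (A ⧸ p) (B ⧸ q) := inferInstance
  have : Algebra.IsIntegral K (B ⧸ q) := Algebra.IsIntegral.trans (A ⧸ p)
  obtain ⟨c, hc⟩ := (IsAlgClosed.algebraMap_bijective_of_isIntegral (k := K) (K := B ⧸ q)).2
    (Ideal.Quotient.mk q b)
  refine ⟨c, ?_⟩
  rw [← Ideal.Quotient.eq, ← hc]
  rfl

theorem inertiaDeg_eq_one_of_const {K A B : Type*} [Field K] [CommRing A]
    [CommRing B] [Algebra K A] [Algebra A B] [Algebra K B] [IsScalarTower K A B]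
    (p : Ideal A) [p.IsMaximal]
    (q : Ideal B) [q.IsMaximal] [q.LiesOver p] (hq : ∀ b : B, ∃ c : K, b - algebraMap K B c ∈ q) :
    q.inertiaDeg A = 1 := by
  rw [Ideal.inertiaDeg_eq_of_isMaximal p q]
  have hs : Function.Surjective (algebraMap (A ⧸ p) (B ⧸ q)) := by
    intro b
    obtain ⟨b, rfl⟩ := Ideal.Quotient.mk_surjective b
    obtain ⟨c, hc⟩ := hq b
    refine ⟨Ideal.Quotient.mk p (algebraMap K A c), ?_⟩
    rw [eq_comm, Ideal.Quotient.algebraMap_mk_of_liesOver, Ideal.Quotient.eq,
      ← IsScalarTower.algebraMap_apply]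
    exact hc
  let _ : Field (A ⧸ p) := Ideal.Quotient.field p
  let _ : Field (B ⧸ q) := Ideal.Quotient.field q
  have hb : Function.Bijective (algebraMap (A ⧸ p) (B ⧸ q)) :=
    ⟨(algebraMap (A ⧸ p) (B ⧸ q)).injective, hs⟩
  have e : (A ⧸ p) ≃ₗ[A ⧸ p] (B ⧸ q) :=
    LinearEquiv.ofBijective (Algebra.linearMap (A ⧸ p) (B ⧸ q)) hb
  rw [← e.finrank_eq, Module.finrank_self]

theorem liesOver_span_of_mem {A B : Type*} [CommRing A] [CommRing B] [Algebra A B]
    [IsDedekindDomain A] (y : A) (hy : Prime y) (q : Ideal B) [q.IsPrime]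
    (hq : algebraMap A B y ∈ q) : q.LiesOver (Ideal.span {y}) := by
  have hp0 : Ideal.span {y} ≠ ⊥ := by
    rw [Ne, Ideal.span_singleton_eq_bot]; exact hy.ne_zero
  have hpp : (Ideal.span {y}).IsPrime := (Ideal.span_singleton_prime hy.ne_zero).2 hy
  have hpm : (Ideal.span {y}).IsMaximal := hpp.isMaximal hp0
  have h1 : Ideal.span {y} ≤ q.under A := by
    rw [Ideal.span_singleton_le_iff_mem]
    exact hq
  have h2 : q.under A ≠ ⊤ := (Ideal.IsPrime.under A q).ne_top
  exact ⟨hpm.eq_of_le h2 h1⟩

theorem sum_valuation_eq_finrank {K A B F : Type*} [Field K] [IsAlgClosed K] [CommRing A]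
    [CommRing B] [Field F] [Algebra K A] [Algebra A B] [Algebra K B] [IsScalarTower K A B]
    [Algebra B F] [IsDedekindDomain A] [IsDedekindDomain B] [IsFractionRing B F]
    [Module.Finite A B] [Module.Flat A B] [FaithfulSMul A B]
    (y : A) (hy : Prime y) (hconst : ∀ a : A, ∃ c : K, a - algebraMap K A c ∈ Ideal.span {y}) :
    ∃ s : Finset (HeightOneSpectrum B), (∀ w, w ∈ s ↔ algebraMap A B y ∈ w.asIdeal) ∧
      ∑ w ∈ s, -(WithZero.log (w.valuation F (algebraMap B F (algebraMap A B y))))
        = Module.finrank A B := by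
  classical
  set p : Ideal A := Ideal.span {y} with hp
  have hp0 : p ≠ ⊥ := by
    rw [hp, Ne, Ideal.span_singleton_eq_bot]; exact hy.ne_zero
  have hpp : p.IsPrime := (Ideal.span_singleton_prime hy.ne_zero).2 hy
  have hpm : p.IsMaximal := hpp.isMaximal hp0
  have hinj : Function.Injective (algebraMap A B) := FaithfulSMul.algebraMap_injective A B
  have hyB : algebraMap A B y ≠ 0 := by
    rw [Ne, map_eq_zero_iff _ hinj]; exact hy.ne_zero
  have hmap : p.map (algebraMap A B) = Ideal.span {algebraMap A B y} := by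
    rw [hp, Ideal.map_span, Set.image_singleton]
  have hmap0 : p.map (algebraMap A B) ≠ ⊥ := by
    rw [hmap, Ne, Ideal.span_singleton_eq_bot]; exact hyB
  have : Fintype (p.primesOver B) := (Algebra.QuasiFinite.finite_primesOver p).fintype
  have hsum := Ideal.sum_ramification_inertia_eq_finrank p B
  have hq0 : ∀ q : p.primesOver B, q.1 ≠ ⊥ := by
    intro q
    have : q.1.LiesOver p := q.2.2
    exact Ideal.ne_bot_of_liesOver_of_ne_bot hp0 q.1
  let f : p.primesOver B → HeightOneSpectrum B := fun q => ⟨q.1, q.2.1, hq0 q⟩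
  have hf : Function.Injective f := by
    intro q q' h
    apply Subtype.ext
    exact congrArg HeightOneSpectrum.asIdeal h
  refine ⟨Finset.univ.image f, ?_, ?_⟩
  · intro w
    simp only [Finset.mem_image, Finset.mem_univ, true_and]
    constructor
    · rintro ⟨q, rfl⟩
      have : q.1.LiesOver p := q.2.2
      exact (Ideal.mem_of_liesOver q.1 p y).1 (Ideal.mem_span_singleton_self y)
    · intro h
      have := w.isPrime
      exact ⟨⟨w.asIdeal, w.isPrime, liesOver_span_of_mem y hy w.asIdeal h⟩, rfl⟩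
  · rw [Finset.sum_image (fun a _ b _ h => hf h), ← hsum]
    push_cast
    refine Finset.sum_congr rfl fun q _ => ?_
    have h1 : q.1.IsPrime := q.2.1
    have h2 : q.1.LiesOver p := q.2.2
    have h3 : q.1.IsMaximal := h1.isMaximal (hq0 q)
    rw [inertiaDeg_eq_one_of_const (K := K) p q.1 (exists_const_of_liesOver p hconst q.1),
      Ideal.IsDedekindDomain.ramificationIdx_eq_multiplicity p q.1 hmap0, hmap,
      HeightOneSpectrum.valuation_of_algebraMap,
      HeightOneSpectrum.intValuation_eq_exp_neg_multiplicity _ hyB, WithZero.log_exp]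
    simp [f]

/-! ### the rings `K[y]` and its integral closure -/

variable (K) in
/-- `K[y]` -/
abbrev polyRing (y : F) : Subalgebra K F := Algebra.adjoin K {y}

variable (K) in
/-- the integral closure of `K[y]` in `F` -/
abbrev intRing (y : F) : Subalgebra (polyRing K y) F := integralClosure (polyRing K y) F

variable (K) in
/-- `y` as an element of `K[y]` -/
def polyGen (y : F) : polyRing K y := ⟨y, Algebra.self_mem_adjoin_singleton K y⟩

theorem polyRing_pid (y : F) (hy : Transcendental K y) : IsPrincipalIdealRing (polyRing K y) :=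
  IsPrincipalIdealRing.of_surjective
    (Polynomial.algEquivOfTranscendental K y hy).toRingEquiv.toRingHom
    (Polynomial.algEquivOfTranscendental K y hy).surjective

theorem polyGen_prime (y : F) (hy : Transcendental K y) : Prime (polyGen K y) := by
  have h := (MulEquiv.prime_iff (Polynomial.algEquivOfTranscendental K y hy).toMulEquiv
    (p := (Polynomial.X : Polynomial K))).2 Polynomial.prime_X
  have h2 : (Polynomial.algEquivOfTranscendental K y hy).toMulEquiv Polynomial.X = polyGen K y := by
    show (Polynomial.algEquivOfTranscendental K y hy) Polynomial.X = polyGen K y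
    rw [Polynomial.algEquivOfTranscendental_apply_X]; rfl
  rwa [h2] at h

/-- every element of `K[y]` is congruent to a constant modulo `y` -/
theorem polyRing_exists_const (y : F) (a : polyRing K y) :
    ∃ c : K, a - algebraMap K (polyRing K y) c ∈ Ideal.span {polyGen K y} := by
  obtain ⟨a, ha⟩ := a
  induction ha using Algebra.adjoin_induction with
  | mem x hx =>
    refine ⟨0, ?_⟩
    rw [Set.mem_singleton_iff] at hx
    subst hx
    rw [map_zero, sub_zero]
    exact Ideal.subset_span rfl
  | algebraMap r =>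
    refine ⟨r, ?_⟩
    have : (⟨algebraMap K F r, Subalgebra.algebraMap_mem _ r⟩ : polyRing K y)
        - algebraMap K (polyRing K y) r = 0 := by
      rw [sub_eq_zero]; rfl
    rw [this]
    exact zero_mem _
  | add x z hx hz h1 h2 =>
    obtain ⟨c, hc⟩ := h1
    obtain ⟨d, hd⟩ := h2
    refine ⟨c + d, ?_⟩
    convert add_mem hc hd using 1
    rw [map_add]
    apply Subtype.ext
    simp only [Subalgebra.coe_sub, Subalgebra.coe_add]
    ring
  | mul x z hx hz h1 h2 =>
    obtain ⟨c, hc⟩ := h1
    obtain ⟨d, hd⟩ := h2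
    refine ⟨c * d, ?_⟩
    have : (⟨x * z, mul_mem hx hz⟩ : polyRing K y) - algebraMap K _ (c * d)
        = (⟨x, hx⟩ - algebraMap K _ c) * ⟨z, hz⟩
          + algebraMap K _ c * (⟨z, hz⟩ - algebraMap K _ d) := by
      rw [map_mul]
      apply Subtype.ext
      simp only [Subalgebra.coe_sub, Subalgebra.coe_add, Subalgebra.coe_mul]
      ring
    rw [this]
    exact add_mem (Ideal.mul_mem_right _ _ hc) (Ideal.mul_mem_left _ _ hd)

theorem mem_of_isIntegral (v : Place K F) (A : Subalgebra K F)
    (hA : ∀ a ∈ A, a ∈ v.toValuationSubring) (b : F) (hb : IsIntegral A b) :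
    b ∈ v.toValuationSubring := by
  let φ : A →+* v.toValuationSubring :=
    (algebraMap A F).codRestrict v.toValuationSubring.toSubring (fun a => hA a a.2)
  have h1 : IsIntegral v.toValuationSubring b :=
    hb.map_of_comp_eq φ (RingHom.id F) (by ext; rfl)
  obtain ⟨z, hz⟩ := (IsIntegrallyClosed.isIntegral_iff (R := v.toValuationSubring) (K := F)).1 h1
  rw [← hz]
  exact z.2

theorem polyRing_le (v : Place K F) (y : F) (hy : y ∈ v.toValuationSubring) :
    ∀ a ∈ polyRing K y, a ∈ v.toValuationSubring := by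
  intro a ha
  induction ha using Algebra.adjoin_induction with
  | mem x hx => rw [Set.mem_singleton_iff] at hx; rw [hx]; exact hy
  | algebraMap r => exact v.algebraMap_mem' r
  | add x z _ _ h1 h2 => exact add_mem h1 h2
  | mul x z _ _ h1 h2 => exact mul_mem h1 h2

theorem intRing_le (v : Place K F) (y : F) (hy : y ∈ v.toValuationSubring) (b : intRing K y) :
    algebraMap (intRing K y) F b ∈ v.toValuationSubring :=
  mem_of_isIntegral v (polyRing K y) (polyRing_le v y hy) _ b.2

theorem faithfulSMul_polyRing_intRing (y : F) : FaithfulSMul (polyRing K y) (intRing K y) := by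
  rw [faithfulSMul_iff_algebraMap_injective]
  intro a b h
  exact Subtype.ext (congrArg (fun z : intRing K y => (z : F)) h)

/-- **Fundamental identity**: the zeros of `y`, counted with multiplicity, are `[F : K(y)]`
in number. -/
theorem sum_ord_zeros [IsAlgClosed K] [CharZero K] (y : F) (hy : Transcendental K y)
    [FiniteDimensional K⟮y⟯ F] :
    ∃ s : Finset (Place K F), (∀ v, v ∈ s ↔ 0 < v.ord y) ∧
      ∑ v ∈ s, v.ord y = Module.finrank K⟮y⟯ F := by
  classical
  have := polyRing_pid y hy
  have : IsDedekindDomain (intRing K y) := integralClosure.isDedekindDomain (polyRing K y) K⟮y⟯ F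
  have : IsFractionRing (intRing K y) F := integralClosure.isFractionRing_of_finite_extension K⟮y⟯ F
  have : Module.Finite (polyRing K y) (intRing K y) :=
    IsIntegralClosure.finite (polyRing K y) K⟮y⟯ F (intRing K y)
  have hrank : Module.finrank (polyRing K y) (intRing K y) = Module.finrank K⟮y⟯ F :=
    IsIntegralClosure.rank (polyRing K y) K⟮y⟯ F (intRing K y)
  have := faithfulSMul_polyRing_intRing (K := K) y
  obtain ⟨s, hs, hsum⟩ := sum_valuation_eq_finrank (K := K) (A := polyRing K y)
    (B := intRing K y) (F := F) (polyGen K y) (polyGen_prime y hy) (polyRing_exists_const y)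
  have hy0 : algebraMap (polyRing K y) (intRing K y) (polyGen K y) ≠ 0 := by
    intro h
    have h2 : y = 0 := congrArg (fun z : intRing K y => (z : F)) h
    exact hy (h2 ▸ isAlgebraic_zero)
  have hyc : algebraMap (intRing K y) F (algebraMap (polyRing K y) (intRing K y) (polyGen K y)) = y :=
    rfl
  refine ⟨s.image (Place.ofHeightOneSpectrum (K := K)), ?_, ?_⟩
  · intro v
    simp only [Finset.mem_image]
    constructor
    · rintro ⟨w, hw, rfl⟩
      exact (ord_ofHeightOneSpectrum_pos_iff (K := K) (F := F) w _ hy0).2 ((hs w).1 hw)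
    · intro hv
      obtain ⟨w, rfl⟩ := exists_heightOneSpectrum (R := intRing K y) v
        (intRing_le v y (mem_of_ord_nonneg v hv.le))
      exact ⟨w, (hs w).2 ((ord_ofHeightOneSpectrum_pos_iff (K := K) (F := F) w _ hy0).1 hv), rfl⟩
  · rw [Finset.sum_image (fun a _ b _ h => ofHeightOneSpectrum_injective h), ← hrank, ← hsum]
    refine Finset.sum_congr rfl fun w _ => ?_
    rw [ord_ofHeightOneSpectrum, hyc]

/-! ### exchange -/

theorem isAlgebraic_adjoin_swap {x y : F} (hx : Transcendental K x) (hy : Transcendental K y)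
    (h : IsAlgebraic K⟮x⟯ y) : IsAlgebraic K⟮y⟯ x := by
  have h1 := IsAlgebraic.adjoin_singleton (R := K) (A := F) (B := F) hx hy
    (isAlgebraic_adjoin_iff.mp h)
  exact isAlgebraic_adjoin_iff.mpr h1

theorem finiteDimensional_adjoin_of_transcendental {x y : F} (hx : Transcendental K x)
    [FiniteDimensional K⟮x⟯ F] (hy : Transcendental K y) : FiniteDimensional K⟮y⟯ F :=
  let Fyx := restrictScalars K K⟮y⟯⟮x⟯
  let Fxy := restrictScalars K K⟮x⟯⟮y⟯
  let : Algebra K⟮y⟯ Fyx := K⟮y⟯⟮x⟯.algebra
  let : Module K⟮y⟯ Fyx := Algebra.toModule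
  let : SMul K⟮y⟯ Fyx := Algebra.toSMul
  let : Algebra K⟮x⟯ Fxy := K⟮x⟯⟮y⟯.algebra
  let : Module K⟮x⟯ Fxy := Algebra.toModule
  let : SMul K⟮x⟯ Fxy := Algebra.toSMul
  have : FiniteDimensional K⟮y⟯ Fyx :=
    adjoin.finiteDimensional
      (isAlgebraic_iff_isIntegral.mp
        (isAlgebraic_adjoin_swap hx hy (Algebra.IsAlgebraic.isAlgebraic y)))
  have : FiniteDimensional Fyx F := by
    unfold Fyx
    rw [adjoin_simple_comm]
    have : IsScalarTower K⟮x⟯ Fxy F := isScalarTower_mid' K⟮x⟯⟮y⟯
    exact .right K⟮x⟯ Fxy F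
  have : IsScalarTower K⟮y⟯ Fyx F := isScalarTower_mid' K⟮y⟯⟮x⟯
  .trans K⟮y⟯ Fyx F

end Fermat.Agent.S24RH
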