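import Mathlib
import Fermat.Agent.S24.RHFibre

/-!
# S24 library: residue fields of places, degree of principal divisors
-/

set_option autoImplicit false

open AlgebraicCurve IsLocalRing IntermediateField WithZero IsDedekindDomain
open scoped IntermediateField.algebraAdjoinAdjoin

namespace Fermat.Agent.S24RH

variable {K F : Type*} [Field K] [Field F] [Algebra K F]

variable (K F) in
/-- `F/K` is a function field in one variable. -/
def IsFF : Prop := ∃ x : F, Transcendental K x ∧ FiniteDimensional K⟮x⟯ F

theorem IsFF.finiteDimensional (h : IsFF K F) {y : F} (hy : Transcendental K y) :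
    FiniteDimensional K⟮y⟯ F := by
  obtain ⟨x, hx, hfin⟩ := h
  exact finiteDimensional_adjoin_of_transcendental hx hy

theorem transcendental_of_not_mem_range [IsAlgClosed K] {t : F}
    (h : t ∉ Set.range (algebraMap K F)) : Transcendental K t := by
  intro halg
  apply h
  have hint : IsIntegral K t := halg.isIntegral
  have hdeg := IsAlgClosed.degree_eq_one_of_irreducible K (minpoly.irreducible hint)
  exact minpoly.mem_range_of_degree_eq_one K t hdeg

theorem transcendental_of_ord_ne_zero [IsAlgClosed K] (v : Place K F) {t : F} (h : v.ord t ≠ 0) :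
    Transcendental K t := by
  apply transcendental_of_not_mem_range
  rintro ⟨c, rfl⟩
  exact h (ord_algebraMap v c)

/-- the residue field of a place is `K` -/
theorem exists_const [IsAlgClosed K] [CharZero K] (hFF : IsFF K F) (v : Place K F) {z : F}
    (hz : z ∈ v.toValuationSubring) :
    ∃ c : K, z = algebraMap K F c ∨ 0 < v.ord (z - algebraMap K F c) := by
  obtain ⟨y, hy1⟩ := exists_ord_eq_one v
  have hy : Transcendental K y := transcendental_of_ord_ne_zero v (by omega)
  have := hFF.finiteDimensional hy
  have := polyRing_pid y hy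
  have : IsDedekindDomain (intRing K y) := integralClosure.isDedekindDomain (polyRing K y) K⟮y⟯ F
  have : IsFractionRing (intRing K y) F := integralClosure.isFractionRing_of_finite_extension K⟮y⟯ F
  obtain ⟨w, rfl⟩ := exists_heightOneSpectrum (R := intRing K y) v
    (intRing_le v y (mem_of_ord_nonneg v (by omega)))
  have hy0 : algebraMap (polyRing K y) (intRing K y) (polyGen K y) ≠ 0 := by
    intro h
    have h2 : y = 0 := congrArg (fun z : intRing K y => (z : F)) h
    exact hy (h2 ▸ isAlgebraic_zero)
  have hyw : algebraMap (polyRing K y) (intRing K y) (polyGen K y) ∈ w.asIdeal :=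
    (ord_ofHeightOneSpectrum_pos_iff (K := K) (F := F) w _ hy0).1 (by
      show 0 < (Place.ofHeightOneSpectrum (K := K) w).ord y
      omega)
  have := w.isPrime
  have := liesOver_span_of_mem (polyGen K y) (polyGen_prime y hy) w.asIdeal hyw
  have hc := exists_const_of_liesOver (K := K) (Ideal.span {polyGen K y})
    (polyRing_exists_const y) w.asIdeal
  rw [Place.ofHeightOneSpectrum_toValuationSubring, Valuation.mem_valuationSubring_iff] at hz
  obtain ⟨n, d, hnd⟩ := HeightOneSpectrum.exists_primeCompl_mul_eq_of_integer _ z hz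
  obtain ⟨c1, h1⟩ := hc n
  obtain ⟨c2, h2⟩ := hc d
  have hd : (d : intRing K y) ∉ w.asIdeal := d.2
  have hd0 : (d : intRing K y) ≠ 0 := fun h => hd (h ▸ zero_mem _)
  have hc2 : c2 ≠ 0 := by
    rintro rfl
    rw [map_zero, sub_zero] at h2
    exact hd h2
  set v := Place.ofHeightOneSpectrum (K := K) (F := F) w with hv
  have hordd : v.ord (algebraMap (intRing K y) F d) = 0 := by
    have h3 : ¬ 0 < v.ord (algebraMap (intRing K y) F d) := fun h =>
      hd ((ord_ofHeightOneSpectrum_pos_iff (K := K) (F := F) w _ hd0).1 h)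
    have h4 : 0 ≤ v.ord (algebraMap (intRing K y) F d) := by
      apply ord_nonneg_of_mem
      rw [hv, Place.ofHeightOneSpectrum_toValuationSubring, Valuation.mem_valuationSubring_iff]
      exact w.valuation_le_one _
    omega
  refine ⟨c1 / c2, ?_⟩
  by_cases hzc : z = algebraMap K F (c1 / c2)
  · exact Or.inl hzc
  right
  set r : intRing K y := (n - algebraMap K _ c1) * algebraMap K _ c2
    - algebraMap K _ c1 * ((d : intRing K y) - algebraMap K _ c2) with hr
  have hrw : r ∈ w.asIdeal :=
    sub_mem (Ideal.mul_mem_right _ _ h1) (Ideal.mul_mem_left _ _ h2)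
  have hc2F : algebraMap K F c2 ≠ 0 := by simpa using hc2
  have hdF : algebraMap (intRing K y) F d ≠ 0 := by simpa using hd0
  have hrF : algebraMap (intRing K y) F r
      = (z - algebraMap K F (c1 / c2)) * (algebraMap (intRing K y) F d * algebraMap K F c2) := by
    rw [hr, map_sub, map_mul, map_mul, map_sub, map_sub, ← hnd,
      ← IsScalarTower.algebraMap_apply K (intRing K y) F,
      ← IsScalarTower.algebraMap_apply K (intRing K y) F, map_div₀]
    field_simp
    ring
  have hr0 : r ≠ 0 := by
    intro h
    rw [h, map_zero] at hrF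
    rcases mul_eq_zero.1 hrF.symm with h | h
    · exact hzc (sub_eq_zero.1 h)
    · exact (mul_ne_zero hdF hc2F) h
  have h5 := (ord_ofHeightOneSpectrum_pos_iff (K := K) (F := F) w r hr0).2 hrw
  rw [hrF, v.ord_mul (sub_ne_zero.2 hzc) (mul_ne_zero hdF hc2F), v.ord_mul hdF hc2F, hordd,
    ord_algebraMap] at h5
  simpa using h5

theorem deg_eq_one [IsAlgClosed K] [CharZero K] (hFF : IsFF K F) (v : Place K F) : v.deg = 1 := by
  have hs : Function.Surjective (algebraMap K v.ResidueField) := by
    intro b
    obtain ⟨z, rfl⟩ := IsLocalRing.residue_surjective b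
    obtain ⟨c, hc⟩ := exists_const hFF v z.2
    refine ⟨c, ?_⟩
    rw [IsScalarTower.algebraMap_apply K v.toValuationSubring v.ResidueField,
      IsLocalRing.ResidueField.algebraMap_eq, eq_comm, ← sub_eq_zero, ← map_sub,
      IsLocalRing.residue_eq_zero_iff]
    rcases hc with hc | hc
    · have : z - algebraMap K v.toValuationSubring c = 0 := by
        rw [sub_eq_zero]; exact Subtype.ext hc
      rw [this]; exact zero_mem _
    · by_cases h0 : z - algebraMap K v.toValuationSubring c = 0
      · rw [h0]; exact zero_mem _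
      · exact (ord_pos_iff_mem_maximalIdeal v _ h0).1 hc
  have hb : Function.Bijective (algebraMap K v.ResidueField) :=
    ⟨(algebraMap K v.ResidueField).injective, hs⟩
  have e : K ≃ₗ[K] v.ResidueField := LinearEquiv.ofBijective (Algebra.linearMap K v.ResidueField) hb
  rw [Place.deg, ← e.finrank_eq, Module.finrank_self]

theorem adjoin_inv_eq (y : F) : K⟮y⁻¹⟯ = K⟮y⟯ := by
  apply le_antisymm
  · rw [adjoin_simple_le_iff]
    exact inv_mem (mem_adjoin_simple_self K y)
  · rw [adjoin_simple_le_iff]
    have := inv_mem (mem_adjoin_simple_self K y⁻¹)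
    rwa [inv_inv] at this

theorem adjoin_sub_const_eq (y : F) (a : K) : K⟮y - algebraMap K F a⟯ = K⟮y⟯ := by
  apply le_antisymm
  · rw [adjoin_simple_le_iff]
    exact sub_mem (mem_adjoin_simple_self K y) (IntermediateField.algebraMap_mem _ a)
  · rw [adjoin_simple_le_iff]
    have := add_mem (mem_adjoin_simple_self K (y - algebraMap K F a))
      (IntermediateField.algebraMap_mem K⟮y - algebraMap K F a⟯ a)
    rwa [sub_add_cancel] at this

theorem transcendental_inv {y : F} (hy : Transcendental K y) : Transcendental K y⁻¹ := by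
  intro h
  apply hy
  have := h.inv
  rwa [inv_inv] at this

theorem transcendental_sub_const {y : F} (hy : Transcendental K y) (a : K) :
    Transcendental K (y - algebraMap K F a) := by
  intro h
  apply hy
  have := h.add (isAlgebraic_algebraMap (R := K) (A := F) a)
  rwa [sub_add_cancel] at this

theorem finrank_adjoin_congr {y z : F} (h : K⟮y⟯ = K⟮z⟯) :
    Module.finrank K⟮y⟯ F = Module.finrank K⟮z⟯ F := by
  rw [h]

/-- the fibre of `y` over `a`. -/
theorem sum_ord_fibre [IsAlgClosed K] [CharZero K] (y : F) (hy : Transcendental K y)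
    [FiniteDimensional K⟮y⟯ F] (a : K) :
    ∃ s : Finset (Place K F), (∀ v, v ∈ s ↔ 0 < v.ord (y - algebraMap K F a)) ∧
      ∑ v ∈ s, v.ord (y - algebraMap K F a) = Module.finrank K⟮y⟯ F := by
  have h1 := adjoin_sub_const_eq (K := K) y a
  have : FiniteDimensional K⟮y - algebraMap K F a⟯ F := by rw [h1]; infer_instance
  obtain ⟨s, hs, hsum⟩ := sum_ord_zeros (K := K) _ (transcendental_sub_const hy a)
  exact ⟨s, hs, by rw [hsum, finrank_adjoin_congr h1]⟩

/-- the fibre of `y` over `∞`. -/
theorem sum_ord_poles [IsAlgClosed K] [CharZero K] (y : F) (hy : Transcendental K y)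
    [FiniteDimensional K⟮y⟯ F] :
    ∃ s : Finset (Place K F), (∀ v, v ∈ s ↔ v.ord y < 0) ∧
      ∑ v ∈ s, v.ord y = -(Module.finrank K⟮y⟯ F : ℤ) := by
  have h1 := adjoin_inv_eq (K := K) y
  have : FiniteDimensional K⟮y⁻¹⟯ F := by rw [h1]; infer_instance
  obtain ⟨s, hs, hsum⟩ := sum_ord_zeros (K := K) _ (transcendental_inv hy)
  refine ⟨s, fun v => ?_, ?_⟩
  · rw [hs, v.ord_inv]; omega
  · rw [← finrank_adjoin_congr h1, ← hsum, ← Finset.sum_neg_distrib]
    exact Finset.sum_congr rfl fun v _ => by rw [v.ord_inv]; ring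

/-- principal divisors have finite support and degree zero -/
theorem sum_ord_eq_zero [IsAlgClosed K] [CharZero K] (hFF : IsFF K F) {f : F} (hf : f ≠ 0)
    (s : Finset (Place K F)) (hs : ∀ v, v.ord f ≠ 0 → v ∈ s) : ∑ v ∈ s, v.ord f = 0 := by
  classical
  by_cases hfK : f ∈ Set.range (algebraMap K F)
  · obtain ⟨c, rfl⟩ := hfK
    exact Finset.sum_eq_zero fun v _ => ord_algebraMap v c
  have hft := transcendental_of_not_mem_range hfK
  have := hFF.finiteDimensional hft
  obtain ⟨s0, hs0, hsum0⟩ := sum_ord_zeros (K := K) f hft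
  obtain ⟨s1, hs1, hsum1⟩ := sum_ord_poles (K := K) f hft
  have hdisj : Disjoint s0 s1 := by
    rw [Finset.disjoint_left]
    intro v h0 h1
    have := (hs0 v).1 h0
    have := (hs1 v).1 h1
    omega
  have hsub : s0 ∪ s1 ⊆ s := by
    intro v hv
    apply hs
    rcases Finset.mem_union.1 hv with h | h
    · have := (hs0 v).1 h; omega
    · have := (hs1 v).1 h; omega
  rw [← Finset.sum_subset hsub, Finset.sum_union hdisj, hsum0, hsum1]
  · ring
  · intro v _ hv
    by_contra h
    apply hv
    rcases lt_or_gt_of_ne h with h | h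
    · exact Finset.mem_union_right _ ((hs1 v).2 h)
    · exact Finset.mem_union_left _ ((hs0 v).2 h)

theorem finite_ord_ne_zero [IsAlgClosed K] [CharZero K] (hFF : IsFF K F) {f : F} (hf : f ≠ 0) :
    {v : Place K F | v.ord f ≠ 0}.Finite := by
  classical
  by_cases hfK : f ∈ Set.range (algebraMap K F)
  · obtain ⟨c, rfl⟩ := hfK
    convert Set.finite_empty
    ext v
    simp [ord_algebraMap]
  have hft := transcendental_of_not_mem_range hfK
  have := hFF.finiteDimensional hft
  obtain ⟨s0, hs0, -⟩ := sum_ord_zeros (K := K) f hft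
  obtain ⟨s1, hs1, -⟩ := sum_ord_poles (K := K) f hft
  refine (s0 ∪ s1).finite_toSet.subset ?_
  intro v hv
  rcases lt_or_gt_of_ne hv with h | h
  · exact Finset.mem_coe.2 (Finset.mem_union_right _ ((hs1 v).2 h))
  · exact Finset.mem_coe.2 (Finset.mem_union_left _ ((hs0 v).2 h))

end Fermat.Agent.S24RH
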