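import Mathlib
import Fermat.Agent.S24.RHDeg

/-!
# S24 library: differentials of a function field and the local computation of `ord_v (dx)`
-/

set_option autoImplicit false

open AlgebraicCurve IsLocalRing IntermediateField WithZero IsDedekindDomain KaehlerDifferential
open scoped IntermediateField.algebraAdjoinAdjoin TensorProduct

namespace Fermat.Agent.S24RH



theorem kaehler_abstract {K A F : Type*} [Field K] [CommRing A] [Field F] [Algebra K A]
    [Algebra A F] [Algebra K F] [IsScalarTower K A F] [Algebra.FormallyEtale A F] (g : A)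
    (δ : Derivation K A A) (hδ : δ g = 1) (hspan : ∀ a : A, D K A a = δ a • D K A g) :
    Submodule.span F {D K F (algebraMap A F g)} = ⊤ ∧
      ∃ δF : Derivation K F F, δF (algebraMap A F g) = 1 := by
  let e := tensorKaehlerEquivOfFormallyEtale K A F
  constructor
  · have h0 : ∀ ω : Ω[A⁄K], ∃ a : A, ω = a • D K A g := by
      intro ω
      have h1 : ω ∈ Submodule.span A (Set.range (D K A)) := by
        rw [span_range_derivation]; trivial
      induction h1 using Submodule.span_induction with
      | mem x hx =>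
        obtain ⟨a, rfl⟩ := hx
        exact ⟨_, hspan a⟩
      | zero => exact ⟨0, by simp⟩
      | add x y _ _ hx hy =>
        obtain ⟨a, rfl⟩ := hx
        obtain ⟨b, rfl⟩ := hy
        exact ⟨a + b, by rw [add_smul]⟩
      | smul a x _ hx =>
        obtain ⟨b, rfl⟩ := hx
        exact ⟨a * b, by rw [mul_smul]⟩
    have h2 : ∀ x, e x ∈ Submodule.span F {D K F (algebraMap A F g)} := by
      intro x
      induction x using TensorProduct.induction_on with
      | zero => simp
      | add x y hx hy => rw [map_add]; exact add_mem hx hy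
      | tmul f ω =>
        obtain ⟨a, rfl⟩ := h0 ω
        rw [tensorKaehlerEquivOfFormallyEtale_apply, mapBaseChange_tmul, map_smul, map_D]
        refine Submodule.smul_mem _ _ ?_
        rw [algebra_compatible_smul F a]
        exact Submodule.smul_mem _ _ (Submodule.mem_span_singleton_self _)
    rw [eq_top_iff]
    intro ω _
    obtain ⟨x, rfl⟩ := e.surjective ω
    exact h2 x
  · let φ : F ⊗[A] Ω[A⁄K] →ₗ[F] F :=
      (TensorProduct.AlgebraTensorModule.rid A F F).toLinearMap ∘ₗ
        (LinearMap.baseChange F δ.liftKaehlerDifferential)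
    refine ⟨(φ ∘ₗ e.symm.toLinearMap).compDer (D K F), ?_⟩
    have h3 : e.symm (D K F (algebraMap A F g)) = 1 ⊗ₜ D K A g :=
      tensorKaehlerEquivOfFormallyEtale_symm_D_algebraMap K A F g
    show φ (e.symm (D K F (algebraMap A F g))) = 1
    rw [h3]
    simp [φ, hδ]




/-- transport of the derivative of polynomials along an algebra isomorphism -/
theorem exists_derivation_of_equiv {K A : Type*} [Field K] [CommRing A] [Algebra K A]
    (e : Polynomial K ≃ₐ[K] A) :
    ∃ δ : Derivation K A A, δ (e Polynomial.X) = 1 ∧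
      ∀ a : A, D K A a = δ a • D K A (e Polynomial.X) := by
  let L : A →ₗ[K] A := e.toLinearMap ∘ₗ Polynomial.derivative ∘ₗ e.symm.toLinearMap
  have hL : ∀ a, L a = e (Polynomial.derivative (e.symm a)) := fun a => rfl
  refine ⟨Derivation.mk' L ?_, ?_, ?_⟩
  · intro a b
    rw [hL, hL, hL, map_mul, Polynomial.derivative_mul, map_add, map_mul, map_mul]
    simp only [AlgEquiv.apply_symm_apply, smul_eq_mul]
    ring
  · show L (e Polynomial.X) = 1
    rw [hL]; simp
  · intro a
    show D K A a = L a • _
    obtain ⟨P, rfl⟩ := e.surjective a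
    rw [hL, AlgEquiv.symm_apply_apply]
    have h1 : ∀ Q : Polynomial K, e Q = Polynomial.aeval (e Polynomial.X) Q := by
      intro Q
      have : (e : Polynomial K →ₐ[K] A) = Polynomial.aeval (e Polynomial.X) := by
        apply Polynomial.algHom_ext
        simp
      exact congrArg (fun f : Polynomial K →ₐ[K] A => f Q) this
    rw [h1 (Polynomial.derivative P)]
    conv_lhs => rw [h1 P]
    rw [Derivation.map_aeval]

variable {K F : Type*} [Field K] [Field F] [Algebra K F]

theorem formallyEtale_polyRing [CharZero K] (t : F) [FiniteDimensional K⟮t⟯ F] :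
    Algebra.FormallyEtale (polyRing K t) F := by
  have h1 : Algebra.FormallyEtale (polyRing K t) K⟮t⟯ :=
    Algebra.FormallyEtale.of_isLocalization (nonZeroDivisors (polyRing K t))
  have h2 : Algebra.FormallyEtale K⟮t⟯ F := Algebra.FormallyEtale.of_isSeparable K⟮t⟯ F
  exact Algebra.FormallyEtale.comp (polyRing K t) K⟮t⟯ F

theorem kaehler_span_and_derivation [CharZero K] (t : F) (ht : Transcendental K t)
    [FiniteDimensional K⟮t⟯ F] :
    Submodule.span F {D K F t} = ⊤ ∧ ∃ δF : Derivation K F F, δF t = 1 := by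
  have := formallyEtale_polyRing (K := K) t
  obtain ⟨δ, h1, h2⟩ := exists_derivation_of_equiv (Polynomial.algEquivOfTranscendental K t ht)
  have h3 := kaehler_abstract (K := K) (A := polyRing K t) (F := F) _ δ h1 h2
  have hg : algebraMap (polyRing K t) F (Polynomial.algEquivOfTranscendental K t ht Polynomial.X)
      = t := by
    rw [Polynomial.algEquivOfTranscendental_apply_X]; rfl
  rwa [hg] at h3



theorem exists_dCoord_eq (v : Place K F) : ∃ t : F, v.ord t = 1 ∧ v.dCoord = D K F t := by
  have hirr := (IsDiscreteValuationRing.exists_irreducible v.toValuationSubring).choose_spec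
  exact ⟨_, v.ord_coe_irreducible hirr, rfl⟩



theorem derivation_polyRing_mem (δ : Derivation K F F) (t : F) (ht : δ t = 1) :
    ∀ a ∈ polyRing K t, δ a ∈ polyRing K t := by
  intro a ha
  induction ha using Algebra.adjoin_induction with
  | mem x hx => rw [Set.mem_singleton_iff] at hx; rw [hx, ht]; exact one_mem _
  | algebraMap r => rw [Derivation.map_algebraMap]; exact zero_mem _
  | add x z _ _ h1 h2 => rw [map_add]; exact add_mem h1 h2
  | mul x z hx hz h1 h2 =>
    rw [Derivation.leibniz]
    exact add_mem (mul_mem hx h2) (mul_mem hz h1)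

theorem exists_pow_mul_mem (v : Place K F) (t : F) (ht : v.ord t = 1) (f : F) :
    ∃ M : ℕ, ∀ m ≥ M, t ^ m * f ∈ v.toValuationSubring := by
  have ht0 : t ≠ 0 := by rintro rfl; simp at ht
  rcases eq_or_ne f 0 with rfl | hf
  · exact ⟨0, fun m _ => by simp [zero_mem]⟩
  refine ⟨(- v.ord f).toNat, fun m hm => mem_of_ord_nonneg v ?_⟩
  rw [v.ord_mul (pow_ne_zero _ ht0) hf, ord_pow, ht]
  have : (((- v.ord f).toNat : ℕ) : ℤ) ≥ - v.ord f := Int.self_le_toNat _
  have : ((- v.ord f).toNat : ℤ) ≤ m := by exact_mod_cast hm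
  omega

/-- a uniform bound for the poles of `δ b`, `b` in the integral closure of `K[t]` -/
theorem exists_bound_intRing [CharZero K] (v : Place K F) (δ : Derivation K F F) (t : F)
    (hδ : δ t = 1) (ht : v.ord t = 1) [IsPrincipalIdealRing (polyRing K t)]
    [FiniteDimensional K⟮t⟯ F] :
    ∃ M : ℕ, ∀ b : intRing K t, t ^ M * δ (b : F) ∈ v.toValuationSubring := by
  have hfin : Module.Finite (polyRing K t) (intRing K t) :=
    IsIntegralClosure.finite (polyRing K t) K⟮t⟯ F (intRing K t)
  obtain ⟨S, hS⟩ := hfin.fg_top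
  have htO : t ∈ v.toValuationSubring := mem_of_ord_nonneg v (by omega)
  have ht0 : t ≠ 0 := by rintro rfl; simp at ht
  -- bound on the generators
  have h1 : ∀ S' : Finset (intRing K t),
      ∃ M : ℕ, ∀ m ≥ M, ∀ b ∈ S', t ^ m * δ (b : F) ∈ v.toValuationSubring := by
    classical
    intro S'
    induction S' using Finset.induction_on with
    | empty => exact ⟨0, by simp⟩
    | insert b S' _ ih =>
      obtain ⟨M1, hM1⟩ := ih
      obtain ⟨M2, hM2⟩ := exists_pow_mul_mem v t ht (δ (b : F))
      refine ⟨max M1 M2, fun m hm c hc => ?_⟩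
      rcases Finset.mem_insert.1 hc with rfl | hc
      · exact hM2 m (le_trans (le_max_right _ _) hm)
      · exact hM1 m (le_trans (le_max_left _ _) hm) c hc
  obtain ⟨M, hM'⟩ := h1 S
  have hM := hM' M le_rfl
  refine ⟨M, fun b => ?_⟩
  have hb : b ∈ Submodule.span (polyRing K t) (S : Set (intRing K t)) := by rw [hS]; trivial
  induction hb using Submodule.span_induction with
  | mem x hx => exact hM x hx
  | zero => simp [zero_mem]
  | add x y _ _ hx hy =>
    have : t ^ M * δ ((x + y : intRing K t) : F) = t ^ M * δ (x : F) + t ^ M * δ (y : F) := by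
      rw [Subalgebra.coe_add, map_add, mul_add]
    rw [this]; exact add_mem hx hy
  | smul a x _ hx =>
    have h2 : ((a • x : intRing K t) : F) = (a : F) * (x : F) := rfl
    have h3 : t ^ M * δ ((a • x : intRing K t) : F)
        = (a : F) * (t ^ M * δ (x : F)) + t ^ M * ((x : F) * δ (a : F)) := by
      rw [h2, Derivation.leibniz, smul_eq_mul, smul_eq_mul]; ring
    rw [h3]
    refine add_mem (mul_mem (polyRing_le v t htO _ a.2) hx)
      (mul_mem (pow_mem htO _) (mul_mem (intRing_le v t htO x) ?_))
    exact polyRing_le v t htO _ (derivation_polyRing_mem δ t hδ _ a.2)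




theorem exists_bound_place [IsAlgClosed K] [CharZero K] (hFF : IsFF K F) (v : Place K F)
    (δ : Derivation K F F) (t : F) (hδ : δ t = 1) (ht : v.ord t = 1) :
    ∃ M : ℕ, ∀ z ∈ v.toValuationSubring, t ^ M * δ z ∈ v.toValuationSubring := by
  have hy : Transcendental K t := transcendental_of_ord_ne_zero v (by omega)
  have := hFF.finiteDimensional hy
  have := polyRing_pid t hy
  have : IsDedekindDomain (intRing K t) := integralClosure.isDedekindDomain (polyRing K t) K⟮t⟯ F
  have : IsFractionRing (intRing K t) F := integralClosure.isFractionRing_of_finite_extension K⟮t⟯ F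
  obtain ⟨M, hM⟩ := exists_bound_intRing v δ t hδ ht
  refine ⟨M, fun z hz => ?_⟩
  have htO : t ∈ v.toValuationSubring := mem_of_ord_nonneg v (by omega)
  obtain ⟨w, hw⟩ := exists_heightOneSpectrum (R := intRing K t) v (intRing_le v t htO)
  have hz' : w.valuation F z ≤ 1 := by
    rw [← hw, Place.ofHeightOneSpectrum_toValuationSubring, Valuation.mem_valuationSubring_iff] at hz
    exact hz
  obtain ⟨n, d, hnd⟩ := HeightOneSpectrum.exists_primeCompl_mul_eq_of_integer _ z hz'
  have hd : (d : intRing K t) ∉ w.asIdeal := d.2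
  have hd0 : (d : intRing K t) ≠ 0 := fun h => hd (h ▸ zero_mem _)
  have hdF : algebraMap (intRing K t) F d ≠ 0 := by simpa using hd0
  have hordd : v.ord (algebraMap (intRing K t) F d) = 0 := by
    have h3 : ¬ 0 < v.ord (algebraMap (intRing K t) F d) := fun h =>
      hd ((ord_ofHeightOneSpectrum_pos_iff (K := K) (F := F) w _ hd0).1 (hw ▸ h))
    have h4 : 0 ≤ v.ord (algebraMap (intRing K t) F d) := ord_nonneg_of_mem v (intRing_le v t htO _)
    omega
  have hdinv : (algebraMap (intRing K t) F d)⁻¹ ∈ v.toValuationSubring := by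
    apply mem_of_ord_nonneg; rw [v.ord_inv, hordd]; simp
  have h5 := congrArg δ hnd
  rw [Derivation.leibniz, smul_eq_mul, smul_eq_mul] at h5
  have h6 : t ^ M * δ z = (t ^ M * δ (algebraMap (intRing K t) F n)
      - z * (t ^ M * δ (algebraMap (intRing K t) F d))) * (algebraMap (intRing K t) F d)⁻¹ := by
    rw [← h5]; field_simp; ring
  rw [h6]
  exact mul_mem (sub_mem (hM n) (mul_mem hz (hM d))) hdinv

/-- **the derivation `d/dt` preserves the valuation ring** -/
theorem derivation_mem [IsAlgClosed K] [CharZero K] (hFF : IsFF K F) (v : Place K F)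
    (δ : Derivation K F F) (t : F) (hδ : δ t = 1) (ht : v.ord t = 1) :
    ∀ z ∈ v.toValuationSubring, δ z ∈ v.toValuationSubring := by
  obtain ⟨M, hM⟩ := exists_bound_place hFF v δ t hδ ht
  have htO : t ∈ v.toValuationSubring := mem_of_ord_nonneg v (by omega)
  have ht0 : t ≠ 0 := by rintro rfl; simp at ht
  induction M with
  | zero => simpa using hM
  | succ m ih =>
    apply ih
    intro z hz
    obtain ⟨c, hc⟩ := exists_const hFF v hz
    -- `z = c + t * z₁`
    have h1 : (z - algebraMap K F c) / t ∈ v.toValuationSubring := by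
      rcases hc with hc | hc
      · rw [hc, sub_self, zero_div]; exact zero_mem _
      · have h0 : z - algebraMap K F c ≠ 0 := by
          intro h; rw [h] at hc; simp at hc
        apply mem_of_ord_nonneg
        rw [ord_div v h0 ht0, ht]; omega
    set z₁ := (z - algebraMap K F c) / t with hz₁
    have h2 : z = algebraMap K F c + t * z₁ := by
      rw [hz₁]; field_simp; ring
    have h3 : δ z = z₁ + t * δ z₁ := by
      conv_lhs => rw [h2]
      rw [map_add, Derivation.map_algebraMap, Derivation.leibniz, hδ, smul_eq_mul, smul_eq_mul]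
      ring
    have h4 : t ^ m * δ z = t ^ m * z₁ + t ^ (m + 1) * δ z₁ := by
      rw [h3]; ring
    rw [h4]
    exact add_mem (mul_mem (pow_mem htO _) h1) (hM z₁ h1)

theorem ord_natCast (v : Place K F) [CharZero K] (n : ℕ) : v.ord (n : F) = 0 := by
  have : (n : F) = algebraMap K F (n : K) := by simp
  rw [this, ord_algebraMap]

theorem ord_derivation_of_pos [IsAlgClosed K] [CharZero K] (hFF : IsFF K F) (v : Place K F)
    (δ : Derivation K F F) (t : F) (hδ : δ t = 1) (ht : v.ord t = 1) {z : F}
    (hz : 0 < v.ord z) : δ z ≠ 0 ∧ v.ord (δ z) = v.ord z - 1 := by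
  have ht0 : t ≠ 0 := by rintro rfl; simp at ht
  have hz0 : z ≠ 0 := by rintro rfl; simp at hz
  obtain ⟨n, hn⟩ := Int.eq_ofNat_of_zero_le hz.le
  have hn1 : 1 ≤ n := by omega
  obtain ⟨k, rfl⟩ : ∃ k, n = k + 1 := ⟨n - 1, by omega⟩
  set u := z / t ^ (k + 1) with hu
  have htk : t ^ (k + 1) ≠ 0 := pow_ne_zero _ ht0
  have hu0 : u ≠ 0 := div_ne_zero hz0 htk
  have hordu : v.ord u = 0 := by
    rw [hu, ord_div v hz0 htk, ord_pow, ht, hn]; push_cast; ring
  have huO : u ∈ v.toValuationSubring := mem_of_ord_nonneg v hordu.ge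
  have hδu := derivation_mem hFF v δ t hδ ht u huO
  have hzu : z = u * t ^ (k + 1) := by rw [hu]; field_simp
  have h1 : δ z = u * ((k + 1 : ℕ) : F) * t ^ k + t ^ (k + 1) * δ u := by
    conv_lhs => rw [hzu]
    rw [Derivation.leibniz, Derivation.leibniz_pow, hδ]
    simp only [smul_eq_mul, nsmul_eq_mul, Nat.add_sub_cancel]
    ring
  have hk0 : ((k + 1 : ℕ) : F) ≠ 0 := by
    have : CharZero F := charZero_of_injective_algebraMap (algebraMap K F).injective
    exact_mod_cast Nat.succ_ne_zero k
  have hmain0 : u * ((k + 1 : ℕ) : F) * t ^ k ≠ 0 := mul_ne_zero (mul_ne_zero hu0 hk0) (pow_ne_zero _ ht0)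
  have hmain : v.ord (u * ((k + 1 : ℕ) : F) * t ^ k) = k := by
    rw [v.ord_mul (mul_ne_zero hu0 hk0) (pow_ne_zero _ ht0), v.ord_mul hu0 hk0, hordu, ord_natCast,
      ord_pow, ht]; ring
  have h2 := ord_add_eq_of_lt v (f := u * ((k + 1 : ℕ) : F) * t ^ k) (g := t ^ (k + 1) * δ u) hmain0 (by
    by_cases h : δ u = 0
    · left; rw [h, mul_zero]
    · right
      rw [hmain, v.ord_mul htk h, ord_pow, ht]
      have := ord_nonneg_of_mem v hδu
      push_cast; omega)
  rw [← h1] at h2
  refine ⟨h2.1, ?_⟩
  rw [h2.2, hmain, hn]; push_cast; ring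

theorem ord_derivation [IsAlgClosed K] [CharZero K] (hFF : IsFF K F) (v : Place K F)
    (δ : Derivation K F F) (t : F) (hδ : δ t = 1) (ht : v.ord t = 1) {z : F}
    (hz : v.ord z ≠ 0) : δ z ≠ 0 ∧ v.ord (δ z) = v.ord z - 1 := by
  rcases lt_or_gt_of_ne hz with h | h
  · have hz0 : z ≠ 0 := by rintro rfl; simp at hz
    have h1 : 0 < v.ord z⁻¹ := by rw [v.ord_inv]; omega
    obtain ⟨h2, h3⟩ := ord_derivation_of_pos hFF v δ t hδ ht h1
    have h4 : δ z⁻¹ = -(z⁻¹ ^ 2) * δ z := by
      rw [Derivation.leibniz_inv, smul_eq_mul]; 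
    have h5 : δ z ≠ 0 := by
      intro h; rw [h4, h, mul_zero] at h2; exact h2 rfl
    refine ⟨h5, ?_⟩
    rw [h4, v.ord_mul (neg_ne_zero.2 (pow_ne_zero _ (inv_ne_zero hz0))) h5, ord_neg, ord_pow,
      v.ord_inv] at h3
    push_cast at h3
    omega
  · exact ord_derivation_of_pos hFF v δ t hδ ht h


end Fermat.Agent.S24RH
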