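import Mathlib
import Fermat.Agent.S24.RHDiff

/-!
# S24 library: abstract Riemann-Hurwitz formula for the prelude's `genus`

Main results (namespace `Fermat.Agent.S24RH`):
* `degree_canonicalDivisorOf`: degree of the divisor of any nonzero differential in terms of the
  number of places in the fibres of `x : F`.
* `genus_eq_of_degree`: the resulting formula for `AlgebraicCurve.genus K F`.
-/

set_option autoImplicit false

open AlgebraicCurve IsLocalRing IntermediateField WithZero IsDedekindDomain KaehlerDifferential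
open scoped IntermediateField.algebraAdjoinAdjoin TensorProduct

namespace Fermat.Agent.S24RH

variable {K F : Type*} [Field K] [Field F] [Algebra K F]

theorem nontrivial_kaehler [IsAlgClosed K] [CharZero K] (hFF : IsFF K F) : Nontrivial Ω[F⁄K] := by
  obtain ⟨x, hx, hfin⟩ := hFF
  obtain ⟨-, δ, hδ⟩ := kaehler_span_and_derivation (K := K) x hx
  refine ⟨D K F x, 0, fun h => ?_⟩
  have := congrArg δ.liftKaehlerDifferential h
  rw [Derivation.liftKaehlerDifferential_comp_D, hδ, map_zero] at this
  exact one_ne_zero this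

theorem D_ne_zero [CharZero K] {x : F} (hx : Transcendental K x) [FiniteDimensional K⟮x⟯ F] :
    D K F x ≠ 0 := by
  obtain ⟨-, δ, hδ⟩ := kaehler_span_and_derivation (K := K) x hx
  intro h
  have := congrArg δ.liftKaehlerDifferential h
  rw [Derivation.liftKaehlerDifferential_comp_D, hδ, map_zero] at this
  exact one_ne_zero this

theorem dCoordGenerates [IsAlgClosed K] [CharZero K] (hFF : IsFF K F) (v : Place K F) :
    v.DCoordGenerates := by
  obtain ⟨t, ht, hd⟩ := exists_dCoord_eq v
  have htt : Transcendental K t := transcendental_of_ord_ne_zero v (by omega)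
  have := hFF.finiteDimensional htt
  exact ⟨by rw [hd]; exact (kaehler_span_and_derivation (K := K) t htt).1⟩

theorem ordDifferential_D [IsAlgClosed K] [CharZero K] (hFF : IsFF K F) (v : Place K F) {z : F}
    (hz : v.ord z ≠ 0) :
    v.differentialCoeff (D K F z) ≠ 0 ∧ v.ordDifferential (D K F z) = v.ord z - 1 := by
  have := nontrivial_kaehler hFF
  have := dCoordGenerates hFF v
  obtain ⟨t, ht, hd⟩ := exists_dCoord_eq v
  have htt : Transcendental K t := transcendental_of_ord_ne_zero v (by omega)
  have := hFF.finiteDimensional htt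
  obtain ⟨hspan, δ, hδ⟩ := kaehler_span_and_derivation (K := K) t htt
  have h1 : D K F z = δ z • v.dCoord := by
    have h2 : D K F z ∈ Submodule.span F {D K F t} := by rw [hspan]; trivial
    obtain ⟨c, hc⟩ := Submodule.mem_span_singleton.1 h2
    have h3 := congrArg δ.liftKaehlerDifferential hc
    rw [map_smul, Derivation.liftKaehlerDifferential_comp_D,
      Derivation.liftKaehlerDifferential_comp_D, hδ, smul_eq_mul, mul_one] at h3
    rw [hd, ← hc, h3]
  have h4 := v.differentialCoeff_unique h1
  obtain ⟨h5, h6⟩ := ord_derivation hFF v δ t hδ ht hz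
  rw [Place.ordDifferential, h4]
  exact ⟨h5, h6⟩







theorem degree_eq_sum [IsAlgClosed K] [CharZero K] (hFF : IsFF K F) (E : Divisor K F)
    (T : Finset (Place K F)) (hT : E.support ⊆ T) : Divisor.degree E = ∑ v ∈ T, E v := by
  have h1 : Divisor.degree E = E.sum fun v n => n * (v.deg : ℤ) := by
    simp [Divisor.degree, Finsupp.liftAddHom_apply]
  rw [h1, Finsupp.sum_of_support_subset E hT _ (by simp)]
  exact Finset.sum_congr rfl fun v _ => by rw [deg_eq_one hFF v]; simp

theorem ordDifferential_D_sub [IsAlgClosed K] [CharZero K] (hFF : IsFF K F) (v : Place K F)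
    {x : F} {a : K} (h : 0 < v.ord (x - algebraMap K F a)) :
    v.differentialCoeff (D K F x) ≠ 0 ∧
      v.ordDifferential (D K F x) = v.ord (x - algebraMap K F a) - 1 := by
  have h1 : D K F x = D K F (x - algebraMap K F a) := by
    rw [map_sub, Derivation.map_algebraMap, sub_zero]
  rw [h1]
  exact ordDifferential_D hFF v h.ne'

theorem pole_or_fibre [IsAlgClosed K] [CharZero K] (hFF : IsFF K F) (v : Place K F) {x : F}
    (hx : Transcendental K x) : v.ord x < 0 ∨ ∃ a : K, 0 < v.ord (x - algebraMap K F a) := by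
  by_cases h : v.ord x < 0
  · exact Or.inl h
  right
  obtain ⟨c, hc⟩ := exists_const hFF v (mem_of_ord_nonneg v (not_lt.1 h))
  rcases hc with hc | hc
  · exact absurd (hc ▸ isAlgebraic_algebraMap (R := K) (A := F) c) hx
  · exact ⟨c, hc⟩

theorem fibre_disjoint (v : Place K F) {x : F} {a b : K}
    (ha : 0 < v.ord (x - algebraMap K F a)) (hb : 0 < v.ord (x - algebraMap K F b)) : a = b := by
  by_contra hab
  have h1 := le_ord_add v (f := x - algebraMap K F b) (g := -(x - algebraMap K F a)) (n := 1)
    (Or.inr (by omega)) (Or.inr (by rw [ord_neg]; omega))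
  have h2 : x - algebraMap K F b + -(x - algebraMap K F a) = algebraMap K F (a - b) := by
    rw [map_sub]; ring
  rw [h2, ord_algebraMap] at h1
  rcases h1 with h1 | h1
  · rw [map_eq_zero] at h1
    exact hab (sub_eq_zero.1 h1)
  · omega

theorem not_pole_of_fibre (v : Place K F) {x : F} {a : K}
    (ha : 0 < v.ord (x - algebraMap K F a)) : ¬ v.ord x < 0 := by
  have h1 := add_mem (mem_of_ord_nonneg v ha.le) (v.algebraMap_mem' a)
  rw [sub_add_cancel] at h1
  exact not_lt.2 (ord_nonneg_of_mem v h1)

theorem eq_one_of_sum_eq_card {ι : Type*} (s : Finset ι) (f : ι → ℤ) (h1 : ∀ i ∈ s, 1 ≤ f i)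
    (h2 : ∑ i ∈ s, f i = s.card) : ∀ i ∈ s, f i = 1 := by
  have h3 : ∑ i ∈ s, (f i - 1) = 0 := by
    rw [Finset.sum_sub_distrib, h2]; simp
  intro i hi
  have := (Finset.sum_eq_zero_iff_of_nonneg (fun j hj => by have := h1 j hj; omega)).1 h3 i hi
  omega

/-- **Riemann–Hurwitz** for `x : F → ℙ¹`. -/
theorem degree_canonicalDivisorOf [IsAlgClosed K] [CharZero K]
    [HasCanonicalDivisor (K := K) (F := F)] (x : F) (hx : Transcendental K x)
    [FiniteDimensional K⟮x⟯ F] (S : Finset K)
    (hS : ∀ a ∉ S, Nat.card {v : Place K F // 0 < v.ord (x - algebraMap K F a)}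
      = Module.finrank K⟮x⟯ F)
    {ω : Ω[F⁄K]} (hω : ω ≠ 0) :
    Divisor.degree (canonicalDivisorOf hω) =
      - (Module.finrank K⟮x⟯ F : ℤ) - Nat.card {v : Place K F // v.ord x < 0}
      + ∑ a ∈ S, ((Module.finrank K⟮x⟯ F : ℤ)
          - Nat.card {v : Place K F // 0 < v.ord (x - algebraMap K F a)}) := by
  classical
  have hFF : IsFF K F := ⟨x, hx, inferInstance⟩
  have := nontrivial_kaehler hFF
  set n := Module.finrank K⟮x⟯ F with hn
  -- `ω = c • dx`
  obtain ⟨c, hc⟩ : ∃ c : F, c • D K F x = ω := by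
    have h2 : ω ∈ Submodule.span F {D K F x} := by
      rw [(kaehler_span_and_derivation (K := K) x hx).1]; trivial
    exact Submodule.mem_span_singleton.1 h2
  have hc0 : c ≠ 0 := by
    rintro rfl; rw [zero_smul] at hc; exact hω hc.symm
  have hcoeff : ∀ v : Place K F, v.differentialCoeff (D K F x) ≠ 0 := by
    intro v
    rcases pole_or_fibre hFF v hx with h | ⟨a, h⟩
    · exact (ordDifferential_D hFF v h.ne).1
    · exact (ordDifferential_D_sub hFF v h).1
  have hval : ∀ v : Place K F, canonicalDivisorOf hω v = v.ord c + v.ordDifferential (D K F x) := by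
    intro v
    have := dCoordGenerates hFF v
    rw [canonicalDivisorOf_apply, ← hc, v.ordDifferential_smul hc0 (hcoeff v)]
  -- the finite sets
  obtain ⟨P, hP, hPsum⟩ := sum_ord_poles (K := K) x hx
  choose Z hZ hZsum using fun a : K => sum_ord_fibre (K := K) x hx a
  have hPcard : Nat.card {v : Place K F // v.ord x < 0} = P.card := Nat.subtype_card P hP
  have hZcard : ∀ a, Nat.card {v : Place K F // 0 < v.ord (x - algebraMap K F a)} = (Z a).card :=
    fun a => Nat.subtype_card (Z a) (hZ a)
  set C : Finset (Place K F) := (finite_ord_ne_zero hFF hc0).toFinset with hC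
  set R : Finset (Place K F) := P ∪ S.biUnion Z with hR
  set T : Finset (Place K F) := (canonicalDivisorOf hω).support ∪ C ∪ R with hT
  rw [degree_eq_sum hFF _ T (by rw [hT]; intro v hv; simp [hv])]
  simp_rw [hval]
  rw [Finset.sum_add_distrib, sum_ord_eq_zero hFF hc0 T (by
    intro v hv
    rw [hT, hC]
    simp [hv]), zero_add]
  -- outside `R` the differential `dx` has no zero or pole
  have hout : ∀ v ∈ T, v ∉ R → v.ordDifferential (D K F x) = 0 := by
    intro v _ hv
    rw [hR, Finset.mem_union, not_or] at hv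
    rcases pole_or_fibre hFF v hx with h | ⟨a, h⟩
    · exact absurd ((hP v).2 h) hv.1
    · have haS : a ∉ S := by
        intro haS
        exact hv.2 (Finset.mem_biUnion.2 ⟨a, haS, (hZ a v).2 h⟩)
      have h1 := eq_one_of_sum_eq_card (Z a) (fun v => v.ord (x - algebraMap K F a))
        (fun w hw => (hZ a w).1 hw) (by rw [hZsum a, ← hZcard a, hS a haS])
        v ((hZ a v).2 h)
      rw [(ordDifferential_D_sub hFF v h).2, h1]; rfl
  rw [← Finset.sum_subset (s₁ := R) (by rw [hT]; exact Finset.subset_union_right) hout, hR]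
  have hdisj1 : Disjoint P (S.biUnion Z) := by
    rw [Finset.disjoint_left]
    intro v h1 h2
    obtain ⟨a, -, ha⟩ := Finset.mem_biUnion.1 h2
    exact not_pole_of_fibre v ((hZ a v).1 ha) ((hP v).1 h1)
  have hdisj2 : Set.PairwiseDisjoint (S : Set K) Z := by
    intro a _ b _ hab
    rw [Function.onFun, Finset.disjoint_left]
    intro v h1 h2
    exact hab (fibre_disjoint v ((hZ a v).1 h1) ((hZ b v).1 h2))
  rw [Finset.sum_union hdisj1, Finset.sum_biUnion hdisj2]
  congr 1
  · rw [Finset.sum_congr rfl fun v hv => (ordDifferential_D hFF v ((hP v).1 hv).ne).2,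
      Finset.sum_sub_distrib, hPsum, hPcard]
    simp [hn]
  · refine Finset.sum_congr rfl fun a _ => ?_
    rw [Finset.sum_congr rfl fun v hv => (ordDifferential_D_sub hFF v ((hZ a v).1 hv)).2,
      Finset.sum_sub_distrib, hZsum a, hZcard a]
    simp [hn]

theorem genus_eq_of_degree [IsAlgClosed K] [CharZero K]
    [HasCanonicalDivisor (K := K) (F := F)] (x : F) (hx : Transcendental K x)
    [FiniteDimensional K⟮x⟯ F] (S : Finset K)
    (hS : ∀ a ∉ S, Nat.card {v : Place K F // 0 < v.ord (x - algebraMap K F a)}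
      = Module.finrank K⟮x⟯ F) (g : ℕ)
    (hg : (2 * g : ℤ) - 2 =
      - (Module.finrank K⟮x⟯ F : ℤ) - Nat.card {v : Place K F // v.ord x < 0}
      + ∑ a ∈ S, ((Module.finrank K⟮x⟯ F : ℤ)
          - Nat.card {v : Place K F // 0 < v.ord (x - algebraMap K F a)})) :
    genus K F = g := by
  have h : ∃ ω : Ω[F⁄K], ω ≠ 0 := ⟨D K F x, D_ne_zero hx⟩
  rw [genus, dif_pos h, degree_canonicalDivisorOf x hx S hS, ← hg]
  have : (2 * (g : ℤ) - 2 + 2).toNat = 2 * g := by
    have : (2 * (g : ℤ) - 2 + 2) = ((2 * g : ℕ) : ℤ) := by push_cast; ring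
    rw [this, Int.toNat_natCast]
  rw [this]
  omega


end Fermat.Agent.S24RH
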