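import Mathlib
import Fermat.Prelude.Def_AlgebraicCurve_DivisorClassGroup
import Fermat.Prelude.Def_AlgebraicCurve_Repartitions

/-!
# S24 library: basic facts on the prelude's `Place`
-/

set_option autoImplicit false

open AlgebraicCurve

namespace Fermat.Agent.S24lib

variable {K F : Type*} [Field K] [Field F] [Algebra K F]

theorem Place.mem_iff (v : Place K F) {f : F} :
    f ∈ v.toValuationSubring ↔ f = 0 ∨ 0 ≤ v.ord f := by
  constructor
  · intro hf
    exact v.adicValuation_le_one_iff.mp (v.adicValuation_le_one_of_mem hf)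
  · rintro (rfl | h)
    · exact zero_mem _
    · by_cases hf : f = 0
      · subst hf; exact zero_mem _
      obtain ⟨π, hπ⟩ := IsDiscreteValuationRing.exists_irreducible v.toValuationSubring
      obtain ⟨u, hu⟩ := v.exists_unit_mul_zpow hf hπ
      rw [hu]
      refine mul_mem (u : v.toValuationSubring).2 ?_
      obtain ⟨n, hn⟩ := Int.eq_ofNat_of_zero_le h
      rw [hn, zpow_natCast]
      exact pow_mem π.2 n

theorem Place.ord_add_ge (v : Place K F) {f g : F} (hfg : f + g ≠ 0) :
    min (v.ord f) (v.ord g) ≤ v.ord (f + g) ∨ f = 0 ∨ g = 0 := by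
  by_cases hf : f = 0
  · exact Or.inr (Or.inl hf)
  by_cases hg : g = 0
  · exact Or.inr (Or.inr hg)
  left
  have h := Valuation.map_add v.adicValuation f g
  rw [v.adicValuation_eq_exp_neg_ord hf, v.adicValuation_eq_exp_neg_ord hg,
    v.adicValuation_eq_exp_neg_ord hfg] at h
  rcases le_max_iff.mp h with h | h
  · rw [WithZero.exp_le_exp] at h
    exact (min_le_left _ _).trans (by omega)
  · rw [WithZero.exp_le_exp] at h
    exact (min_le_right _ _).trans (by omega)

theorem Place.ord_algebraMap (v : Place K F) (a : K) : v.ord (algebraMap K F a) = 0 := by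
  by_cases ha : a = 0
  · simp [ha]
  have h1 : algebraMap K F a ≠ 0 := by simpa using ha
  have h2 := (Place.mem_iff v).mp (v.algebraMap_mem' a)
  have h3 := (Place.mem_iff v).mp (v.algebraMap_mem' a⁻¹)
  rw [map_inv₀, v.ord_inv] at h3
  rcases h2 with h2 | h2
  · exact absurd h2 h1
  rcases h3 with h3 | h3
  · exact absurd h3 (inv_ne_zero h1)
  omega

/-- Comparison of a `ℤ`-valued "valuation" with the normalised one of a place. -/
theorem Place.exists_mul_ord (v : Place K F) (w : F → ℤ)
    (hmul : ∀ f g : F, f ≠ 0 → g ≠ 0 → w (f * g) = w f + w g)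
    (hmem : ∀ f : F, f ≠ 0 → (f ∈ v.toValuationSubring ↔ 0 ≤ w f)) :
    ∃ m : ℕ, 0 < m ∧ ∀ f : F, f ≠ 0 → w f = m * v.ord f := by
  obtain ⟨π, hπ⟩ := IsDiscreteValuationRing.exists_irreducible v.toValuationSubring
  have hπ0 : (π : F) ≠ 0 := by
    simpa [ne_eq, ZeroMemClass.coe_eq_zero] using hπ.ne_zero
  have hone : w 1 = 0 := by
    have := hmul 1 1 one_ne_zero one_ne_zero
    rw [mul_one] at this; omega
  have hinv : ∀ f : F, f ≠ 0 → w f⁻¹ = - w f := by
    intro f hf
    have := hmul f f⁻¹ hf (inv_ne_zero hf)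
    rw [mul_inv_cancel₀ hf, hone] at this; omega
  have hunit : ∀ u : v.toValuationSubringˣ, w ((u : v.toValuationSubring) : F) = 0 := by
    intro u
    have hu0 : ((u : v.toValuationSubring) : F) ≠ 0 := by
      simp [ne_eq, ZeroMemClass.coe_eq_zero]
    have h1 := (hmem _ hu0).mp (u : v.toValuationSubring).2
    have h2 : (((u : v.toValuationSubring) : F))⁻¹ ∈ v.toValuationSubring := by
      have : (((u⁻¹ : v.toValuationSubringˣ) : v.toValuationSubring) : F)
          = (((u : v.toValuationSubring) : F))⁻¹ := by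
        apply eq_inv_of_mul_eq_one_left
        have h := congrArg (Subtype.val) (u.inv_mul)
        exact h
      rw [← this]; exact SetLike.coe_mem _
    have h3 := (hmem _ (inv_ne_zero hu0)).mp h2
    rw [hinv _ hu0] at h3
    omega
  have hzpow : ∀ n : ℤ, w ((π : F) ^ n) = n * w π := by
    have hnat : ∀ n : ℕ, w ((π : F) ^ n) = n * w π := by
      intro n
      induction n with
      | zero => simp [hone]
      | succ n ih =>
        rw [pow_succ, hmul _ _ (pow_ne_zero n hπ0) hπ0, ih]; push_cast; ring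
    intro n
    obtain ⟨k, rfl | rfl⟩ := n.eq_nat_or_neg
    · rw [zpow_natCast, hnat]
    · rw [zpow_neg, zpow_natCast, hinv _ (pow_ne_zero k hπ0), hnat]; ring
  have hπpos : 0 < w π := by
    have h1 := (hmem _ hπ0).mp π.2
    rcases h1.lt_or_eq with h | h
    · exact h
    exfalso
    have h2 : ((π : F))⁻¹ ∈ v.toValuationSubring := by
      rw [hmem _ (inv_ne_zero hπ0), hinv _ hπ0]; omega
    apply hπ.not_isUnit
    refine IsUnit.of_mul_eq_one ⟨_, h2⟩ ?_
    ext
    simp [hπ0]
  refine ⟨(w π).toNat, by omega, fun f hf => ?_⟩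
  obtain ⟨u, hu⟩ := v.exists_unit_mul_zpow hf hπ
  have hu0 : ((u : v.toValuationSubring) : F) ≠ 0 := by
    simp [ne_eq, ZeroMemClass.coe_eq_zero]
  conv_lhs => rw [hu]
  rw [hmul _ _ hu0 (zpow_ne_zero _ hπ0), hunit, hzpow, Int.toNat_of_nonneg hπpos.le]
  ring


/-- A nontrivial `ℤ`-valued valuation on `F`, trivial on `K`, defines a place. -/
theorem exists_place_of_valuation (w : F → ℤ)
    (hmul : ∀ f g : F, f ≠ 0 → g ≠ 0 → w (f * g) = w f + w g)
    (hadd : ∀ f g : F, f ≠ 0 → g ≠ 0 → f + g ≠ 0 → min (w f) (w g) ≤ w (f + g))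
    (hK : ∀ a : K, a ≠ 0 → w (algebraMap K F a) = 0)
    (hnt : ∃ f : F, f ≠ 0 ∧ w f ≠ 0) :
    ∃ v : Place K F, ∃ m : ℕ, 0 < m ∧ ∀ f : F, f ≠ 0 → w f = m * v.ord f := by
  have hone : w 1 = 0 := by
    have := hmul 1 1 one_ne_zero one_ne_zero
    rw [mul_one] at this; omega
  have hinv : ∀ f : F, f ≠ 0 → w f⁻¹ = - w f := by
    intro f hf
    have := hmul f f⁻¹ hf (inv_ne_zero hf)
    rw [mul_inv_cancel₀ hf, hone] at this; omega
  have hnegone : w (-1) = 0 := by
    have := hmul (-1) (-1) (neg_ne_zero.mpr one_ne_zero) (neg_ne_zero.mpr one_ne_zero)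
    rw [neg_mul_neg, mul_one, hone] at this; omega
  have hneg : ∀ f : F, f ≠ 0 → w (-f) = w f := by
    intro f hf
    have := hmul (-1) f (neg_ne_zero.mpr one_ne_zero) hf
    rw [neg_one_mul, hnegone] at this; omega
  let O : ValuationSubring F :=
    { carrier := {f | f = 0 ∨ 0 ≤ w f}
      mul_mem' := by
        rintro a b (rfl | ha) (rfl | hb)
        · left; simp
        · left; simp
        · left; simp
        · by_cases ha0 : a = 0
          · left; simp [ha0]
          by_cases hb0 : b = 0
          · left; simp [hb0]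
          right; rw [hmul a b ha0 hb0]; omega
      one_mem' := Or.inr hone.ge
      add_mem' := by
        rintro a b ha hb
        by_cases ha0 : a = 0
        · simpa [ha0] using hb
        by_cases hb0 : b = 0
        · simpa [hb0] using ha
        by_cases hab : a + b = 0
        · exact Or.inl hab
        right
        have h1 := ha.resolve_left ha0
        have h2 := hb.resolve_left hb0
        exact (le_min h1 h2).trans (hadd a b ha0 hb0 hab)
      zero_mem' := Or.inl rfl
      neg_mem' := by
        rintro a (rfl | ha)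
        · left; simp
        · by_cases ha0 : a = 0
          · left; simp [ha0]
          right; rw [hneg a ha0]; exact ha
      mem_or_inv_mem' := by
        intro a
        by_cases ha0 : a = 0
        · exact Or.inl (Or.inl ha0)
        rcases le_total 0 (w a) with h | h
        · exact Or.inl (Or.inr h)
        · right; right; rw [hinv a ha0]; omega }
  have hmemO : ∀ f : F, f ∈ O ↔ f = 0 ∨ 0 ≤ w f := fun f => Iff.rfl
  have hPID : IsPrincipalIdealRing O := by
    constructor
    intro I
    by_cases hI : I = ⊥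
    · subst hI; exact ⟨0, by simp⟩
    obtain ⟨a₀, ha₀I, ha₀⟩ := Submodule.exists_mem_ne_zero_of_ne_bot hI
    have hex : ∃ n : ℕ, ∃ a : O, a ∈ I ∧ a ≠ 0 ∧ w (a : F) = n := by
      have h0 : (a₀ : F) ≠ 0 := by simpa using ha₀
      have := ((hmemO _).mp a₀.2).resolve_left h0
      exact ⟨(w (a₀ : F)).toNat, a₀, ha₀I, ha₀, (Int.toNat_of_nonneg this).symm⟩
    classical
    obtain ⟨a, haI, ha0, hwa⟩ := Nat.find_spec hex
    have haF : (a : F) ≠ 0 := by simpa using ha0
    refine ⟨a, le_antisymm ?_ ?_⟩
    · intro b hbI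
      by_cases hb0 : b = 0
      · subst hb0; exact zero_mem _
      have hbF : (b : F) ≠ 0 := by simpa using hb0
      have hbw := ((hmemO _).mp b.2).resolve_left hbF
      have hle : (Nat.find hex : ℤ) ≤ w (b : F) := by
        have := Nat.find_min' hex ⟨b, hbI, hb0, (Int.toNat_of_nonneg hbw).symm⟩
        omega
      have hc : (b : F) * (a : F)⁻¹ ∈ O := by
        rw [hmemO]; right
        rw [hmul _ _ hbF (inv_ne_zero haF), hinv _ haF]; omega
      rw [Submodule.mem_span_singleton]
      refine ⟨⟨_, hc⟩, ?_⟩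
      ext
      simp [haF]
    · rw [Submodule.span_le]
      simpa using haI
  have hne : O ≠ ⊤ := by
    obtain ⟨f, hf0, hf⟩ := hnt
    intro htop
    have h1 : f ∈ O := htop ▸ ValuationSubring.mem_top f
    have h2 : f⁻¹ ∈ O := htop ▸ ValuationSubring.mem_top _
    have h1' := ((hmemO _).mp h1).resolve_left hf0
    have h2' := ((hmemO _).mp h2).resolve_left (inv_ne_zero hf0)
    rw [hinv f hf0] at h2'
    omega
  let v : Place K F :=
    { toValuationSubring := O
      algebraMap_mem' := by
        intro a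
        by_cases ha : a = 0
        · left; simp [ha]
        · right; rw [hK a ha]
      ne_top' := hne
      isPrincipalIdealRing' := hPID }
  refine ⟨v, Place.exists_mul_ord v w hmul fun f hf => ?_⟩
  show f ∈ O ↔ _
  rw [hmemO]
  exact ⟨fun h => h.resolve_left hf, Or.inr⟩

end Fermat.Agent.S24lib
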