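import Fermat.Agent.S24.Dedekind
set_option autoImplicit false
set_option linter.unusedSectionVars false
set_option linter.style.haveILetI false
open AlgebraicCurve Polynomial IsDedekindDomain
namespace Fermat.Agent.S24lib

theorem norm_eq_prod_of_card {E F L I : Type*} [Field E] [Field F] [Algebra E F]
    [FiniteDimensional E F] [Algebra.IsSeparable E F] [Field L] [Algebra E L] [Fintype I]
    (σ : I → F →ₐ[E] L) (hinj : Function.Injective σ)
    (hcard : Fintype.card I = Module.finrank E F) (x : F) :
    algebraMap E L (Algebra.norm E x) = ∏ i, σ i x := by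
  classical
  let Ω := AlgebraicClosure L
  let τ : I → F →ₐ[E] Ω := fun i => (IsScalarTower.toAlgHom E L Ω).comp (σ i)
  have hτinj : Function.Injective τ := by
    intro i j h
    apply hinj
    ext y
    have := DFunLike.congr_fun h y
    exact (algebraMap L Ω).injective this
  have hbij : Function.Bijective τ := by
    rw [Fintype.bijective_iff_injective_and_card]
    exact ⟨hτinj, by rw [hcard, AlgHom.card]⟩
  have h := Algebra.norm_eq_prod_embeddings E Ω x
  rw [← hbij.prod_comp (fun s : F →ₐ[E] Ω => s x)] at h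
  apply (algebraMap L Ω).injective
  rw [← IsScalarTower.algebraMap_apply, h, map_prod]
  rfl

section emb

variable {K F C : Type*} [Field K] [Field F] [Algebra K F] [Field C] [Algebra K C]

theorem algebraMap_laurent (a : K) :
    algebraMap K (LaurentSeries C) a = HahnSeries.C (algebraMap K C a) := by
  rw [HahnSeries.algebraMap_apply', PowerSeries.algebraMap_apply, HahnSeries.ofPowerSeries_C]

theorem emb_ne_zero (emb : F →ₐ[K] LaurentSeries C) {f : F} (hf : f ≠ 0) : emb f ≠ 0 := by
  rwa [ne_eq, map_eq_zero_iff emb emb.toRingHom.injective]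

theorem exists_place_of_emb (emb : F →ₐ[K] LaurentSeries C)
    (hnt : ∃ f : F, f ≠ 0 ∧ (emb f).order ≠ 0) :
    ∃ v : Place K F, ∃ m : ℕ, 0 < m ∧ ∀ f : F, f ≠ 0 → (emb f).order = m * v.ord f := by
  refine exists_place_of_valuation (fun f => (emb f).order) ?_ ?_ ?_ hnt
  · intro f g hf hg
    simp only [map_mul]
    exact HahnSeries.order_mul (emb_ne_zero emb hf) (emb_ne_zero emb hg)
  · intro f g hf hg hfg
    simp only [map_add]
    refine HahnSeries.min_order_le_order_add ?_
    rw [← map_add]; exact emb_ne_zero emb hfg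
  · intro a ha
    simp only [AlgHom.commutes, algebraMap_laurent, HahnSeries.order_C]

end emb

section complete

variable {K F : Type*} (E : Type*) [Field K] [Field F] [Algebra K F]
  [Algebra K[X] F] [IsScalarTower K K[X] F] [FaithfulSMul K[X] F]
  [IsDedekindDomain (integralClosure K[X] F)] [IsFractionRing (integralClosure K[X] F) F]
  [Module.Finite K[X] (integralClosure K[X] F)]
  [Field E] [Algebra K[X] E] [IsFractionRing K[X] E] [Algebra E F] [IsScalarTower K[X] E F]
  [FiniteDimensional E F] [Algebra.IsSeparable E F]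
  {C : Type*} [Field C] [Algebra K C]

theorem emb_algebraMap_polynomial (emb : F →ₐ[K] LaurentSeries C) (p : K[X]) :
    emb (algebraMap K[X] F p) = aeval (emb (algebraMap K[X] F X)) p := by
  rw [algebraMap_polynomial_eq_aeval (K := K) (F := F) p]
  exact (Polynomial.aeval_algHom_apply emb (algebraMap K[X] F X) p).symm

/-- the product of all conjugates is the norm -/
theorem emb_norm_eq_prod {I : Type*} [Fintype I] (emb : I → F →ₐ[K] LaurentSeries C)
    (hinj : Function.Injective emb) (hcard : Fintype.card I = Module.finrank E F)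
    (hU : ∀ i j, emb i (algebraMap K[X] F X) = emb j (algebraMap K[X] F X)) (i₀ : I)
    (b : integralClosure K[X] F) :
    emb i₀ (algebraMap K[X] F (Algebra.intNorm K[X] (integralClosure K[X] F) b))
      = ∏ i, emb i (b : F) := by
  letI : Algebra E (LaurentSeries C) :=
    ((emb i₀).toRingHom.comp (algebraMap E F)).toAlgebra
  have hagree : ∀ i, ∀ e : E, emb i (algebraMap E F e) = emb i₀ (algebraMap E F e) := by
    intro i
    have : (emb i).toRingHom.comp (algebraMap E F) = (emb i₀).toRingHom.comp (algebraMap E F) := by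
      apply IsFractionRing.ringHom_ext (A := K[X])
      intro p
      simp only [RingHom.comp_apply, ← IsScalarTower.algebraMap_apply K[X] E F]
      show emb i _ = emb i₀ _
      rw [emb_algebraMap_polynomial (emb i) p, emb_algebraMap_polynomial (emb i₀) p, hU i i₀]
    intro e
    exact RingHom.congr_fun this e
  let σ : I → F →ₐ[E] LaurentSeries C := fun i =>
    { (emb i).toRingHom with
      commutes' := fun e => hagree i e }
  have hσinj : Function.Injective σ := by
    intro i j h
    apply hinj
    ext1 y
    exact DFunLike.congr_fun h y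
  have h := norm_eq_prod_of_card σ hσinj hcard (b : F)
  have h2 := Algebra.algebraMap_intNorm (A := K[X]) (K := E) (L := F)
    (B := integralClosure K[X] F) b
  rw [IsScalarTower.algebraMap_apply K[X] E F, h2]
  exact h

end complete

section polyord
variable {K F : Type*} [Field K] [Field F] [Algebra K F]
  [Algebra K[X] F] [IsScalarTower K K[X] F] [FaithfulSMul K[X] F]

theorem algebraMap_polynomial_ne_zero {p : K[X]} (hp : p ≠ 0) : algebraMap K[X] F p ≠ 0 := by
  rwa [ne_eq, FaithfulSMul.algebraMap_eq_zero_iff]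

theorem ord_algebraMap_polynomial_nonneg (v : Place K F) (hv : 0 < v.ord (algebraMap K[X] F X))
    (p : K[X]) : 0 ≤ v.ord (algebraMap K[X] F p) := by
  have hu : algebraMap K[X] F X ∈ v.toValuationSubring := (Place.mem_iff v).2 (Or.inr hv.le)
  rcases (Place.mem_iff v).1 (algebraMap_polynomial_mem v hu p) with h | h
  · rw [h, v.ord_zero]
  · exact h

theorem ord_algebraMap_polynomial_pos_iff (v : Place K F)
    (hv : 0 < v.ord (algebraMap K[X] F X)) {p : K[X]} (hp : p ≠ 0) :
    0 < v.ord (algebraMap K[X] F p) ↔ p.coeff 0 = 0 := by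
  have hdec := Polynomial.X_mul_divX_add p
  constructor
  · intro h
    by_contra hc
    have h1 : algebraMap K F (p.coeff 0) = algebraMap K[X] F p + - algebraMap K[X] F (X * divX p) := by
      have h5 : algebraMap K[X] F p = algebraMap K[X] F (X * divX p) + algebraMap K F (p.coeff 0) := by
        rw [IsScalarTower.algebraMap_apply K K[X] F, Polynomial.algebraMap_eq, ← map_add, hdec]
      rw [h5]
      ring
    have h0 : v.ord (algebraMap K F (p.coeff 0)) = 0 := Place.ord_algebraMap v _
    have hne : algebraMap K F (p.coeff 0) ≠ 0 := by simpa using hc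
    by_cases hq : divX p = 0
    · rw [hq, mul_zero, map_zero, neg_zero, add_zero] at h1
      rw [h1] at h0
      omega
    have hXq : algebraMap K[X] F (X * divX p) ≠ 0 :=
      algebraMap_polynomial_ne_zero (mul_ne_zero X_ne_zero hq)
    have h2 : 0 < v.ord (algebraMap K[X] F (X * divX p)) := by
      rw [map_mul, v.ord_mul (algebraMap_polynomial_ne_zero X_ne_zero)
        (algebraMap_polynomial_ne_zero hq)]
      have := ord_algebraMap_polynomial_nonneg v hv (divX p)
      omega
    have h3 : v.ord (- algebraMap K[X] F (X * divX p)) = v.ord (algebraMap K[X] F (X * divX p)) := by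
      rw [neg_eq_neg_one_mul, v.ord_mul (by simp) hXq]
      have : v.ord (-1 : F) = 0 := by
        have := Place.ord_algebraMap v (-1 : K)
        simpa using this
      rw [this, zero_add]
    rcases Place.ord_add_ge v (f := algebraMap K[X] F p)
      (g := - algebraMap K[X] F (X * divX p)) (by rw [← h1]; exact hne) with h4 | h4 | h4
    · rw [← h1, h0, h3] at h4
      omega
    · exact algebraMap_polynomial_ne_zero hp h4
    · exact hXq (by simpa using h4)
  · intro hc
    rw [hc, map_zero, add_zero] at hdec
    have hq : divX p ≠ 0 := by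
      intro hq
      rw [hq, mul_zero] at hdec
      exact hp hdec.symm
    rw [← hdec, map_mul, v.ord_mul (algebraMap_polynomial_ne_zero X_ne_zero)
        (algebraMap_polynomial_ne_zero hq)]
    have := ord_algebraMap_polynomial_nonneg v hv (divX p)
    omega

end polyord

section complete2

variable {K F : Type*} (E : Type*) [Field K] [Field F] [Algebra K F]
  [Algebra K[X] F] [IsScalarTower K K[X] F] [FaithfulSMul K[X] F]
  [IsDedekindDomain (integralClosure K[X] F)] [IsFractionRing (integralClosure K[X] F) F]
  [Module.Finite K[X] (integralClosure K[X] F)]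
  [Field E] [Algebra K[X] E] [IsFractionRing K[X] E] [Algebra E F] [IsScalarTower K[X] E F]
  [FiniteDimensional E F] [Algebra.IsSeparable E F]
  {C : Type*} [Field C] [Algebra K C]

theorem order_prod_eq_zero {I : Type*} (s : Finset I) (x : I → LaurentSeries C)
    (hx : ∀ i ∈ s, x i ≠ 0 ∧ (x i).order = 0) :
    (∏ i ∈ s, x i) ≠ 0 ∧ (∏ i ∈ s, x i).order = 0 := by
  classical
  induction s using Finset.induction_on with
  | empty => simp
  | insert a s ha ih =>
    rw [Finset.prod_insert ha]
    have h1 := hx a (Finset.mem_insert_self a s)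
    have h2 := ih (fun i hi => hx i (Finset.mem_insert_of_mem hi))
    exact ⟨mul_ne_zero h1.1 h2.1, by rw [HahnSeries.order_mul h1.1 h2.1, h1.2, h2.2, add_zero]⟩

/-- completeness: every zero of `X` is the centre of one of the `[F : E]` embeddings -/
theorem exists_emb_of_place {I : Type*} [Fintype I] (emb : I → F →ₐ[K] LaurentSeries C)
    (hinj : Function.Injective emb) (hcard : Fintype.card I = Module.finrank E F)
    (hU : ∀ i j, emb i (algebraMap K[X] F X) = emb j (algebraMap K[X] F X))
    (hpos : ∀ i, 0 < (emb i (algebraMap K[X] F X)).order)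
    (v : Place K F) (hv : 0 < v.ord (algebraMap K[X] F X)) :
    ∃ i, ∃ m : ℕ, 0 < m ∧ ∀ f : F, f ≠ 0 → (emb i f).order = m * v.ord f := by
  classical
  have hU0 : algebraMap K[X] F X ≠ 0 := algebraMap_polynomial_ne_zero X_ne_zero
  have hpl : ∀ i, ∃ w : Place K F, ∃ m : ℕ, 0 < m ∧
      ∀ f : F, f ≠ 0 → (emb i f).order = m * w.ord f :=
    fun i => exists_place_of_emb (emb i) ⟨_, hU0, (hpos i).ne'⟩
  choose w m hm hw using hpl
  by_contra hcon
  push Not at hcon
  have hne : ∀ i, w i ≠ v := by
    intro i hi
    obtain ⟨f, hf, hff⟩ := hcon i (m i) (hm i)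
    exact hff (by rw [hw i f hf, hi])
  have hwpos : ∀ i, 0 < (w i).ord (algebraMap K[X] F X) := by
    intro i
    have h1 := hw i _ hU0
    have h2 := hpos i
    rw [h1] at h2
    have h3 : (0 : ℤ) < m i := by exact_mod_cast hm i
    exact (mul_pos_iff_of_pos_left h3).1 h2
  obtain ⟨P, hP⟩ := exists_placeOf_eq v ((Place.mem_iff v).2 (Or.inr hv.le))
  have hQex : ∀ i, ∃ Q : HeightOneSpectrum (integralClosure K[X] F), placeOf Q = w i :=
    fun i => exists_placeOf_eq (w i) ((Place.mem_iff (w i)).2 (Or.inr (hwpos i).le))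
  choose Q hQ using hQex
  have hI : Nonempty I := by
    rw [← Fintype.card_pos_iff, hcard]
    exact Module.finrank_pos
  obtain ⟨i₀⟩ := hI
  have hav : ¬ ((P.asIdeal : Set (integralClosure K[X] F)) ⊆
      ⋃ i ∈ ((Finset.univ : Finset I) : Set I), (Q i).asIdeal) := by
    rw [Ideal.subset_union_prime i₀ i₀ (fun i _ _ _ => (Q i).isPrime)]
    rintro ⟨i, -, hle⟩
    have : P = Q i := HeightOneSpectrum.ext (P.isMaximal.eq_of_le (Q i).isPrime.ne_top hle)
    exact hne i (by rw [← hQ, ← this, hP])
  obtain ⟨b, hbP, hbQ⟩ := Set.not_subset.1 hav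
  have hbQ' : ∀ i, b ∉ (Q i).asIdeal := by
    intro i hi
    exact hbQ (Set.mem_biUnion (Finset.mem_coe.2 (Finset.mem_univ i)) hi)
  have hb0 : b ≠ 0 := fun h => hbQ' i₀ (h ▸ zero_mem _)
  have hbF : (b : F) ≠ 0 := by simpa using hb0
  have hord0 : ∀ i, emb i (b : F) ≠ 0 ∧ (emb i (b : F)).order = 0 := by
    intro i
    refine ⟨emb_ne_zero _ hbF, ?_⟩
    rw [hw i _ hbF]
    have h1 := mem_asIdeal_iff (K := K) (Q i) b
    have h2 : 0 ≤ (w i).ord (b : F) := by
      rcases (Place.mem_iff (w i)).1
        (integralClosure_le (w i) ((Place.mem_iff (w i)).2 (Or.inr (hwpos i).le)) b) with h | h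
      · exact absurd h hbF
      · exact h
    have h3 : ¬ 0 < (w i).ord (b : F) := fun h => hbQ' i (h1.2 (Or.inr (by rw [hQ i]; exact h)))
    have : (w i).ord (b : F) = 0 := by omega
    rw [this, mul_zero]
  have hprod := (order_prod_eq_zero Finset.univ (fun i => emb i (b : F)) (fun i _ => hord0 i)).2
  set nb := Algebra.intNorm K[X] (integralClosure K[X] F) b with hnb
  have hnb0 : nb ≠ 0 := Algebra.intNorm_ne_zero.2 hb0
  have hdvd : b ∣ algebraMap K[X] (integralClosure K[X] F) nb := Algebra.dvd_algebraMap_intNorm_self _ _ b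
  have hnbP : algebraMap K[X] (integralClosure K[X] F) nb ∈ P.asIdeal := Ideal.mem_of_dvd _ hdvd hbP
  have h1 : 0 < v.ord (algebraMap K[X] F nb) := by
    rcases (mem_asIdeal_iff (K := K) P _).1 hnbP with h | h
    · exact absurd h (by rw [FaithfulSMul.algebraMap_eq_zero_iff]; exact hnb0)
    · rw [hP] at h
      exact h
  have h2 : nb.coeff 0 = 0 := (ord_algebraMap_polynomial_pos_iff v hv hnb0).1 h1
  have h3 : 0 < (w i₀).ord (algebraMap K[X] F nb) :=
    (ord_algebraMap_polynomial_pos_iff (w i₀) (hwpos i₀) hnb0).2 h2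
  have h4 := emb_norm_eq_prod E emb hinj hcard hU i₀ b
  have h5 := hw i₀ _ (algebraMap_polynomial_ne_zero (F := F) hnb0)
  rw [h4, hprod] at h5
  have h6 : (0 : ℤ) < m i₀ := by exact_mod_cast hm i₀
  have := mul_pos h6 h3
  omega

end complete2

end Fermat.Agent.S24lib
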