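import Fermat.Agent.S24.EvH
import Fermat.Agent.S24.Gen

/-!
# S24 library, task G6: the embedding of the function field attached to a chart
-/

set_option autoImplicit false

open UpperHalfPlane hiding I
open ModularForm MatrixGroups Filter Topology ModularCurve Complex
open scoped Manifold Real

namespace Fermat.Agent.S24lib

variable {N : ℕ} [NeZero N]

theorem exists_chartEmb {c : ℂ → ℍ} (hc : IsChart N c) :
    ∃ e : FN N →ₐ[Kb] LaurentSeries ℂ,
      ∀ P : MvPolynomial (Dv N) Kb, e (evF N P) = laurent (fun t => evH N P (c t)) := by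
  let φ : MvPolynomial (Dv N) Kb →ₐ[Kb] LaurentSeries ℂ :=
    MvPolynomial.aeval (fun d : Dv N => laurent (fun t => jd d.1 (c t)))
  have hφ : ∀ P, φ P = laurent (fun t => evH N P (c t)) := fun P => (hc.laurent_evH P).symm
  have hker : ∀ P, φ P = 0 ↔ evF N P = 0 := fun P => by
    rw [hφ, hc.laurent_evH_eq_zero_iff, evF_eq_zero_iff]
  let f : MvPolynomial (Dv N) Kb →ₐ[Kb] (evF N).range := (evF N).rangeRestrict
  have hf : Function.Surjective f := (evF N).rangeRestrict_surjective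
  have hfz : ∀ P, f P = 0 ↔ evF N P = 0 := fun P => by
    rw [← Subtype.coe_inj]; rfl
  let ψ : (evF N).range →ₐ[Kb] LaurentSeries ℂ := AlgHom.liftOfSurjective f hf φ (by
    intro P hP
    rw [RingHom.mem_ker] at hP ⊢
    exact (hker P).mpr ((hfz P).mp hP))
  have hψ : ∀ P, ψ (f P) = φ P := fun P => AlgHom.liftOfSurjective_apply f hf φ _ P
  have hinj : Function.Injective ψ := by
    rw [injective_iff_map_eq_zero]
    intro a ha
    obtain ⟨P, rfl⟩ := hf a
    rw [hψ, hker] at ha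
    exact (hfz P).mpr ha
  have : IsFractionRing (evF N).range (FN N) := IsFractionRing.of_field _ _ (fun z => by
    obtain ⟨P, Q, -, h⟩ := exists_frac N z
    exact ⟨f P, f Q, h⟩)
  refine ⟨IsFractionRing.liftAlgHom hinj, fun P => ?_⟩
  rw [IsFractionRing.liftAlgHom_apply]
  have h1 : evF N P = algebraMap (evF N).range (FN N) (f P) := rfl
  rw [h1, IsFractionRing.lift_algebraMap]
  exact (hψ P).trans (hφ P)

/-- the embedding `FN N → ℂ((t))` given by expanding along the chart `c` -/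
noncomputable def chartEmb {c : ℂ → ℍ} (hc : IsChart N c) : FN N →ₐ[Kb] LaurentSeries ℂ :=
  (exists_chartEmb hc).choose

theorem chartEmb_evF {c : ℂ → ℍ} (hc : IsChart N c) (P : MvPolynomial (Dv N) Kb) :
    chartEmb hc (evF N P) = laurent (fun t => evH N P (c t)) :=
  (exists_chartEmb hc).choose_spec P

theorem chartEmb_Jgen {c : ℂ → ℍ} (hc : IsChart N c) (d : Dv N) :
    chartEmb hc (Jgen N d) = laurent (fun t => jd d.1 (c t)) := by
  have h1 : evF N (MvPolynomial.X d) = Jgen N d := MvPolynomial.aeval_X _ _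
  have h2 : evH N (MvPolynomial.X d) = jd d.1 := MvPolynomial.aeval_X _ _
  rw [← h1, chartEmb_evF, h2]

theorem order_div_laurentSeries {x y : LaurentSeries ℂ} (hx : x ≠ 0) (hy : y ≠ 0) :
    (x / y).order = x.order - y.order ∧ (x / y).leadingCoeff = x.leadingCoeff / y.leadingCoeff := by
  have hxy : x / y ≠ 0 := div_ne_zero hx hy
  have h : x / y * y = x := div_mul_cancel₀ x hy
  have h1 := HahnSeries.order_mul hxy hy
  have h2 := HahnSeries.leadingCoeff_mul (x := x / y) (y := y)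
  rw [h] at h1 h2
  have hy' : y.leadingCoeff ≠ 0 := HahnSeries.leadingCoeff_ne_zero.mpr hy
  refine ⟨by rw [h1]; ring, by rw [h2]; field_simp⟩

theorem chartEmb_comp_evF {c c' : ℂ → ℍ} (hc : IsChart N c) (hc' : IsChart N c') {σ : ℂ → ℂ}
    (hσ : AnalyticAt ℂ σ 0) (hσ0 : σ 0 = 0) (hσ' : deriv σ 0 ≠ 0)
    (h : ∀ᶠ t in 𝓝[≠] (0 : ℂ), ∃ δ ∈ CongruenceSubgroup.Gamma0 N, c' t = δ • c (σ t))
    (P : MvPolynomial (Dv N) Kb) (hP : evF N P ≠ 0) :
    chartEmb hc (evF N P) ≠ 0 ∧ chartEmb hc' (evF N P) ≠ 0 ∧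
    (chartEmb hc' (evF N P)).order = (chartEmb hc (evF N P)).order ∧
      (chartEmb hc' (evF N P)).leadingCoeff =
        deriv σ 0 ^ (chartEmb hc (evF N P)).order * (chartEmb hc (evF N P)).leadingCoeff := by
  have h0 : chartEmb hc (evF N P) ≠ 0 := (map_ne_zero _).mpr hP
  have h0' : chartEmb hc' (evF N P) ≠ 0 := (map_ne_zero _).mpr hP
  refine ⟨h0, h0', ?_⟩
  have e1 : chartEmb hc' (evF N P) = laurent ((fun t => evH N P (c t)) ∘ σ) := by
    rw [chartEmb_evF]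
    refine laurent_congr ?_
    filter_upwards [h] with t ht
    obtain ⟨δ, hδ, hδt⟩ := ht
    rw [hδt, evH_Gamma0 N P δ hδ]
    rfl
  rw [chartEmb_evF] at h0
  obtain ⟨-, -, h3, h4⟩ := laurent_comp (hc.mer_evH P) hσ hσ0 hσ' h0
  rw [e1, chartEmb_evF]
  exact ⟨h3, h4⟩

/-- change of chart by a local biholomorphism `σ`, up to `Γ₀(N)` -/
theorem chartEmb_comp {c c' : ℂ → ℍ} (hc : IsChart N c) (hc' : IsChart N c') {σ : ℂ → ℂ}
    (hσ : AnalyticAt ℂ σ 0) (hσ0 : σ 0 = 0) (hσ' : deriv σ 0 ≠ 0)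
    (h : ∀ᶠ t in 𝓝[≠] (0 : ℂ), ∃ δ ∈ CongruenceSubgroup.Gamma0 N, c' t = δ • c (σ t))
    (f : FN N) (hf : f ≠ 0) :
    (chartEmb hc' f).order = (chartEmb hc f).order ∧
      (chartEmb hc' f).leadingCoeff =
        deriv σ 0 ^ (chartEmb hc f).order * (chartEmb hc f).leadingCoeff := by
  obtain ⟨P, Q, hQ, rfl⟩ := exists_frac N f
  have hP : evF N P ≠ 0 := fun h0 => hf (by rw [h0, zero_div])
  obtain ⟨p1, p2, p3, p4⟩ := chartEmb_comp_evF hc hc' hσ hσ0 hσ' h P hP
  obtain ⟨q1, q2, q3, q4⟩ := chartEmb_comp_evF hc hc' hσ hσ0 hσ' h Q hQ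
  rw [map_div₀, map_div₀]
  obtain ⟨a1, a2⟩ := order_div_laurentSeries p1 q1
  obtain ⟨b1, b2⟩ := order_div_laurentSeries p2 q2
  refine ⟨by rw [a1, b1, p3, q3], ?_⟩
  rw [a1, a2, b2, p4, q4, zpow_sub₀ hσ']
  have hq : (chartEmb hc (evF N Q)).leadingCoeff ≠ 0 := HahnSeries.leadingCoeff_ne_zero.mpr q1
  have hz : deriv σ 0 ^ (chartEmb hc (evF N Q)).order ≠ 0 := zpow_ne_zero _ hσ'
  field_simp

variable (N)

theorem mem_Gamma0_of_jd_eq (β : SL(2, ℤ)) (h : ∀ τ : ℍ, jd N (β • τ) = jd N τ) :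
    β ∈ CongruenceSubgroup.Gamma0 N := by
  obtain ⟨a, δ, e, ζ, h1, h2, h3, h4, h5⟩ := jd_cCusp N (dvd_refl N) β
  have hN : N ≠ 0 := NeZero.ne N
  have ha : a ≠ 0 := by rintro rfl; exact hN (by rw [← h1]; ring)
  have hδ : δ ≠ 0 := by rintro rfl; exact hN (by rw [← h1]; ring)
  have he : e ≠ 0 := by
    rintro rfl
    rw [zero_mul] at h3
    exact (mul_ne_zero ha hN) h3.symm
  have : NeZero e := ⟨he⟩
  have hζ : ζ ≠ 0 := by
    rintro rfl
    rw [zero_pow hN] at h4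
    exact zero_ne_one h4
  have h6 := jd_cCusp_one N N
  have h7 : (fun q => jcusp (ζ * q ^ e)) =ᶠ[𝓝[≠] 0] (fun q => jcusp ((1 : ℂ) * q ^ (N * N))) := by
    filter_upwards [h5, h6] with q hq1 hq2
    rw [← hq1, one_mul, ← hq2]
    have : cCusp N β q = β • cCusp N 1 q := by
      simp only [cCusp, one_smul]
    rw [this, h]
  have h8 := laurent_congr h7
  rw [(laurent_comp_mul_pow meromorphicAt_jcusp hζ e).2,
    (laurent_comp_mul_pow meromorphicAt_jcusp one_ne_zero (N * N)).2, laurent_jcusp] at h8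
  have h9 := congrArg (fun S => HahnSeries.coeff S ((e : ℤ) * (-1))) h8
  simp only [qExpand_coeff_mul, coeff_twist, coeffMap_coeff, coeff_jq_neg_one, map_one,
    mul_one] at h9
  have hne : ζ ^ (-1 : ℤ) ≠ 0 := zpow_ne_zero _ hζ
  rw [h9] at hne
  -- `N * N ∣ e`
  have hdvd : ((N * N : ℕ) : ℤ) ∣ (e : ℤ) * (-1) := by
    by_contra hnd
    exact hne (qExpand_coeff_of_not_dvd _ _ hnd)
  obtain ⟨k, hk⟩ := hdvd
  rw [hk, qExpand_coeff_mul, coeff_twist, coeffMap_coeff] at hne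
  have hk1 : ¬ k < -1 := by
    intro hlt
    apply hne
    rw [coeff_jq_of_lt hlt]; simp
  have hNN : (0 : ℤ) < ((N * N : ℕ) : ℤ) := by
    exact_mod_cast Nat.pos_of_ne_zero (mul_ne_zero hN hN)
  have he0 : (0 : ℤ) < e := by exact_mod_cast Nat.pos_of_ne_zero he
  have hk2 : k < 0 := by
    by_contra hk0
    have : 0 ≤ ((N * N : ℕ) : ℤ) * k := mul_nonneg hNN.le (not_lt.mp hk0)
    omega
  have hk3 : k = -1 := by omega
  have heq : e = N * N := by
    have : (e : ℤ) = ((N * N : ℕ) : ℤ) := by rw [hk3] at hk; linarith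
    exact_mod_cast this
  -- hence `δ = 1`
  have h10 : N * δ = a := by
    have : N * (N * δ) = N * a := by rw [← mul_assoc, ← heq, h3, mul_comm]
    exact Nat.eq_of_mul_eq_mul_left (Nat.pos_of_ne_zero hN) this
  have h11 : δ * δ = 1 := by
    have : N * (δ * δ) = N * 1 := by rw [← mul_assoc, h10, h1, mul_one]
    exact Nat.eq_of_mul_eq_mul_left (Nat.pos_of_ne_zero hN) this
  have h12 : δ = 1 := Nat.eq_one_of_mul_eq_one_right h11
  have h13 : a = N := by rw [← h10, h12, mul_one]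
  rw [CongruenceSubgroup.Gamma0_mem, ZMod.intCast_zmod_eq_zero_iff_dvd]
  have h14 : ((Int.gcd (N * β.1 0 0) (β.1 1 0) : ℕ) : ℤ) ∣ β.1 1 0 := Int.gcd_dvd_right _ _
  rw [← h2, h13] at h14
  exact h14

variable {N}

/-- distinct cosets give distinct embeddings -/
theorem mem_Gamma0_of_chartEmb_eq {z : ℂ → ℍ} {γ γ' : SL(2, ℤ)}
    (h : IsChart N (fun t => γ • z t)) (h' : IsChart N (fun t => γ' • z t))
    (heq : chartEmb h = chartEmb h') : γ' * γ⁻¹ ∈ CongruenceSubgroup.Gamma0 N := by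
  have h1 := congrArg (fun e => e (Jgen N ⟨N, dvd_refl N⟩)) heq
  simp only [chartEmb_Jgen] at h1
  have m1 := h.mer ⟨N, dvd_refl N⟩
  have m2 := h'.mer ⟨N, dvd_refl N⟩
  simp only at m1 m2
  have hH : MDiff (fun τ : ℍ => jd N τ - jd N ((γ' * γ⁻¹) • τ)) :=
    (mdiff_jd N).sub (mdiff_comp_smul (mdiff_jd N) (γ' * γ⁻¹))
  have h2 : (fun τ : ℍ => jd N τ - jd N ((γ' * γ⁻¹) • τ)) = 0 := by
    refine h.ident _ hH ?_
    let φ₁ : Mer := ⟨_, m1⟩
    let φ₂ : Mer := ⟨_, m2⟩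
    have h3 : laurentHom (φ₁ - φ₂) = 0 := by
      rw [map_sub, laurentHom_apply, laurentHom_apply]
      exact sub_eq_zero.mpr h1
    rw [laurentHom_apply, laurent_eq_zero_iff (φ₁ - φ₂).2] at h3
    filter_upwards [h3] with t ht
    have e1 : (γ' * γ⁻¹) • (γ • z t) = γ' • z t := by
      rw [← mul_smul, inv_mul_cancel_right]
    rw [e1]
    exact ht
  refine mem_Gamma0_of_jd_eq N _ fun τ => ?_
  have := congrFun h2 τ
  simp only [Pi.zero_apply] at this
  exact (sub_eq_zero.mp this).symm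

end Fermat.Agent.S24lib
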