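import Fermat.Agent.S24.Moebius

/-!
# S24 library, task G4: the identity principle; `cInt` and `cCusp` are charts
-/

set_option autoImplicit false

open UpperHalfPlane hiding I
open ModularForm MatrixGroups Filter Topology ModularCurve Complex
open scoped Manifold Real

namespace Fermat.Agent.S24lib

theorem mdiff_jd (d : ℕ) [NeZero d] : MDiff (jd d) := by
  rw [UpperHalfPlane.mdifferentiable_iff]
  have hj := UpperHalfPlane.mdifferentiable_iff.mp mdiff_jfun
  have hd : (0 : ℝ) < d := by exact_mod_cast Nat.pos_of_ne_zero (NeZero.ne d)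
  have hmaps : Set.MapsTo (fun z : ℂ => (d : ℂ) * z) upperHalfPlaneSet upperHalfPlaneSet := by
    intro z hz
    have hz' : 0 < z.im := hz
    show 0 < ((d : ℂ) * z).im
    simp only [mul_im, natCast_re, natCast_im, zero_mul, add_zero]
    positivity
  have h1 : DifferentiableOn ℂ ((jfun ∘ ofComplex) ∘ fun z : ℂ => (d : ℂ) * z) upperHalfPlaneSet :=
    hj.comp (by fun_prop) hmaps
  refine h1.congr fun z hz => ?_
  simp only [Function.comp_apply, jd]
  rw [ofComplex_apply_of_im_pos hz]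

theorem mdiff_comp_smul {h : ℍ → ℂ} (hh : MDiff h) (γ : SL(2, ℤ)) :
    MDiff (fun τ : ℍ => h (γ • τ)) := by
  have hg : 0 < (Matrix.SpecialLinearGroup.mapGL ℝ γ : GL (Fin 2) ℝ).det.val := by
    simp
  exact hh.comp (UpperHalfPlane.mdifferentiable_smul hg)

theorem eq_zero_of_eventually {H : ℍ → ℂ} (hH : MDiff H) (z₀ : ℍ)
    (h0 : ∃ᶠ z in 𝓝[≠] (z₀ : ℂ), H (ofComplex z) = 0) : H = 0 := by
  have han : AnalyticOnNhd ℂ (H ∘ ofComplex) upperHalfPlaneSet :=
    (UpperHalfPlane.mdifferentiable_iff.mp hH).analyticOnNhd isOpen_upperHalfPlaneSet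
  have hpre : IsPreconnected upperHalfPlaneSet := (convex_halfSpace_im_gt 0).isPreconnected
  have := han.eqOn_zero_of_preconnected_of_frequently_eq_zero hpre (z₀.im_pos) h0
  funext τ
  have h1 := this τ.im_pos
  simpa using h1

theorem ident_cInt (γ : SL(2, ℤ)) (τ₀ : ℍ) (h : ℍ → ℂ) (hh : MDiff h)
    (h0 : ∀ᶠ t in 𝓝[≠] (0 : ℂ), h (cInt γ τ₀ t) = 0) : h = 0 := by
  have hH := mdiff_comp_smul hh γ
  have hz : (fun τ : ℍ => h (γ • τ)) = 0 := by
    refine eq_zero_of_eventually hH τ₀ (Eventually.frequently ?_)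
    have ht : Tendsto (fun z : ℂ => z - τ₀) (𝓝[≠] (τ₀ : ℂ)) (𝓝[≠] 0) := by
      rw [tendsto_nhdsWithin_iff]
      refine ⟨?_, ?_⟩
      · have hc : ContinuousAt (fun z : ℂ => z - τ₀) (τ₀ : ℂ) := by fun_prop
        have := hc.tendsto
        simp only [sub_self] at this
        exact this.mono_left nhdsWithin_le_nhds
      · filter_upwards [self_mem_nhdsWithin] with z hz
        exact sub_ne_zero.mpr hz
    filter_upwards [ht.eventually h0] with z hz
    simpa [cInt] using hz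
  funext τ
  have := congrFun hz (γ⁻¹ • τ)
  simpa using this

variable (N : ℕ) [NeZero N]

theorem ident_cCusp (γ : SL(2, ℤ)) (h : ℍ → ℂ) (hh : MDiff h)
    (h0 : ∀ᶠ q in 𝓝[≠] (0 : ℂ), h (cCusp N γ q) = 0) : h = 0 := by
  have hH := mdiff_comp_smul hh γ
  have hN : (0 : ℝ) < N := by exact_mod_cast Nat.pos_of_ne_zero (NeZero.ne N)
  rw [eventually_nhdsWithin_iff, Metric.eventually_nhds_iff_ball] at h0
  obtain ⟨r, hr, hball⟩ := h0
  set s : ℝ := min r 1 / 2 with hs
  have hs0 : 0 < s := by positivity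
  have hsr : s < r := by
    have : min r 1 ≤ r := min_le_left _ _
    linarith
  have hs1 : s < 1 := by
    have : min r 1 ≤ 1 := min_le_right _ _
    linarith
  set q₀ : ℂ := (s : ℂ) with hq₀
  have hq₀n : ‖q₀‖ = s := by simp [hq₀, abs_of_pos hs0]
  have hq₀0 : q₀ ≠ 0 := by
    rw [← norm_ne_zero_iff, hq₀n]; exact hs0.ne'
  have him : 0 < (Function.Periodic.invQParam N q₀).im := by
    rw [Function.Periodic.im_invQParam, hq₀n]
    have : Real.log s < 0 := Real.log_neg hs0 hs1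
    have h2 : -(N : ℝ) / (2 * π) < 0 := by
      apply div_neg_of_neg_of_pos <;> [linarith; positivity]
    exact mul_pos_of_neg_of_neg h2 this
  set z₀ : ℍ := ⟨Function.Periodic.invQParam N q₀, him⟩ with hz₀
  have hslit : q₀ ∈ slitPlane := by
    rw [mem_slitPlane_iff]; left; simpa [hq₀] using hs0
  have hcont : ContinuousAt (Function.Periodic.invQParam (N : ℝ)) q₀ := by
    unfold Function.Periodic.invQParam
    exact continuousAt_const.mul (continuousAt_clog hslit)
  have htend : Tendsto (Function.Periodic.invQParam (N : ℝ)) (𝓝[≠] q₀) (𝓝[≠] (z₀ : ℂ)) := by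
    rw [tendsto_nhdsWithin_iff]
    refine ⟨hcont.tendsto.mono_left nhdsWithin_le_nhds, ?_⟩
    have hne : ∀ᶠ q in 𝓝[≠] q₀, q ≠ 0 :=
      nhdsWithin_le_nhds (continuousAt_id.eventually_ne hq₀0)
    filter_upwards [self_mem_nhdsWithin, hne] with q hq hq0 heq
    apply hq
    have h1 := Function.Periodic.qParam_right_inv hN.ne' hq0
    have h2 := Function.Periodic.qParam_right_inv hN.ne' hq₀0
    have heq' : Function.Periodic.invQParam (N : ℝ) q = Function.Periodic.invQParam (N : ℝ) q₀ := heq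
    rw [heq', h2] at h1
    exact h1.symm
  have hz : (fun τ : ℍ => h (γ • τ)) = 0 := by
    refine eq_zero_of_eventually hH z₀ (htend.frequently (Eventually.frequently ?_))
    have hne : ∀ᶠ q in 𝓝[≠] q₀, q ≠ 0 :=
      nhdsWithin_le_nhds (continuousAt_id.eventually_ne hq₀0)
    have hb : ∀ᶠ q in 𝓝[≠] q₀, q ∈ Metric.ball (0 : ℂ) r :=
      nhdsWithin_le_nhds (Metric.isOpen_ball.mem_nhds (by simpa [hq₀n] using hsr))
    filter_upwards [hne, hb] with q hq hqb
    exact hball q hqb hq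
  funext τ
  have := congrFun hz (γ⁻¹ • τ)
  simpa using this

theorem isChart_cInt (γ : SL(2, ℤ)) (τ₀ : ℍ) : IsChart N (cInt γ τ₀) where
  mer d := (analyticAt_hgerm (mdiff_comp_smul (mdiff_jd d.1) γ) τ₀).meromorphicAt
  ident h hh h0 := ident_cInt γ τ₀ h hh h0

/-- packaged form of `jd_cCusp` with the non-vanishing side conditions -/
theorem jd_cCusp' (d : Dv N) (γ : SL(2, ℤ)) :
    ∃ (e : ℕ) (ζ : ℂ), e ≠ 0 ∧ ζ ≠ 0 ∧ ζ ^ N = 1 ∧
      ∀ᶠ q in 𝓝[≠] (0 : ℂ), jd d.1 (cCusp N γ q) = jcusp (ζ * q ^ e) := by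
  obtain ⟨a, δ, e, ζ, had, -, he, hζ, hev⟩ := jd_cCusp N d.2 γ
  refine ⟨e, ζ, ?_, ?_, hζ, hev⟩
  · rintro rfl
    have hd : d.1 ≠ 0 := NeZero.ne d.1
    have ha : a ≠ 0 := by
      rintro rfl
      exact hd (by simpa using had.symm)
    rw [zero_mul] at he
    exact (mul_ne_zero ha (NeZero.ne N)) he.symm
  · rintro rfl
    rw [zero_pow (NeZero.ne N)] at hζ
    exact zero_ne_one hζ

theorem isChart_cCusp (γ : SL(2, ℤ)) : IsChart N (cCusp N γ) where
  mer d := by
    obtain ⟨e, ζ, he, hζ, -, hev⟩ := jd_cCusp' N d γ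
    have : NeZero e := ⟨he⟩
    refine (laurent_comp_mul_pow meromorphicAt_jcusp hζ e).1.congr ?_
    filter_upwards [hev] with q hq
    exact hq.symm
  ident h hh h0 := ident_cCusp N γ h hh h0

theorem exists_algebraMap_eq_of_isIntegral {x : ℂ} (hx : IsIntegral Kb x) :
    ∃ a : Kb, algebraMap Kb ℂ a = x :=
  minpoly.mem_range_of_degree_eq_one Kb x
    (IsAlgClosed.degree_eq_one_of_irreducible Kb (minpoly.irreducible hx))

/-- multiply the `k`-th coefficient by `ζ ^ k` (over `Kb`) -/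
noncomputable def twistK (ζ : Kb) (S : LaurentSeries Kb) : LaurentSeries Kb where
  coeff k := ζ ^ k * S.coeff k
  isPWO_support' := S.isPWO_support.mono fun k hk => by
    simp only [Function.mem_support, ne_eq, mul_eq_zero, not_or] at hk
    exact hk.2

/-- the Laurent expansions of the generators at the cusps have coefficients in `Kb` -/
theorem laurent_jd_cCusp_mem_KRat (d : Dv N) (γ : SL(2, ℤ)) :
    laurent (fun q => jd d.1 (cCusp N γ q)) ∈ KRat := by
  obtain ⟨e, ζ, he, hζ, hζN, hev⟩ := jd_cCusp' N d γ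
  have : NeZero e := ⟨he⟩
  have hint : IsIntegral Kb ζ :=
    IsIntegral.of_pow (Nat.pos_of_ne_zero (NeZero.ne N)) (by rw [hζN]; exact isIntegral_one)
  obtain ⟨ζ', hζ'⟩ := exists_algebraMap_eq_of_isIntegral hint
  rw [laurent_congr hev, (laurent_comp_mul_pow meromorphicAt_jcusp hζ e).2, laurent_jcusp, mem_KRat]
  refine ⟨qExpand Kb e (twistK ζ' (coeffMap (algebraMap ℚ Kb) jq)), ?_⟩
  ext k
  rw [coeffMap_coeff]
  by_cases hk : (e : ℤ) ∣ k
  · obtain ⟨i, rfl⟩ := hk
    rw [qExpand_coeff_mul, qExpand_coeff_mul, coeff_twist, coeffMap_coeff]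
    show algebraMap Kb ℂ (ζ' ^ i * (coeffMap (algebraMap ℚ Kb) jq).coeff i) = _
    rw [coeffMap_coeff, map_mul, map_zpow₀, hζ', ← IsScalarTower.algebraMap_apply]
  · rw [qExpand_coeff_of_not_dvd _ _ hk, qExpand_coeff_of_not_dvd _ _ hk, map_zero]

end Fermat.Agent.S24lib
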