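import Fermat.Agent.S24.Count
import Fermat.Agent.S24.Degree
import Fermat.Agent.S24.MobGerm
import Fermat.Agent.S20.Comb

/-!
# S24 library, task G11: the number of places of `FN N` over `j = ∞`
-/

set_option autoImplicit false
set_option linter.unusedSectionVars false

open UpperHalfPlane hiding I
open ModularForm MatrixGroups Filter Topology ModularCurve Complex IntermediateField AlgebraicCurve
open CongruenceSubgroup
open scoped Manifold Real

namespace Fermat.Agent.S24lib

variable (N : ℕ) [NeZero N]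

theorem J1_ne_zero : J1 N ≠ 0 := by
  intro h
  exact transcendental_J1 N (h ▸ isAlgebraic_zero)

theorem adjoin_inv_eq {K F : Type*} [Field K] [Field F] [Algebra K F] (u : F) :
    K⟮u⁻¹⟯ = K⟮u⟯ := by
  apply le_antisymm
  · rw [adjoin_simple_le_iff]
    exact inv_mem (mem_adjoin_simple_self K u)
  · rw [adjoin_simple_le_iff]
    have := inv_mem (mem_adjoin_simple_self K u⁻¹)
    rwa [inv_inv] at this

theorem transcendental_J1_inv : Transcendental Kb (J1 N)⁻¹ := by
  intro h
  have := h.inv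
  rw [inv_inv] at this
  exact transcendental_J1 N this

/-- the expansion of `j` along any cusp chart -/
theorem chartEmb_cCusp_J1 (γ : SL(2, ℤ)) :
    chartEmb (isChart_cCusp N γ) (J1 N) = laurent (fun q => jcusp (1 * q ^ N)) := by
  rw [J1, chartEmb_Jgen]
  refine laurent_congr ?_
  filter_upwards [jd_cCusp_one N 1] with q hq
  rw [one_mul] at hq
  rw [one_mul, ← hq, jd_one, jd_one, cCusp, cCusp, jfun_smul, jfun_smul]

theorem order_coeffMap_jq :
    (qExpand ℂ N (coeffMap (algebraMap ℚ ℂ) jq)).order = -(N : ℤ) := by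
  set s := qExpand ℂ N (coeffMap (algebraMap ℚ ℂ) jq) with hs
  have hN : (0 : ℤ) < N := by exact_mod_cast Nat.pos_of_ne_zero (NeZero.ne N)
  have hc : s.coeff (-(N : ℤ)) = 1 := by
    have : -(N : ℤ) = (N : ℤ) * (-1) := by ring
    rw [this, hs, qExpand_coeff_mul, coeffMap_coeff, coeff_jq_neg_one, map_one]
  have hne : s ≠ 0 := by
    intro h
    rw [h] at hc
    simp at hc
  apply le_antisymm
  · exact HahnSeries.order_le_of_coeff_ne_zero (by rw [hc]; exact one_ne_zero)
  · rw [HahnSeries.le_order_iff_forall hne]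
    intro j hj
    by_cases hd : (N : ℤ) ∣ j
    · obtain ⟨i, rfl⟩ := hd
      rw [hs, qExpand_coeff_mul, coeffMap_coeff, coeff_jq_of_lt, map_zero]
      by_contra hcon
      have : -1 ≤ i := by omega
      nlinarith
    · rw [hs, qExpand_coeff_of_not_dvd _ _ hd]

theorem order_chartEmb_cCusp_J1_inv (γ : SL(2, ℤ)) :
    (chartEmb (isChart_cCusp N γ) (J1 N)⁻¹).order = N := by
  have h1 : (chartEmb (isChart_cCusp N γ) (J1 N)).order = -(N : ℤ) := by
    rw [chartEmb_cCusp_J1, (laurent_comp_mul_pow meromorphicAt_jcusp one_ne_zero N).2, twist_one,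
      laurent_jcusp, order_coeffMap_jq]
  have hne : chartEmb (isChart_cCusp N γ) (J1 N) ≠ 0 := by
    rw [Ne, map_eq_zero]
    exact J1_ne_zero N
  have h2 : chartEmb (isChart_cCusp N γ) (J1 N) * chartEmb (isChart_cCusp N γ) (J1 N)⁻¹ = 1 := by
    rw [← map_mul, mul_inv_cancel₀ (J1_ne_zero N), map_one]
  have hne' : chartEmb (isChart_cCusp N γ) (J1 N)⁻¹ ≠ 0 := right_ne_zero_of_mul_eq_one h2
  have h3 := HahnSeries.order_mul hne hne'
  rw [h2, HahnSeries.order_one, h1] at h3
  omega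

/-- rotation of the cusp parameter -/
noncomputable def rot (k : ℤ) (q : ℂ) : ℂ := Complex.exp (2 * π * I * k / N) * q

theorem analyticAt_rot (k : ℤ) : AnalyticAt ℂ (rot N k) 0 := by
  unfold rot
  fun_prop

theorem rot_zero (k : ℤ) : rot N k 0 = 0 := by simp [rot]

theorem deriv_rot (k : ℤ) : deriv (rot N k) 0 = Complex.exp (2 * π * I / N) ^ k := by
  have : rot N k = fun q => Complex.exp (2 * π * I * k / N) * q := rfl
  rw [this, deriv_const_mul_field, deriv_id'', mul_one, ← Complex.exp_int_mul]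
  congr 1
  ring

theorem deriv_rot_ne_zero (k : ℤ) : deriv (rot N k) 0 ≠ 0 := by
  rw [deriv_rot]
  exact zpow_ne_zero _ (Complex.exp_ne_zero _)

theorem cCusp_mul (δ γ : SL(2, ℤ)) (q : ℂ) : cCusp N (δ * γ) q = δ • cCusp N γ q := by
  rw [cCusp, cCusp, mul_smul]

theorem card_places_cusp :
    Nat.card {v : Place Kb (FN N) // v.ord (J1 N) < 0} = cuspCount N := by
  have hfd : FiniteDimensional Kb⟮(J1 N)⁻¹⟯ (FN N) := by
    rw [adjoin_inv_eq]
    exact finiteDimensional_J1 N
  have hfin : Finite (SL(2, ℤ) ⧸ Gamma0 N) := by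
    apply Nat.finite_of_card_ne_zero
    rw [S20lib.card_quot_Gamma0, ← finrank_J1 N]
    have := finiteDimensional_J1 N
    exact Module.finrank_pos.ne'
  have hN : (N : ℕ) ≠ 0 := NeZero.ne N
  have key := card_places_eq_card_orbits (K := Kb) (F := FN N) (C := ℂ) (J1 N)⁻¹
    (transcendental_J1_inv N) (X := SL(2, ℤ) ⧸ Gamma0 N)
    (by rw [S20lib.card_quot_Gamma0, adjoin_inv_eq, finrank_J1])
    (fun x => chartEmb (isChart_cCusp N (x.out)⁻¹)) ?_ ?_ N (Nat.pos_of_ne_zero hN)
    (fun x => order_chartEmb_cCusp_J1_inv N _) (G := SL(2, ℤ)) ModularGroup.T ?_ ?_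
  · rw [← S20lib.card_orbits_T_aux N]
    refine Eq.trans ?_ key
    refine Nat.card_congr (Equiv.subtypeEquivRight fun v => ?_)
    rw [Place.ord_inv]
    omega
  · -- injectivity
    intro x y hxy
    have := mem_Gamma0_of_chartEmb_eq (N := N)
      (z := fun q => ofComplex (Function.Periodic.invQParam N q))
      (isChart_cCusp N (x.out)⁻¹) (isChart_cCusp N (y.out)⁻¹) hxy
    rw [inv_inv] at this
    rw [← QuotientGroup.out_eq' x, ← QuotientGroup.out_eq' y]
    exact (QuotientGroup.eq.2 this).symm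
  · -- agreement on `u`
    intro x y
    rw [map_inv₀, map_inv₀, chartEmb_cCusp_J1, chartEmb_cCusp_J1]
  · -- invariance of the order under `T`
    intro x f
    by_cases hf : f = 0
    · rw [hf, map_zero, map_zero]
    obtain ⟨e₀, he₀⟩ := QuotientGroup.mk_out_eq_mul (Gamma0 N) (ModularGroup.T * x.out)
    have hTx : ModularGroup.T • x = ((ModularGroup.T * x.out : SL(2, ℤ)) : SL(2, ℤ) ⧸ Gamma0 N) := by
      conv_lhs => rw [← QuotientGroup.out_eq' x]
      rfl
    refine (chartEmb_comp (isChart_cCusp N (x.out)⁻¹) (isChart_cCusp N ((ModularGroup.T • x).out)⁻¹)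
      (analyticAt_rot N (-1)) (rot_zero N (-1)) (deriv_rot_ne_zero N (-1)) ?_ f hf).1
    filter_upwards [cCusp_T_zpow N (x.out)⁻¹ (-1)] with q hq
    obtain ⟨δ, hδ, hq⟩ := hq
    refine ⟨(e₀ : SL(2, ℤ))⁻¹ * δ, mul_mem (inv_mem e₀.2) hδ, ?_⟩
    rw [hTx, he₀, mul_smul]
    have : (ModularGroup.T * x.out * (e₀ : SL(2, ℤ)))⁻¹ =
        (e₀ : SL(2, ℤ))⁻¹ * ((x.out)⁻¹ * ModularGroup.T ^ (-1 : ℤ)) := by
      rw [zpow_neg_one]; group
    rw [this, cCusp_mul, hq]
    rfl
  · -- stabilisers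
    intro x k hk f
    by_cases hf : f = 0
    · rw [hf, map_zero, HahnSeries.order_zero, mul_zero]
      exact dvd_zero _
    have hmem : (x.out)⁻¹ * ModularGroup.T ^ (-(k : ℤ)) * x.out ∈ Gamma0 N := by
      have h1 : ((ModularGroup.T ^ k * x.out : SL(2, ℤ)) : SL(2, ℤ) ⧸ Gamma0 N) =
          ((x.out : SL(2, ℤ)) : SL(2, ℤ) ⧸ Gamma0 N) := by
        rw [QuotientGroup.out_eq']
        conv_rhs => rw [← hk]
        conv_rhs => rw [← QuotientGroup.out_eq' x]
        rfl
      have h2 := QuotientGroup.eq.1 h1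
      have h3 : (ModularGroup.T ^ k * x.out)⁻¹ * x.out =
          (x.out)⁻¹ * ModularGroup.T ^ (-(k : ℤ)) * x.out := by
        rw [zpow_neg, zpow_natCast]; group
      rwa [h3] at h2
    have hcomp := (chartEmb_comp (isChart_cCusp N (x.out)⁻¹) (isChart_cCusp N (x.out)⁻¹)
      (analyticAt_rot N (-(k : ℤ))) (rot_zero N _) (deriv_rot_ne_zero N _) ?_ f hf).2
    · have hlc : (chartEmb (isChart_cCusp N (x.out)⁻¹) f).leadingCoeff ≠ 0 := by
        rw [HahnSeries.leadingCoeff_ne_zero, Ne, map_eq_zero]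
        exact hf
      have h1 : deriv (rot N (-(k : ℤ))) 0 ^ (chartEmb (isChart_cCusp N (x.out)⁻¹) f).order = 1 := by
        have := mul_right_cancel₀ hlc ((one_mul _).trans hcomp)
        exact this.symm
      rw [deriv_rot, ← zpow_mul,
        (Complex.isPrimitiveRoot_exp N hN).zpow_eq_one_iff_dvd] at h1
      simpa using h1
    · filter_upwards [cCusp_T_zpow N (x.out)⁻¹ (-(k : ℤ))] with q hq
      obtain ⟨δ, hδ, hq⟩ := hq
      refine ⟨((x.out)⁻¹ * ModularGroup.T ^ (-(k : ℤ)) * x.out)⁻¹ * δ,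
        mul_mem (inv_mem hmem) hδ, ?_⟩
      have h4 : cCusp N ((x.out)⁻¹ * ModularGroup.T ^ (-(k : ℤ))) q =
          ((x.out)⁻¹ * ModularGroup.T ^ (-(k : ℤ)) * x.out) • cCusp N (x.out)⁻¹ q := by
        rw [← cCusp_mul]
        congr 1
        group
      rw [mul_smul]
      have h5 : δ • cCusp N (x.out)⁻¹ (rot N (-(k : ℤ)) q) =
          ((x.out)⁻¹ * ModularGroup.T ^ (-(k : ℤ)) * x.out) • cCusp N (x.out)⁻¹ q := by
        rw [← h4, hq]
        simp only [rot]
      rw [h5, inv_smul_smul]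

end Fermat.Agent.S24lib
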