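import Fermat.Agent.S24.Ident
import Fermat.Prelude.Thm_ModularCurve_coeffMap_qExpand

/-!
# S24 library, task G5: polynomials in the generators, analytic versus formal
-/

set_option autoImplicit false
set_option linter.unusedSectionVars false

open UpperHalfPlane hiding I
open ModularForm MatrixGroups Filter Topology ModularCurve Complex
open scoped Manifold Real

namespace Fermat.Agent.S24lib

variable (N : ℕ) [NeZero N]

theorem evH_C (a : Kb) : evH N (MvPolynomial.C a) = fun _ => algebraMap Kb ℂ a := by
  rw [evH, MvPolynomial.aeval_C]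
  rfl

theorem evH_X (d : Dv N) : evH N (MvPolynomial.X d) = jd d.1 := by
  rw [evH, MvPolynomial.aeval_X]

theorem mdiff_evH (P : MvPolynomial (Dv N) Kb) : MDiff (evH N P) := by
  induction P using MvPolynomial.induction_on with
  | C a => rw [evH_C]; exact mdifferentiable_const
  | add p q hp hq => rw [map_add]; exact hp.add hq
  | mul_X p d hp => rw [map_mul, evH_X]; exact hp.mul (mdiff_jd d.1)

theorem evH_Gamma0 (P : MvPolynomial (Dv N) Kb) (δ : SL(2, ℤ))
    (hδ : δ ∈ CongruenceSubgroup.Gamma0 N) (τ : ℍ) : evH N P (δ • τ) = evH N P τ := by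
  induction P using MvPolynomial.induction_on with
  | C a => rw [evH_C]
  | add p q hp hq => rw [map_add, Pi.add_apply, Pi.add_apply, hp, hq]
  | mul_X p d hp => rw [map_mul, evH_X, Pi.mul_apply, Pi.mul_apply, hp, jd_Gamma0 N d.2 δ hδ]

variable {N}

theorem IsChart.mer_evH {c : ℂ → ℍ} (hc : IsChart N c) (P : MvPolynomial (Dv N) Kb) :
    MeromorphicAt (fun t => evH N P (c t)) 0 := by
  induction P using MvPolynomial.induction_on with
  | C a => rw [evH_C]; exact MeromorphicAt.const _ _
  | add p q hp hq => rw [map_add]; exact hp.add hq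
  | mul_X p d hp => rw [map_mul, evH_X]; exact hp.mul (hc.mer d)

theorem algebraMap_Kb_laurent (a : Kb) :
    algebraMap Kb (LaurentSeries ℂ) a = HahnSeries.C (algebraMap Kb ℂ a) := by
  rw [HahnSeries.algebraMap_apply', PowerSeries.algebraMap_apply, HahnSeries.ofPowerSeries_C]

/-- `P ↦ laurent (evH P ∘ c)` is the `Kb`-algebra map sending `X d` to `laurent (jd d ∘ c)` -/
theorem IsChart.laurent_evH {c : ℂ → ℍ} (hc : IsChart N c) (P : MvPolynomial (Dv N) Kb) :
    laurent (fun t => evH N P (c t)) =
      MvPolynomial.aeval (fun d : Dv N => laurent (fun t => jd d.1 (c t))) P := by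
  induction P using MvPolynomial.induction_on with
  | C a =>
    rw [evH_C, MvPolynomial.aeval_C, algebraMap_Kb_laurent]
    exact laurent_const _
  | add p q hp hq =>
    rw [map_add, map_add, ← hp, ← hq]
    exact laurent_add (hc.mer_evH p) (hc.mer_evH q)
  | mul_X p d hp =>
    rw [map_mul, map_mul, MvPolynomial.aeval_X, ← hp, evH_X]
    exact laurent_mul (hc.mer_evH p) (hc.mer d)

theorem IsChart.laurent_evH_eq_zero_iff {c : ℂ → ℍ} (hc : IsChart N c)
    (P : MvPolynomial (Dv N) Kb) :
    laurent (fun t => evH N P (c t)) = 0 ↔ evH N P = 0 := by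
  rw [laurent_eq_zero_iff (hc.mer_evH P)]
  constructor
  · intro h
    exact hc.ident _ (mdiff_evH N P) h
  · intro h
    rw [h]
    exact Eventually.of_forall fun _ => rfl

variable (N)

theorem laurent_evH_cCusp_mem_KRat (P : MvPolynomial (Dv N) Kb) (γ : SL(2, ℤ)) :
    laurent (fun q => evH N P (cCusp N γ q)) ∈ KRat := by
  rw [(isChart_cCusp N γ).laurent_evH]
  induction P using MvPolynomial.induction_on with
  | C a => rw [MvPolynomial.aeval_C]; exact KRat.algebraMap_mem a
  | add p q hp hq => rw [map_add]; exact KRat.add_mem hp hq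
  | mul_X p d hp =>
    rw [map_mul, MvPolynomial.aeval_X]
    exact KRat.mul_mem hp (laurent_jd_cCusp_mem_KRat N d γ)

theorem twist_one (S : LaurentSeries ℂ) : twist 1 S = S := by
  ext k
  simp

theorem coeffMap_injective {R S : Type*} [CommRing R] [CommRing S] (f : R →+* S)
    (hf : Function.Injective f) : Function.Injective (coeffMap f) := by
  intro x y hxy
  ext k
  apply hf
  rw [← coeffMap_coeff, ← coeffMap_coeff, hxy]

/-- comparison of the analytic expansion at `∞` (in `q_N = q^{1/N}`) with the formal one -/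
theorem laurent_evH_cCusp_one (P : MvPolynomial (Dv N) Kb) :
    laurent (fun q => evH N P (cCusp N 1 q)) =
      qExpand ℂ N (coeffMap (algebraMap Kb ℂ) (evF N P : LaurentSeries Kb)) := by
  have hc := isChart_cCusp N 1
  induction P using MvPolynomial.induction_on with
  | C a =>
    rw [evH_C, evF, MvPolynomial.aeval_C]
    have h1 : ((algebraMap Kb (FN N) a : FN N) : LaurentSeries Kb) = HahnSeries.single 0 a := by
      rw [← algebraMap_laurentSeries_eq_single]
      rfl
    rw [h1, coeffMap_single, qExpand_single, mul_zero]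
    exact laurent_const _
  | add p q hp hq =>
    rw [map_add, map_add]
    have h1 : ((evF N p + evF N q : FN N) : LaurentSeries Kb) =
      (evF N p : LaurentSeries Kb) + (evF N q : LaurentSeries Kb) := rfl
    rw [h1, map_add, map_add, ← hp, ← hq]
    exact laurent_add (hc.mer_evH p) (hc.mer_evH q)
  | mul_X p d hp =>
    rw [map_mul, map_mul]
    have h1 : ((evF N p * evF N (MvPolynomial.X d) : FN N) : LaurentSeries Kb) =
      (evF N p : LaurentSeries Kb) * (evF N (MvPolynomial.X d) : LaurentSeries Kb) := rfl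
    rw [h1, map_mul, map_mul, ← hp, evH_X]
    have h2 : laurent (fun q => jd d.1 (cCusp N 1 q)) =
        qExpand ℂ N (coeffMap (algebraMap Kb ℂ) (evF N (MvPolynomial.X d) : LaurentSeries Kb)) := by
      have hdN : NeZero (d.1 * N) := ⟨mul_ne_zero (NeZero.ne d.1) (NeZero.ne N)⟩
      have hNd : NeZero (N * d.1) := ⟨mul_ne_zero (NeZero.ne N) (NeZero.ne d.1)⟩
      have hev : (fun q => jd d.1 (cCusp N 1 q)) =ᶠ[𝓝[≠] 0] fun q => jcusp (1 * q ^ (d.1 * N)) := by
        filter_upwards [jd_cCusp_one N d.1] with q hq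
        rw [hq, one_mul]
      rw [laurent_congr hev, (laurent_comp_mul_pow meromorphicAt_jcusp one_ne_zero (d.1 * N)).2,
        twist_one, laurent_jcusp, evF, MvPolynomial.aeval_X]
      show _ = qExpand ℂ N (coeffMap (algebraMap Kb ℂ) (coeffEmb Kb (qExpand ℚ d.1 jq)))
      rw [coeffEmb, coeffMap_coeffMap, coeffMap_qExpand, qExpand_qExpand,
        qExpand_congr (mul_comm d.1 N)]
      congr 1
      exact coeffMap_congr (IsScalarTower.algebraMap_eq ℚ Kb ℂ) jq
    rw [← h2]
    exact laurent_mul (hc.mer_evH p) (hc.mer d)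

/-- the two evaluation maps have the same kernel -/
theorem evF_eq_zero_iff (P : MvPolynomial (Dv N) Kb) : evF N P = 0 ↔ evH N P = 0 := by
  rw [← (isChart_cCusp N 1).laurent_evH_eq_zero_iff, laurent_evH_cCusp_one,
    map_eq_zero_iff _ (qExpand_injective N),
    map_eq_zero_iff _ (coeffMap_injective _ (algebraMap Kb ℂ).injective)]
  exact (ZeroMemClass.coe_eq_zero).symm

end Fermat.Agent.S24lib
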