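import Mathlib
import Fermat.Prelude.Def_ModularCurve_X0
import Fermat.Prelude.Def_ModularCurve_LaurentCoeff

/-!
# S24 library: Taylor and Laurent expansions at `0` of germs of analytic / meromorphic functions
-/

set_option autoImplicit false

open Filter Topology

namespace Fermat.Agent.S24lib

/-- Taylor series at `0`. -/
noncomputable def taylor (g : ℂ → ℂ) : PowerSeries ℂ :=
  PowerSeries.mk fun n => (n.factorial : ℂ)⁻¹ * iteratedDeriv n g 0

theorem coeff_taylor (g : ℂ → ℂ) (n : ℕ) :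
    (taylor g).coeff n = (n.factorial : ℂ)⁻¹ * iteratedDeriv n g 0 := by
  simp [taylor]

theorem taylor_congr {f g : ℂ → ℂ} (h : f =ᶠ[𝓝 0] g) : taylor f = taylor g := by
  ext n
  rw [coeff_taylor, coeff_taylor, h.iteratedDeriv_eq n]

theorem taylor_add {f g : ℂ → ℂ} (hf : AnalyticAt ℂ f 0) (hg : AnalyticAt ℂ g 0) :
    taylor (f + g) = taylor f + taylor g := by
  ext m
  simp [coeff_taylor, iteratedDeriv_add hf.contDiffAt hg.contDiffAt, mul_add]

theorem taylor_mul {f g : ℂ → ℂ} (hf : AnalyticAt ℂ f 0) (hg : AnalyticAt ℂ g 0) :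
    taylor (f * g) = taylor f * taylor g := by
  ext
  simp only [coeff_taylor,
    iteratedDeriv_mul hf.contDiffAt hg.contDiffAt, Finset.mul_sum, PowerSeries.coeff_mul,
    Finset.Nat.sum_antidiagonal_eq_sum_range_succ_mk, Nat.succ_eq_add_one]
  refine Finset.sum_congr rfl fun i hi ↦ ?_
  rw [Nat.cast_choose _ (by grind)]
  field_simp [Nat.factorial_ne_zero]

theorem taylor_const (c : ℂ) : taylor (fun _ => c) = PowerSeries.C c := by
  ext m
  have h2 : iteratedDeriv m (fun _ : ℂ => c) 0 = if m = 0 then c else 0 := by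
    simpa [ite_apply] using! iteratedDeriv_const
  rw [coeff_taylor, h2, PowerSeries.coeff_C]
  split_ifs with h
  · subst h; simp
  · simp

theorem constantCoeff_taylor (g : ℂ → ℂ) : PowerSeries.constantCoeff (taylor g) = g 0 := by
  rw [← PowerSeries.coeff_zero_eq_constantCoeff_apply, coeff_taylor]
  simp

theorem coeff_one_taylor (g : ℂ → ℂ) : (taylor g).coeff 1 = deriv g 0 := by
  rw [coeff_taylor]
  simp [iteratedDeriv_one]

/-- if `g` has a power series at `0`, its coefficients are the Taylor coefficients. -/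
theorem taylor_eq_of_hasFPowerSeriesAt {g : ℂ → ℂ} {p : FormalMultilinearSeries ℂ ℂ ℂ}
    (h : HasFPowerSeriesAt g p 0) : taylor g = PowerSeries.mk fun n => p.coeff n := by
  have h2 := h.eq_formalMultilinearSeries h.analyticAt.hasFPowerSeriesAt
  ext n
  rw [coeff_taylor, PowerSeries.coeff_mk, h2, FormalMultilinearSeries.coeff_ofScalars]
  field_simp

/-- an analytic germ is the sum of its Taylor series -/
theorem exists_hasSum_taylor {g : ℂ → ℂ} (hg : AnalyticAt ℂ g 0) :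
    ∃ r : ℝ, 0 < r ∧ ∀ z : ℂ, ‖z‖ < r → HasSum (fun n => (taylor g).coeff n * z ^ n) (g z) := by
  obtain ⟨p, hp⟩ := hg
  have ht := taylor_eq_of_hasFPowerSeriesAt hp
  obtain ⟨r, hr⟩ := hp
  obtain ⟨r', hr'0, hr'⟩ : ∃ r' : ℝ, 0 < r' ∧ ENNReal.ofReal r' ≤ r := by
    rcases eq_or_ne r ⊤ with rfl | hrt
    · exact ⟨1, one_pos, le_top⟩
    · exact ⟨r.toReal, ENNReal.toReal_pos hr.r_pos.ne' hrt, by rw [ENNReal.ofReal_toReal hrt]⟩
  refine ⟨r', hr'0, fun z hz => ?_⟩
  have hz' : z ∈ Metric.eball (0 : ℂ) r := by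
    refine Metric.eball_subset_eball hr' ?_
    rw [Metric.eball_ofReal]
    simpa using hz
  have := hr.hasSum hz'
  simp only [zero_add] at this
  have he : (fun n => (taylor g).coeff n * z ^ n) = fun n => (p n) fun _ => z := by
    funext n
    rw [ht, PowerSeries.coeff_mk, FormalMultilinearSeries.apply_eq_prod_smul_coeff]
    simp [mul_comm]
  rw [he]
  exact this

/-- if `g` is the sum of a power series near `0`, that series is the Taylor series -/
theorem taylor_eq_of_hasSum {g : ℂ → ℂ} {c : ℕ → ℂ} {r : ℝ} (hr : 0 < r)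
    (h : ∀ z : ℂ, ‖z‖ < r → HasSum (fun n => c n * z ^ n) (g z)) :
    taylor g = PowerSeries.mk c := by
  have H : HasFPowerSeriesOnBall g (.ofScalars ℂ c) 0 (ENNReal.ofReal r) := by
    constructor
    · refine le_of_forall_lt_imp_le_of_dense fun s hs ↦ ?_
      lift s to NNReal using hs.ne_top
      apply FormalMultilinearSeries.le_radius_of_summable
      have hs' : ‖((s : ℝ) : ℂ)‖ < r := by
        have := (ENNReal.lt_ofReal_iff_toReal_lt ENNReal.coe_ne_top).1 hs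
        simpa using this
      simpa [smul_eq_mul, norm_mul, mul_comm, mul_left_comm, mul_assoc] using
        (h (s : ℝ) hs').summable.norm
    · simpa using hr
    · intro y hy
      rw [Metric.eball_ofReal, mem_ball_zero_iff] at hy
      simpa [mul_comm] using h y hy
  rw [taylor_eq_of_hasFPowerSeriesAt H.hasFPowerSeriesAt]
  ext n
  simp [FormalMultilinearSeries.coeff_ofScalars]

theorem taylor_id : taylor (fun z => z) = PowerSeries.X := by
  rw [taylor_eq_of_hasSum (c := fun n => if n = 1 then 1 else 0) one_pos]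
  · ext n
    simp [PowerSeries.coeff_X]
  · intro z _
    have := hasSum_ite_eq (1 : ℕ) z
    convert this using 2 with n
    split_ifs with h
    · subst h; simp
    · simp

theorem taylor_eq_zero_iff {f : ℂ → ℂ} (hf : AnalyticAt ℂ f 0) :
    taylor f = 0 ↔ f =ᶠ[𝓝 0] 0 := by
  constructor
  · intro h
    obtain ⟨r, hr, hs⟩ := exists_hasSum_taylor hf
    filter_upwards [Metric.ball_mem_nhds (0 : ℂ) hr] with z hz
    have := hs z (by simpa using hz)
    simp only [h, map_zero, zero_mul] at this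
    simpa using this.unique hasSum_zero
  · intro h
    rw [taylor_congr h]
    exact (taylor_const 0).trans (map_zero _)

theorem taylor_pow {f : ℂ → ℂ} (hf : AnalyticAt ℂ f 0) (n : ℕ) :
    taylor (f ^ n) = taylor f ^ n := by
  induction n with
  | zero =>
    simp only [pow_zero]
    exact (taylor_const 1).trans (map_one _)
  | succ n ih => rw [pow_succ, taylor_mul (hf.pow n) hf, ih, pow_succ]

theorem taylor_id_pow (n : ℕ) : taylor (fun z => z ^ n) = PowerSeries.X ^ n := by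
  rw [← taylor_id]
  exact taylor_pow analyticAt_id n

theorem analyticAt_id_pow (n : ℕ) : AnalyticAt ℂ (fun z : ℂ => z ^ n) 0 :=
  analyticAt_id.pow n

/-- Laurent expansion at `0` of a function which is meromorphic at `0` (junk `0` otherwise). -/
noncomputable def laurent (φ : ℂ → ℂ) : LaurentSeries ℂ :=
  open Classical in
  if h : ∃ (k : ℤ) (g : ℂ → ℂ), AnalyticAt ℂ g 0 ∧ ∀ᶠ z in 𝓝[≠] (0 : ℂ), φ z = z ^ k * g z then
    HahnSeries.single h.choose (1 : ℂ) * HahnSeries.ofPowerSeries ℤ ℂ (taylor h.choose_spec.choose)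
  else 0

theorem eventually_nhds_of_nhdsNE {f g : ℂ → ℂ} (hf : AnalyticAt ℂ f 0) (hg : AnalyticAt ℂ g 0)
    (h : ∀ᶠ z in 𝓝[≠] (0 : ℂ), f z = g z) : f =ᶠ[𝓝 0] g :=
  (hf.continuousAt.eventuallyEq_nhds_iff_eventuallyEq_nhdsNE hg.continuousAt).1 h

theorem laurent_aux_le {g g' : ℂ → ℂ} {k k' : ℤ} (hk : k ≤ k') (hg : AnalyticAt ℂ g 0)
    (hg' : AnalyticAt ℂ g' 0) (h : ∀ᶠ z in 𝓝[≠] (0 : ℂ), z ^ k * g z = z ^ k' * g' z) :
    HahnSeries.single k (1 : ℂ) * HahnSeries.ofPowerSeries ℤ ℂ (taylor g) =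
      HahnSeries.single k' (1 : ℂ) * HahnSeries.ofPowerSeries ℤ ℂ (taylor g') := by
  obtain ⟨m, rfl⟩ : ∃ m : ℕ, k' = k + m := ⟨(k' - k).toNat, by omega⟩
  have h1 : g =ᶠ[𝓝 0] (fun z => z ^ m) * g' := by
    refine eventually_nhds_of_nhdsNE hg ((analyticAt_id.pow m).mul hg') ?_
    filter_upwards [h, self_mem_nhdsWithin] with z hz hz0
    have hz0 : z ≠ 0 := hz0
    rw [zpow_add₀ hz0, mul_assoc] at hz
    simpa using mul_left_cancel₀ (zpow_ne_zero k hz0) hz
  rw [taylor_congr h1, taylor_mul (analyticAt_id_pow m) hg', taylor_id_pow, map_mul,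
    HahnSeries.ofPowerSeries_X_pow, ← mul_assoc, HahnSeries.single_mul_single, one_mul]

theorem laurent_aux {g g' : ℂ → ℂ} {k k' : ℤ} (hg : AnalyticAt ℂ g 0)
    (hg' : AnalyticAt ℂ g' 0) (h : ∀ᶠ z in 𝓝[≠] (0 : ℂ), z ^ k * g z = z ^ k' * g' z) :
    HahnSeries.single k (1 : ℂ) * HahnSeries.ofPowerSeries ℤ ℂ (taylor g) =
      HahnSeries.single k' (1 : ℂ) * HahnSeries.ofPowerSeries ℤ ℂ (taylor g') := by
  rcases le_total k k' with hk | hk
  · exact laurent_aux_le hk hg hg' h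
  · exact (laurent_aux_le hk hg' hg (h.mono fun z hz => hz.symm)).symm

/-- the characterisation of `laurent` -/
theorem laurent_eq {φ g : ℂ → ℂ} {k : ℤ} (hg : AnalyticAt ℂ g 0)
    (h : ∀ᶠ z in 𝓝[≠] (0 : ℂ), φ z = z ^ k * g z) :
    laurent φ = HahnSeries.single k (1 : ℂ) * HahnSeries.ofPowerSeries ℤ ℂ (taylor g) := by
  have hex : ∃ (k : ℤ) (g : ℂ → ℂ), AnalyticAt ℂ g 0 ∧
      ∀ᶠ z in 𝓝[≠] (0 : ℂ), φ z = z ^ k * g z := ⟨k, g, hg, h⟩
  rw [laurent, dif_pos hex]
  refine laurent_aux hex.choose_spec.choose_spec.1 hg ?_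
  filter_upwards [hex.choose_spec.choose_spec.2, h] with z h1 h2
  rw [← h1, h2]

theorem laurent_of_analyticAt {g : ℂ → ℂ} (hg : AnalyticAt ℂ g 0) :
    laurent g = HahnSeries.ofPowerSeries ℤ ℂ (taylor g) := by
  rw [laurent_eq (k := 0) hg (by simp)]
  simp

theorem laurent_congr {φ ψ : ℂ → ℂ} (h : φ =ᶠ[𝓝[≠] 0] ψ) : laurent φ = laurent ψ := by
  by_cases hex : ∃ (k : ℤ) (g : ℂ → ℂ), AnalyticAt ℂ g 0 ∧
      ∀ᶠ z in 𝓝[≠] (0 : ℂ), ψ z = z ^ k * g z
  · obtain ⟨k, g, hg, hk⟩ := hex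
    rw [laurent_eq hg hk, laurent_eq hg]
    filter_upwards [h, hk] with z h1 h2
    rw [h1, h2]
  · have hex' : ¬ ∃ (k : ℤ) (g : ℂ → ℂ), AnalyticAt ℂ g 0 ∧
        ∀ᶠ z in 𝓝[≠] (0 : ℂ), φ z = z ^ k * g z := by
      rintro ⟨k, g, hg, hk⟩
      refine hex ⟨k, g, hg, ?_⟩
      filter_upwards [h, hk] with z h1 h2
      rw [← h1, h2]
    rw [laurent, laurent, dif_neg hex, dif_neg hex']

/-- a representation of a meromorphic germ -/
theorem exists_rep {φ : ℂ → ℂ} (hφ : MeromorphicAt φ 0) :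
    ∃ (n : ℕ) (g : ℂ → ℂ), AnalyticAt ℂ g 0 ∧ ∀ᶠ z in 𝓝[≠] (0 : ℂ), φ z = z ^ (-(n : ℤ)) * g z := by
  obtain ⟨n, hn⟩ := hφ
  refine ⟨n, _, hn, ?_⟩
  filter_upwards [self_mem_nhdsWithin] with z hz
  have hz : z ≠ 0 := hz
  simp only [sub_zero, smul_eq_mul, zpow_neg, zpow_natCast]
  field_simp

/-- functions `ℂ → ℂ` which are meromorphic at `0`. -/
def Mer : Subalgebra ℂ (ℂ → ℂ) where
  carrier := {φ | MeromorphicAt φ 0}
  mul_mem' := fun ha hb => ha.mul hb
  add_mem' := fun ha hb => ha.add hb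
  algebraMap_mem' := fun c => MeromorphicAt.const c 0

theorem mem_Mer {φ : ℂ → ℂ} : φ ∈ Mer ↔ MeromorphicAt φ 0 := Iff.rfl

theorem laurent_const (c : ℂ) : laurent (fun _ => c) = HahnSeries.C c := by
  rw [laurent_of_analyticAt analyticAt_const, taylor_const, HahnSeries.ofPowerSeries_C]

theorem laurent_mul {φ ψ : ℂ → ℂ} (hφ : MeromorphicAt φ 0) (hψ : MeromorphicAt ψ 0) :
    laurent (φ * ψ) = laurent φ * laurent ψ := by
  obtain ⟨n, g, hg, hn⟩ := exists_rep hφ
  obtain ⟨m, g', hg', hm⟩ := exists_rep hψ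
  rw [laurent_eq hg hn, laurent_eq hg' hm,
    laurent_eq (k := -(n : ℤ) + -(m : ℤ)) (hg.mul hg')]
  · rw [taylor_mul hg hg', map_mul, ← one_mul (1 : ℂ), ← HahnSeries.single_mul_single, one_mul]
    ring
  · filter_upwards [hn, hm, self_mem_nhdsWithin] with z h1 h2 hz
    have hz : z ≠ 0 := hz
    simp only [Pi.mul_apply, h1, h2, zpow_add₀ hz]
    ring

theorem laurent_add {φ ψ : ℂ → ℂ} (hφ : MeromorphicAt φ 0) (hψ : MeromorphicAt ψ 0) :
    laurent (φ + ψ) = laurent φ + laurent ψ := by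
  obtain ⟨n, g, hg, hn⟩ := exists_rep hφ
  obtain ⟨m, g', hg', hm⟩ := exists_rep hψ
  have hA : AnalyticAt ℂ ((fun z : ℂ => z ^ m) * g) 0 := (analyticAt_id.pow m).mul hg
  have hB : AnalyticAt ℂ ((fun z : ℂ => z ^ n) * g') 0 := (analyticAt_id.pow n).mul hg'
  rw [laurent_eq hg hn, laurent_eq hg' hm,
    laurent_eq (k := -(n : ℤ) + -(m : ℤ)) (hA.add hB)]
  · rw [taylor_add hA hB, taylor_mul (analyticAt_id_pow m) hg, taylor_mul (analyticAt_id_pow n) hg',
      taylor_id_pow, taylor_id_pow, map_add, map_mul, map_mul, HahnSeries.ofPowerSeries_X_pow,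
      HahnSeries.ofPowerSeries_X_pow, mul_add, ← mul_assoc, ← mul_assoc,
      HahnSeries.single_mul_single, HahnSeries.single_mul_single, one_mul]
    rw [show -(n : ℤ) + -(m : ℤ) + m = -(n : ℤ) by ring,
      show -(n : ℤ) + -(m : ℤ) + n = -(m : ℤ) by ring]
  · filter_upwards [hn, hm, self_mem_nhdsWithin] with z h1 h2 hz
    have hz : z ≠ 0 := hz
    simp only [Pi.add_apply, Pi.mul_apply, h1, h2, zpow_add₀ hz, zpow_neg, zpow_natCast]
    field_simp

/-- Laurent expansion as an algebra homomorphism. -/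
noncomputable def laurentHom : Mer →ₐ[ℂ] LaurentSeries ℂ where
  toFun φ := laurent φ
  map_one' := (laurent_const 1).trans (map_one _)
  map_mul' := fun φ ψ => laurent_mul φ.2 ψ.2
  map_zero' := (laurent_const 0).trans (map_zero _)
  map_add' := fun φ ψ => laurent_add φ.2 ψ.2
  commutes' := fun c => by
    rw [ModularCurve.algebraMap_laurentSeries_eq_single]
    exact laurent_const c

@[simp] theorem laurentHom_apply (φ : Mer) : laurentHom φ = laurent (φ : ℂ → ℂ) := rfl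

theorem single_mul_ofPowerSeries_eq_zero_iff (k : ℤ) (T : PowerSeries ℂ) :
    HahnSeries.single k (1 : ℂ) * HahnSeries.ofPowerSeries ℤ ℂ T = 0 ↔ T = 0 := by
  rw [mul_eq_zero, HahnSeries.single_eq_zero_iff]
  simp only [one_ne_zero, false_or]
  rw [← map_zero (HahnSeries.ofPowerSeries ℤ ℂ), HahnSeries.ofPowerSeries_injective.eq_iff]

theorem laurent_eq_zero_iff {φ : ℂ → ℂ} (hφ : MeromorphicAt φ 0) :
    laurent φ = 0 ↔ ∀ᶠ z in 𝓝[≠] (0 : ℂ), φ z = 0 := by
  obtain ⟨n, g, hg, hn⟩ := exists_rep hφ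
  rw [laurent_eq hg hn, single_mul_ofPowerSeries_eq_zero_iff, taylor_eq_zero_iff hg]
  constructor
  · intro h
    filter_upwards [hn, h.filter_mono nhdsWithin_le_nhds] with z h1 h2
    rw [h1, h2]
    simp
  · intro h
    refine eventually_nhds_of_nhdsNE hg analyticAt_const ?_
    filter_upwards [hn, h, self_mem_nhdsWithin] with z h1 h2 hz
    have hz : z ≠ 0 := hz
    rw [h1] at h2
    simpa [hz] using h2

/-- converse of the previous one -/
theorem order_laurent_eq {φ g : ℂ → ℂ} {k : ℤ} (hg : AnalyticAt ℂ g 0) (hg0 : g 0 ≠ 0)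
    (h : ∀ᶠ z in 𝓝[≠] (0 : ℂ), φ z = z ^ k * g z) :
    laurent φ ≠ 0 ∧ (laurent φ).order = k ∧ (laurent φ).leadingCoeff = g 0 := by
  have hT : taylor g ≠ 0 := by
    intro h0
    apply hg0
    rw [← constantCoeff_taylor g, h0, map_zero]
  have hne : laurent φ ≠ 0 := by
    rw [laurent_eq hg h, Ne, single_mul_ofPowerSeries_eq_zero_iff]
    exact hT
  have hc : ∀ j : ℤ, (laurent φ).coeff j =
      if j - k < 0 then 0 else (taylor g).coeff (j - k).natAbs := by
    intro j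
    rw [laurent_eq hg h, HahnSeries.coeff_single_mul, one_mul]
    exact PowerSeries.coeff_coe _ _
  have hck : (laurent φ).coeff k = g 0 := by
    rw [hc]
    simp [constantCoeff_taylor]
  have hord : (laurent φ).order = k := by
    apply le_antisymm
    · exact HahnSeries.order_le_of_coeff_ne_zero (by rw [hck]; exact hg0)
    · rw [HahnSeries.le_order_iff_forall hne]
      intro j hj
      rw [hc, if_pos (by omega)]
  refine ⟨hne, hord, ?_⟩
  rw [HahnSeries.leadingCoeff_eq, hord, hck]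

/-- normal form of a nonzero meromorphic germ, in terms of `laurent` -/
theorem exists_eq_zpow_mul {φ : ℂ → ℂ} (hφ : MeromorphicAt φ 0) (h0 : laurent φ ≠ 0) :
    ∃ g : ℂ → ℂ, AnalyticAt ℂ g 0 ∧ g 0 = (laurent φ).leadingCoeff ∧ g 0 ≠ 0 ∧
      ∀ᶠ z in 𝓝[≠] (0 : ℂ), φ z = z ^ (laurent φ).order * g z := by
  have h1 : meromorphicOrderAt φ 0 ≠ ⊤ := by
    rw [Ne, meromorphicOrderAt_eq_top_iff, ← laurent_eq_zero_iff hφ]
    exact h0
  obtain ⟨g, hg, hg0, hk⟩ := (meromorphicOrderAt_ne_top_iff hφ).1 h1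
  have hk' : ∀ᶠ z in 𝓝[≠] (0 : ℂ), φ z = z ^ (meromorphicOrderAt φ 0).untop₀ * g z := by
    filter_upwards [hk] with z hz
    simpa using hz
  obtain ⟨-, h2, h3⟩ := order_laurent_eq hg hg0 hk'
  refine ⟨g, hg, h3.symm, hg0, ?_⟩
  rw [h2]
  exact hk'

/-- reparametrisation by a local biholomorphism fixing `0`: the order is unchanged, the leading
coefficient is multiplied by `σ'(0) ^ order`. -/
theorem laurent_comp {φ σ : ℂ → ℂ} (hφ : MeromorphicAt φ 0) (hσ : AnalyticAt ℂ σ 0)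
    (hσ0 : σ 0 = 0) (hσ' : deriv σ 0 ≠ 0) (h0 : laurent φ ≠ 0) :
    MeromorphicAt (φ ∘ σ) 0 ∧ laurent (φ ∘ σ) ≠ 0 ∧ (laurent (φ ∘ σ)).order = (laurent φ).order ∧
      (laurent (φ ∘ σ)).leadingCoeff = deriv σ 0 ^ (laurent φ).order * (laurent φ).leadingCoeff := by
  obtain ⟨g, hg, hg1, hg0, hk⟩ := exists_eq_zpow_mul hφ h0
  set k := (laurent φ).order with hkdef
  have hs : AnalyticAt ℂ (dslope σ 0) 0 := by
    obtain ⟨p, hp⟩ := hσ
    exact ⟨_, hp.has_fpower_series_dslope_fslope⟩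
  have hs0 : dslope σ 0 0 = deriv σ 0 := dslope_same σ 0
  have hσs : ∀ z, σ z = z * dslope σ 0 z := by
    intro z
    have := sub_smul_dslope σ 0 z
    simpa [hσ0] using this.symm
  have hsne : ∀ᶠ z in 𝓝 (0 : ℂ), dslope σ 0 z ≠ 0 :=
    hs.continuousAt.eventually_ne (by rw [hs0]; exact hσ')
  have htend : Tendsto σ (𝓝[≠] 0) (𝓝[≠] 0) := by
    rw [tendsto_nhdsWithin_iff]
    refine ⟨?_, ?_⟩
    · have := hσ.continuousAt.tendsto
      rw [hσ0] at this
      exact this.mono_left nhdsWithin_le_nhds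
    · filter_upwards [hsne.filter_mono nhdsWithin_le_nhds, self_mem_nhdsWithin] with z h1 h2
      rw [hσs]
      exact mul_ne_zero h2 h1
  have hG : AnalyticAt ℂ (fun z => dslope σ 0 z ^ k * g (σ z)) 0 := by
    refine (hs.zpow (by rw [hs0]; exact hσ')).mul ?_
    have hg' : AnalyticAt ℂ g (σ 0) := by rw [hσ0]; exact hg
    exact hg'.comp hσ
  have hrep : ∀ᶠ z in 𝓝[≠] (0 : ℂ), (φ ∘ σ) z = z ^ k * (dslope σ 0 z ^ k * g (σ z)) := by
    filter_upwards [htend.eventually hk] with z hz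
    rw [Function.comp_apply, hz, ← mul_assoc, ← mul_zpow, ← hσs]
  have hφ' : MeromorphicAt φ (σ 0) := by rw [hσ0]; exact hφ
  refine ⟨hφ'.comp_analyticAt hσ, ?_⟩
  have := order_laurent_eq hG (by
    simp only [hs0, hσ0]
    exact mul_ne_zero (zpow_ne_zero _ hσ') hg0) hrep
  refine ⟨this.1, this.2.1, ?_⟩
  rw [this.2.2, hs0, hσ0, hg1]

/-- multiply the `k`-th coefficient by `ζ ^ k` -/
noncomputable def twist (ζ : ℂ) (S : LaurentSeries ℂ) : LaurentSeries ℂ where
  coeff k := ζ ^ k * S.coeff k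
  isPWO_support' := S.isPWO_support.mono fun k hk => by
    simp only [Function.mem_support, ne_eq, mul_eq_zero, not_or] at hk
    exact hk.2

@[simp] theorem coeff_twist (ζ : ℂ) (S : LaurentSeries ℂ) (k : ℤ) :
    (twist ζ S).coeff k = ζ ^ k * S.coeff k := rfl

/-- no polar part implies bounded near `0` -/
theorem isBigO_one_of_order_nonneg {φ : ℂ → ℂ} (hφ : MeromorphicAt φ 0)
    (h : 0 ≤ (laurent φ).order) : φ =O[𝓝[≠] (0 : ℂ)] (fun _ => (1 : ℂ)) := by
  by_cases h0 : laurent φ = 0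
  · have := (laurent_eq_zero_iff hφ).1 h0
    refine (Asymptotics.isBigO_zero (fun _ => (1 : ℂ)) (𝓝[≠] (0 : ℂ))).congr' ?_ EventuallyEq.rfl
    filter_upwards [this] with z hz
    exact hz.symm
  · obtain ⟨g, hg, -, -, hk⟩ := exists_eq_zpow_mul hφ h0
    obtain ⟨m, hm⟩ := Int.eq_ofNat_of_zero_le h
    rw [hm] at hk
    have hc : ContinuousAt (fun z : ℂ => z ^ m * g z) 0 :=
      ((analyticAt_id_pow m).mul hg).continuousAt
    have hO : (fun z : ℂ => z ^ m * g z) =O[𝓝[≠] (0 : ℂ)] (fun _ => (1 : ℂ)) :=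
      (hc.tendsto.isBigO_one ℂ).mono nhdsWithin_le_nhds
    refine hO.congr' ?_ EventuallyEq.rfl
    filter_upwards [hk] with z hz
    rw [hz]
    simp

theorem tendsto_mul_pow_nhdsNE {ζ : ℂ} (hζ : ζ ≠ 0) (a : ℕ) [NeZero a] :
    Tendsto (fun q : ℂ => ζ * q ^ a) (𝓝[≠] 0) (𝓝[≠] 0) := by
  rw [tendsto_nhdsWithin_iff]
  refine ⟨?_, ?_⟩
  · have hc : ContinuousAt (fun q : ℂ => ζ * q ^ a) 0 := by fun_prop
    have := hc.tendsto
    simp only [ne_eq, NeZero.ne a, not_false_eq_true, zero_pow, mul_zero] at this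
    exact this.mono_left nhdsWithin_le_nhds
  · filter_upwards [self_mem_nhdsWithin] with z hz
    exact mul_ne_zero hζ (pow_ne_zero _ hz)

theorem taylor_comp_mul_pow {g : ℂ → ℂ} (hg : AnalyticAt ℂ g 0) (ζ : ℂ) (a : ℕ) [NeZero a] :
    taylor (fun q => g (ζ * q ^ a)) =
      PowerSeries.mk fun m => if a ∣ m then ζ ^ (m / a) * (taylor g).coeff (m / a) else 0 := by
  obtain ⟨r, hr, hs⟩ := exists_hasSum_taylor hg
  have hc : ContinuousAt (fun q : ℂ => ζ * q ^ a) 0 := by fun_prop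
  have hev : ∀ᶠ q in 𝓝 (0 : ℂ), ‖ζ * q ^ a‖ < r := by
    have h1 : Tendsto (fun q : ℂ => ‖ζ * q ^ a‖) (𝓝 0) (𝓝 ‖ζ * (0 : ℂ) ^ a‖) := hc.tendsto.norm
    simp only [ne_eq, NeZero.ne a, not_false_eq_true, zero_pow, mul_zero, norm_zero] at h1
    exact h1.eventually (gt_mem_nhds hr)
  obtain ⟨r', hr', hball⟩ := Metric.eventually_nhds_iff_ball.1 hev
  refine taylor_eq_of_hasSum hr' fun q hq => ?_
  have h1 := hs (ζ * q ^ a) (hball q (by simpa using hq))
  have hinj : Function.Injective fun n : ℕ => a * n :=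
    fun x y hxy => Nat.eq_of_mul_eq_mul_left (Nat.pos_of_ne_zero (NeZero.ne a)) hxy
  rw [← hinj.hasSum_iff]
  · convert h1 using 2 with n
    simp only [Function.comp_apply, dvd_mul_right, if_true,
      Nat.mul_div_cancel_left _ (Nat.pos_of_ne_zero (NeZero.ne a))]
    rw [mul_pow, ← pow_mul]
    ring
  · intro m hm
    have : ¬ a ∣ m := by
      rintro ⟨n, rfl⟩
      exact hm ⟨n, rfl⟩
    simp [this]

/-- substitution `q ↦ ζ q ^ a` -/
theorem laurent_comp_mul_pow {φ : ℂ → ℂ} (hφ : MeromorphicAt φ 0) {ζ : ℂ} (hζ : ζ ≠ 0)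
    (a : ℕ) [NeZero a] :
    MeromorphicAt (fun q => φ (ζ * q ^ a)) 0 ∧
      laurent (fun q => φ (ζ * q ^ a)) = ModularCurve.qExpand ℂ a (twist ζ (laurent φ)) := by
  have ha : 0 < a := Nat.pos_of_ne_zero (NeZero.ne a)
  have hσ : AnalyticAt ℂ (fun q : ℂ => ζ * q ^ a) 0 := by fun_prop
  have hσ0 : (fun q : ℂ => ζ * q ^ a) 0 = 0 := by simp [NeZero.ne a]
  refine ⟨?_, ?_⟩
  · have hφ' : MeromorphicAt φ ((fun q : ℂ => ζ * q ^ a) 0) := by rw [hσ0]; exact hφ
    exact MeromorphicAt.comp_analyticAt (g := fun q : ℂ => ζ * q ^ a) hφ' hσ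
  obtain ⟨n, g, hg, hn⟩ := exists_rep hφ
  set k : ℤ := -(n : ℤ) with hk
  have hg' : AnalyticAt ℂ (fun q => g (ζ * q ^ a)) 0 := by
    have hg1 : AnalyticAt ℂ g ((fun q : ℂ => ζ * q ^ a) 0) := by rw [hσ0]; exact hg
    exact AnalyticAt.comp (f := fun q : ℂ => ζ * q ^ a) hg1 hσ
  have hG : AnalyticAt ℂ ((fun _ => ζ ^ k) * fun q => g (ζ * q ^ a)) 0 :=
    analyticAt_const.mul hg'
  have hrep : ∀ᶠ q in 𝓝[≠] (0 : ℂ), φ (ζ * q ^ a) =
      q ^ ((a : ℤ) * k) * (((fun _ => ζ ^ k) * fun q => g (ζ * q ^ a) : ℂ → ℂ) q) := by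
    filter_upwards [(tendsto_mul_pow_nhdsNE hζ a).eventually hn] with q hq
    rw [hq, mul_zpow, zpow_mul, zpow_natCast]
    simp only [Pi.mul_apply]
    ring
  rw [laurent_eq hG hrep, laurent_eq hg hn, taylor_mul analyticAt_const hg', taylor_const,
    taylor_comp_mul_pow hg]
  ext j
  rw [HahnSeries.coeff_single_mul, one_mul]
  erw [PowerSeries.coeff_coe]
  by_cases hj : (a : ℤ) ∣ j
  · obtain ⟨i, rfl⟩ := hj
    rw [ModularCurve.qExpand_coeff_mul, coeff_twist, HahnSeries.coeff_single_mul, one_mul]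
    erw [PowerSeries.coeff_coe]
    have hak : (a : ℤ) * i - a * k = a * (i - k) := by ring
    by_cases hik : i - k < 0
    · have : (a : ℤ) * i - a * k < 0 := by
        rw [hak]
        exact mul_neg_of_pos_of_neg (by exact_mod_cast ha) hik
      rw [if_pos this, if_pos hik, mul_zero]
    · have : ¬ (a : ℤ) * i - a * k < 0 := by
        rw [hak, not_lt]
        exact mul_nonneg (by positivity) (not_lt.1 hik)
      rw [if_neg this, if_neg hik]
      obtain ⟨m, hm⟩ := Int.eq_ofNat_of_zero_le (not_lt.1 hik)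
      rw [hak, hm]
      have h1 : ((a : ℤ) * (m : ℤ)).natAbs = a * m := by
        rw [← Nat.cast_mul, Int.natAbs_natCast]
      rw [h1, Int.natAbs_natCast, PowerSeries.coeff_C_mul, PowerSeries.coeff_mk,
        if_pos (dvd_mul_right a m), Nat.mul_div_cancel_left _ ha]
      have hi : i = k + m := by omega
      rw [hi, zpow_add₀ hζ, zpow_natCast]
      ring
  · rw [ModularCurve.qExpand_coeff_of_not_dvd a _ hj]
    split_ifs with h
    · rfl
    · rw [PowerSeries.coeff_C_mul, PowerSeries.coeff_mk, if_neg, mul_zero]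
      intro hd
      apply hj
      have h2 : (a : ℤ) ∣ (j - a * k) := by
        rw [← Int.natCast_dvd_natCast, Int.natCast_natAbs, dvd_abs] at hd
        exact hd
      have := dvd_add h2 (dvd_mul_right (a : ℤ) k)
      simpa using this

end Fermat.Agent.S24lib
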