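import Fermat.Agent.S24.JRam
import Fermat.Agent.S24.Taylor

/-!
# S24 library: local behaviour of the analytic `j`-function
-/

set_option autoImplicit false

open UpperHalfPlane hiding I
open ModularForm MatrixGroups Filter Topology Complex
open scoped Manifold Real
open Derivative

namespace Fermat.Agent.S24lib

local notation "Δ" => ModularForm.discriminant

/-- the germ of `F : ℍ → ℂ` at `τ₀`, in the coordinate `t = τ - τ₀` -/
noncomputable def hgerm (F : ℍ → ℂ) (τ₀ : ℍ) (t : ℂ) : ℂ := F (ofComplex ((τ₀ : ℂ) + t))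

theorem hgerm_zero (F : ℍ → ℂ) (τ₀ : ℍ) : hgerm F τ₀ 0 = F τ₀ := by simp [hgerm]

theorem analyticAt_hgerm {F : ℍ → ℂ} (hF : MDiff F) (τ₀ : ℍ) : AnalyticAt ℂ (hgerm F τ₀) 0 := by
  have h1 : AnalyticAt ℂ (F ∘ ofComplex) (τ₀ : ℂ) :=
    (UpperHalfPlane.mdifferentiable_iff.mp hF).analyticAt
      (isOpen_upperHalfPlaneSet.mem_nhds τ₀.im_pos)
  have h2 : AnalyticAt ℂ (fun t : ℂ => (τ₀ : ℂ) + t) 0 := by fun_prop
  have h1' : AnalyticAt ℂ (F ∘ ofComplex) ((fun t : ℂ => (τ₀ : ℂ) + t) 0) := by simpa using h1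
  exact h1'.comp h2

theorem deriv_hgerm (F : ℍ → ℂ) (τ₀ : ℍ) : deriv (hgerm F τ₀) 0 = 2 * π * I * D F τ₀ := by
  have : hgerm F τ₀ = fun t => (F ∘ ofComplex) ((τ₀ : ℂ) + t) := rfl
  rw [this, deriv_comp_const_add, add_zero, normalizedDerivOfComplex]
  have : (2 * π * I : ℂ) ≠ 0 := by simp [Real.pi_ne_zero]
  field_simp

theorem order_taylor_eq_zero {g : ℂ → ℂ} (h : g 0 ≠ 0) : (taylor g).order = 0 := by
  have : (taylor g).order = ((0 : ℕ) : ℕ∞) := by
    rw [PowerSeries.order_eq_nat]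
    refine ⟨?_, fun i hi => absurd hi (Nat.not_lt_zero i)⟩
    rw [PowerSeries.coeff_zero_eq_constantCoeff_apply, constantCoeff_taylor]
    exact h
  simpa using this

theorem order_taylor_eq_one {g : ℂ → ℂ} (h0 : g 0 = 0) (h1 : deriv g 0 ≠ 0) :
    (taylor g).order = 1 := by
  have : (taylor g).order = ((1 : ℕ) : ℕ∞) := by
    rw [PowerSeries.order_eq_nat]
    refine ⟨?_, fun i hi => ?_⟩
    · rw [coeff_one_taylor]
      exact h1
    · obtain rfl : i = 0 := by omega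
      rw [PowerSeries.coeff_zero_eq_constantCoeff_apply, constantCoeff_taylor]
      exact h0
  simpa using this

/-- the germ of `j` at `τ₀`, in the coordinate `t = τ - τ₀` -/
noncomputable def jgerm (τ₀ : ℍ) (t : ℂ) : ℂ := jfun (ofComplex ((τ₀ : ℂ) + t))

theorem jgerm_eq_hgerm (τ₀ : ℍ) : jgerm τ₀ = hgerm jfun τ₀ := rfl

theorem analyticAt_jgerm (τ₀ : ℍ) : AnalyticAt ℂ (jgerm τ₀) 0 :=
  analyticAt_hgerm mdiff_jfun τ₀

theorem jfun_mul_disc (z : ℍ) : jfun z * Δ z = E₄ z ^ 3 := by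
  rw [jfun, div_mul_cancel₀ _ (discriminant_ne_zero z)]

theorem jfun_sub_mul_disc (z : ℍ) : (jfun z - 1728) * Δ z = E₆ z ^ 2 := by
  rw [sub_mul, jfun_mul_disc, discriminant_eq_E₄_cube_sub_E₆_sq z]
  ring

theorem D_E4 : ∃ c : ℂ, c ≠ 0 ∧ ∀ z : ℍ,
    D (E₄ : ℍ → ℂ) z = c * E₆ z + 3⁻¹ * EisensteinSeries.E2 z * E₄ z := by
  obtain ⟨c, hc, h⟩ := exists_serre_E4
  refine ⟨c, hc, fun z => ?_⟩
  have := congrFun h z
  simp only [serreDerivative_apply, Pi.smul_apply, smul_eq_mul] at this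
  linear_combination this

theorem D_E6 : ∃ c : ℂ, c ≠ 0 ∧ ∀ z : ℍ,
    D (E₆ : ℍ → ℂ) z = c * E₄ z ^ 2 + 2⁻¹ * EisensteinSeries.E2 z * E₆ z := by
  obtain ⟨c, hc, h⟩ := exists_serre_E6
  refine ⟨c, hc, fun z => ?_⟩
  have := congrFun h z
  simp only [serreDerivative_apply, Pi.smul_apply, smul_eq_mul, Pi.pow_apply] at this
  linear_combination this

/-- `D j = c E₄² E₆ / Δ` with `c ≠ 0` -/
theorem D_jfun : ∃ c : ℂ, c ≠ 0 ∧ ∀ z : ℍ, D jfun z * Δ z = c * E₄ z ^ 2 * E₆ z := by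
  obtain ⟨c, hc, h⟩ := D_E4
  refine ⟨3 * c, mul_ne_zero (by norm_num) hc, fun z => ?_⟩
  have h1 : jfun * (Δ : ℍ → ℂ) = (E₄ : ℍ → ℂ) ^ 3 := by
    funext z
    exact jfun_mul_disc z
  have h2 := congrArg (fun F => D F z) h1
  simp only [normalizedDerivOfComplex_mul _ _ mdiff_jfun mdiff_disc,
    normalizedDerivOfComplex_pow _ _ S20lib.isR_E4.holo, Pi.add_apply, Pi.mul_apply,
    Pi.pow_apply, D_disc, h z] at h2
  have h3 := jfun_mul_disc z
  norm_num at h2
  linear_combination h2 - EisensteinSeries.E2 z * h3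

/-- `j` is unramified away from `j = 0, 1728` -/
theorem deriv_jgerm_ne_zero (τ₀ : ℍ) (h0 : jfun τ₀ ≠ 0) (h1 : jfun τ₀ ≠ 1728) :
    deriv (jgerm τ₀) 0 ≠ 0 := by
  obtain ⟨c, hc, h⟩ := D_jfun
  rw [jgerm_eq_hgerm, deriv_hgerm]
  have hpi : (2 * π * I : ℂ) ≠ 0 := by simp [Real.pi_ne_zero]
  refine mul_ne_zero hpi ?_
  intro hD
  have h2 := h τ₀
  rw [hD, zero_mul] at h2
  have hΔ := discriminant_ne_zero τ₀
  have h4 : E₄ τ₀ ≠ 0 := by
    intro h4
    have := jfun_mul_disc τ₀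
    rw [h4] at this
    simp [h0, hΔ] at this
  have h6 : E₆ τ₀ ≠ 0 := by
    intro h6
    have := jfun_sub_mul_disc τ₀
    rw [h6] at this
    simp [sub_eq_zero, h1, hΔ] at this
  exact (mul_ne_zero (mul_ne_zero hc (pow_ne_zero 2 h4)) h6) h2.symm

theorem S_smul_I : ModularGroup.S • UpperHalfPlane.I = UpperHalfPlane.I := by
  rw [modular_S_smul, UpperHalfPlane.ext_iff]
  norm_num

theorem E6_I : E₆ UpperHalfPlane.I = 0 := by
  have h := congrFun (S20lib.isR_E6.inv ModularGroup.S) UpperHalfPlane.I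
  rw [ModularForm.SL_slash_apply, S_smul_I, ModularGroup.denom_S] at h
  have h2 : ((UpperHalfPlane.I : ℍ) : ℂ) ^ (-6 : ℤ) = -1 := by
    rw [UpperHalfPlane.coe_I, zpow_neg, show (6 : ℤ) = ((6 : ℕ) : ℤ) by norm_num, zpow_natCast,
      show (6 : ℕ) = 2 * 3 by norm_num, pow_mul, I_sq]
    norm_num
  rw [h2] at h
  have h3 : (2 : ℂ) * E₆ UpperHalfPlane.I = 0 := by linear_combination -h
  simpa using h3

theorem jfun_I : jfun UpperHalfPlane.I = 1728 := by
  have := jfun_sub_mul_disc UpperHalfPlane.I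
  rw [E6_I] at this
  have hΔ := discriminant_ne_zero UpperHalfPlane.I
  simpa [sub_eq_zero, hΔ] using this

theorem taylor_sub_const {g : ℂ → ℂ} (hg : AnalyticAt ℂ g 0) (c : ℂ) :
    taylor g - PowerSeries.C c = taylor (fun t => g t - c) := by
  have h : (fun t => g t - c) = g + fun _ => -c := by
    funext t
    simp [sub_eq_add_neg]
  rw [h, taylor_add hg analyticAt_const, taylor_const, map_neg, sub_eq_add_neg]

/-- `j - 1728` has a double zero at `i` -/
theorem order_jgerm_I :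
    (taylor (jgerm UpperHalfPlane.I) - PowerSeries.C 1728).order = 2 := by
  obtain ⟨c, hc, h⟩ := D_E6
  rw [taylor_sub_const (analyticAt_jgerm _)]
  have h1 : (fun t => jgerm UpperHalfPlane.I t - 1728) =
      (hgerm (E₆ : ℍ → ℂ) UpperHalfPlane.I) ^ 2 * hgerm (fun τ => (Δ τ)⁻¹) UpperHalfPlane.I := by
    funext t
    simp only [jgerm, hgerm, Pi.mul_apply, Pi.pow_apply]
    rw [← jfun_sub_mul_disc, mul_assoc, mul_inv_cancel₀ (discriminant_ne_zero _), mul_one]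
  have a6 := analyticAt_hgerm S20lib.isR_E6.holo UpperHalfPlane.I
  have aΔ := analyticAt_hgerm mdiff_disc_inv UpperHalfPlane.I
  rw [h1, taylor_mul (a6.pow 2) aΔ, taylor_pow a6, PowerSeries.order_mul, PowerSeries.order_pow]
  have hΔ := discriminant_ne_zero UpperHalfPlane.I
  have h4 : E₄ UpperHalfPlane.I ≠ 0 := by
    intro h4
    have := jfun_mul_disc UpperHalfPlane.I
    rw [h4, jfun_I] at this
    simp [hΔ] at this
  have o1 : (taylor (hgerm (fun τ => (Δ τ)⁻¹) UpperHalfPlane.I)).order = 0 :=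
    order_taylor_eq_zero (by rw [hgerm_zero]; exact inv_ne_zero hΔ)
  have o2 : (taylor (hgerm (E₆ : ℍ → ℂ) UpperHalfPlane.I)).order = 1 := by
    refine order_taylor_eq_one (by rw [hgerm_zero]; exact E6_I) ?_
    rw [deriv_hgerm, h, E6_I]
    simpa using ⟨hc, h4⟩
  rw [o1, o2]
  rfl

/-- `ρ = exp (2 π i / 3)` -/
noncomputable def rho : ℍ := ⟨-1 / 2 + (Real.sqrt 3 / 2 : ℝ) * Complex.I, by simp⟩

theorem rho_sq_add : (rho : ℂ) ^ 2 + rho + 1 = 0 := by
  have hs : ((Real.sqrt 3 : ℝ) : ℂ) ^ 2 = 3 := by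
    rw [← Complex.ofReal_pow, Real.sq_sqrt (by norm_num)]
    norm_num
  show (-1 / 2 + ((Real.sqrt 3 / 2 : ℝ) : ℂ) * Complex.I) ^ 2 +
    (-1 / 2 + ((Real.sqrt 3 / 2 : ℝ) : ℂ) * Complex.I) + 1 = 0
  push_cast
  linear_combination (-1 / 4 : ℂ) * hs + ((Real.sqrt 3 : ℝ) : ℂ) ^ 2 / 4 * I_sq

theorem ST_smul_rho : (ModularGroup.S * ModularGroup.T) • rho = rho := by
  rw [mul_smul, modular_T_smul, modular_S_smul, UpperHalfPlane.ext_iff, UpperHalfPlane.coe_mk,
    coe_vadd]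
  have h := rho_sq_add
  have h0 : -(((1 : ℝ) : ℂ) + (rho : ℂ)) ≠ 0 := by
    intro h0
    have : (rho : ℂ) = -1 := by push_cast at h0; linear_combination -h0
    rw [this] at h
    norm_num at h
  rw [inv_eq_iff_eq_inv]
  refine eq_inv_of_mul_eq_one_left ?_
  push_cast
  linear_combination -h

theorem E4_rho : E₄ rho = 0 := by
  have h := congrFun (S20lib.isR_E4.inv (ModularGroup.S * ModularGroup.T)) rho
  rw [ModularForm.SL_slash_apply, ST_smul_rho] at h
  have hd : denom (ModularGroup.S * ModularGroup.T : SL(2, ℤ)) rho = (rho : ℂ) + 1 := by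
    rw [ModularGroup.denom_apply, Matrix.SpecialLinearGroup.coe_mul]
    simp [ModularGroup.S, ModularGroup.T, Matrix.mul_apply, Fin.sum_univ_two]
  rw [hd] at h
  have hr := rho_sq_add
  have h0 : (rho : ℂ) + 1 ≠ 0 := by
    intro h0
    have : (rho : ℂ) = -1 := by linear_combination h0
    rw [this] at hr
    norm_num at hr
  have h4 : ((rho : ℂ) + 1) ^ (4 : ℤ) = -(rho : ℂ) - 1 := by
    rw [show (4 : ℤ) = ((4 : ℕ) : ℤ) by norm_num, zpow_natCast]
    linear_combination ((rho : ℂ) ^ 2 + 3 * rho + 2) * hr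
  rw [zpow_neg, h4, mul_inv_eq_iff_eq_mul₀ (by rw [← h4]; exact zpow_ne_zero _ h0)] at h
  have h5 : E₄ rho * ((rho : ℂ) + 2) = 0 := by linear_combination h
  rcases mul_eq_zero.mp h5 with h6 | h6
  · exact h6
  · exfalso
    have : (rho : ℂ) = -2 := by linear_combination h6
    rw [this] at hr
    norm_num at hr

theorem jfun_rho : jfun rho = 0 := by
  simp [jfun, E4_rho]

/-- `j` has a triple zero at `ρ` -/
theorem order_jgerm_rho : (taylor (jgerm rho)).order = 3 := by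
  obtain ⟨c, hc, h⟩ := D_E4
  have h1 : jgerm rho =
      (hgerm (E₄ : ℍ → ℂ) rho) ^ 3 * hgerm (fun τ => (Δ τ)⁻¹) rho := by
    funext t
    simp only [jgerm, hgerm, Pi.mul_apply, Pi.pow_apply, jfun, div_eq_mul_inv]
  have a4 := analyticAt_hgerm S20lib.isR_E4.holo rho
  have aΔ := analyticAt_hgerm mdiff_disc_inv rho
  rw [h1, taylor_mul (a4.pow 3) aΔ, taylor_pow a4, PowerSeries.order_mul, PowerSeries.order_pow]
  have hΔ := discriminant_ne_zero rho
  have h6 : E₆ rho ≠ 0 := by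
    intro h6
    have := jfun_sub_mul_disc rho
    rw [h6, jfun_rho] at this
    simp [hΔ] at this
  have o1 : (taylor (hgerm (fun τ => (Δ τ)⁻¹) rho)).order = 0 :=
    order_taylor_eq_zero (by rw [hgerm_zero]; exact inv_ne_zero hΔ)
  have o2 : (taylor (hgerm (E₄ : ℍ → ℂ) rho)).order = 1 := by
    refine order_taylor_eq_one (by rw [hgerm_zero]; exact E4_rho) ?_
    rw [deriv_hgerm, h, E4_rho]
    simpa using ⟨hc, h6⟩
  rw [o1, o2]
  rfl

end Fermat.Agent.S24lib
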