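import Fermat.Agent.S24.JFunA
import Fermat.Agent.S24.JLocal
import Fermat.Prelude.Def_ModularCurve_ArithmeticGalois

/-!
# S24 library: basic definitions for the modular half

`Kb = Q-bar`, the fixed embedding `Kb → ℂ`, the generators `Jgen d = j(q^d)` of the function field
`FN N`, their analytic avatars `jd d τ = j (d τ)`, the two evaluation maps `evF`, `evH` on
`MvPolynomial (Dv N) Kb`, and the local charts `cInt`, `cCusp`.
-/

set_option autoImplicit false

open UpperHalfPlane ModularForm MatrixGroups Filter Topology ModularCurve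
open scoped Manifold

namespace Fermat.Agent.S24lib

/-- the constant field -/
abbrev Kb := AlgebraicClosure ℚ

/-- a fixed embedding of `Q-bar` into `ℂ` -/
noncomputable def iK : Kb →ₐ[ℚ] ℂ :=
  haveI : Algebra.IsAlgebraic ℚ Kb := AlgebraicClosure.isAlgebraic ℚ
  IsAlgClosed.lift

noncomputable instance algKbC : Algebra Kb ℂ := iK.toRingHom.toAlgebra

theorem algebraMap_Kb_C (a : Kb) : algebraMap Kb ℂ a = iK a := rfl

instance isScalarTower_Q_Kb_C : IsScalarTower ℚ Kb ℂ :=
  IsScalarTower.of_algebraMap_eq fun x => (iK.commutes x).symm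

/-- the function field of `X₀(N)` over `Q-bar` -/
abbrev FN (N : ℕ) := ↥(modularFunctionFieldBar N)

/-- index type of the generators -/
abbrev Dv (N : ℕ) := {d : ℕ // d ∣ N}

instance neZero_Dv (N : ℕ) [NeZero N] (d : Dv N) : NeZero d.1 :=
  ⟨fun h => NeZero.ne N (Nat.eq_zero_of_zero_dvd (h ▸ d.2))⟩

instance finite_Dv (N : ℕ) [NeZero N] : Finite (Dv N) :=
  Set.Finite.subset (Set.finite_Iic N) (fun _ hd => Nat.le_of_dvd (Nat.pos_of_ne_zero (NeZero.ne N)) hd)

variable (N : ℕ) [NeZero N]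

/-- the generators `j(q^d)`, `d ∣ N`, of the function field -/
noncomputable def Jgen (d : Dv N) : FN N :=
  ⟨coeffEmb Kb (qExpand ℚ d.1 jq), coeffEmb_mem_laurentBaseChange Kb (jqd_mem_full N d.2)⟩

/-- `j` itself as an element of the function field -/
noncomputable def J1 : FN N := Jgen N ⟨1, one_dvd N⟩

/-- `τ ↦ j (d τ)` -/
noncomputable def jd (d : ℕ) (τ : ℍ) : ℂ := jfun (ofComplex ((d : ℂ) * τ))

/-- evaluation of polynomials at the formal generators -/
noncomputable def evF : MvPolynomial (Dv N) Kb →ₐ[Kb] FN N := MvPolynomial.aeval (Jgen N)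

/-- evaluation of polynomials at the analytic generators -/
noncomputable def evH : MvPolynomial (Dv N) Kb →ₐ[Kb] (ℍ → ℂ) :=
  MvPolynomial.aeval (fun d : Dv N => jd d.1)

/-- A local chart: a map `c` from a punctured neighbourhood of `0` to `ℍ` along which all the
generators are meromorphic and which satisfies the identity principle. -/
structure IsChart (c : ℂ → ℍ) : Prop where
  mer : ∀ d : Dv N, MeromorphicAt (fun t => jd d.1 (c t)) 0
  ident : ∀ h : ℍ → ℂ, MDiff h → (∀ᶠ t in 𝓝[≠] (0 : ℂ), h (c t) = 0) → h = 0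

/-- interior chart `t ↦ γ (τ₀ + t)` -/
noncomputable def cInt (γ : SL(2, ℤ)) (τ₀ : ℍ) (t : ℂ) : ℍ := γ • ofComplex ((τ₀ : ℂ) + t)

/-- cusp chart `q ↦ γ (N log q / 2 π i)` -/
noncomputable def cCusp (γ : SL(2, ℤ)) (q : ℂ) : ℍ :=
  γ • ofComplex (Function.Periodic.invQParam N q)

/-- Laurent series over `ℂ` all of whose coefficients lie in `Kb` -/
noncomputable def KRat : Subalgebra Kb (LaurentSeries ℂ) where
  __ := (coeffMap (algebraMap Kb ℂ)).range
  algebraMap_mem' := fun a => ⟨HahnSeries.C a, by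
    rw [HahnSeries.algebraMap_apply', PowerSeries.algebraMap_apply, HahnSeries.ofPowerSeries_C]
    exact coeffMap_single _ _ _⟩

theorem mem_KRat {s : LaurentSeries ℂ} :
    s ∈ KRat ↔ ∃ s' : LaurentSeries Kb, coeffMap (algebraMap Kb ℂ) s' = s := Iff.rfl

/-- the Möbius germ `t ↦ g (τ₀ + t) - τ₀` -/
noncomputable def mob (g : SL(2, ℤ)) (τ₀ : ℍ) (t : ℂ) : ℂ :=
  ((g • ofComplex ((τ₀ : ℂ) + t) : ℍ) : ℂ) - τ₀

end Fermat.Agent.S24lib
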