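import Fermat.Agent.S24.Complete

/-!
# S24 library: abstract counting of the places in a fibre
-/

set_option autoImplicit false
set_option linter.unusedSectionVars false
set_option linter.style.haveILetI false
open AlgebraicCurve Polynomial IsDedekindDomain IntermediateField
namespace Fermat.Agent.S24lib

section inst
variable {K F : Type*} [Field K] [Field F] [Algebra K F] (u : F)

/-- the `K[X]`-algebra structure on `F` sending `X` to `u` -/
@[reducible] noncomputable def algPoly : Algebra K[X] F := (aeval u : K[X] →ₐ[K] F).toRingHom.toAlgebra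

/-- the `K[X]`-algebra structure on `K(u)` sending `X` to `u` -/
@[reducible] noncomputable def algPolyE : Algebra K[X] K⟮u⟯ :=
  (aeval (AdjoinSimple.gen K u) : K[X] →ₐ[K] K⟮u⟯).toRingHom.toAlgebra

theorem isFractionRing_adjoin (hu : Transcendental K u) :
    letI := algPolyE (K := K) u
    IsFractionRing K[X] K⟮u⟯ := by
  letI := algPolyE (K := K) u
  let e : RatFunc K ≃ₐ[K[X]] K⟮u⟯ :=
    { (RatFunc.algEquivOfTranscendental u hu).toRingEquiv with
      commutes' := fun g => RatFunc.algEquivOfTranscendental_algebraMap u hu g }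
  exact IsLocalization.isLocalization_of_algEquiv _ e

end inst

section main
variable {K F : Type*} [Field K] [IsAlgClosed K] [CharZero K] [Field F] [Algebra K F]

theorem exists_finset_zeros' (u : F) (hu : Transcendental K u) [FiniteDimensional K⟮u⟯ F] :
    ∃ s : Finset (Place K F), (∀ v, v ∈ s ↔ 0 < v.ord u) ∧
      ∑ v ∈ s, v.ord u = (Module.finrank K⟮u⟯ F : ℤ) := by
  letI a1 := algPoly (K := K) u
  letI a2 := algPolyE (K := K) u
  haveI t1 : IsScalarTower K K[X] F := IsScalarTower.of_algebraMap_eq fun a => by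
    show _ = aeval u (algebraMap K K[X] a)
    rw [Polynomial.algebraMap_eq, aeval_C]
  haveI f1 : FaithfulSMul K[X] F :=
    (faithfulSMul_iff_algebraMap_injective K[X] F).2 (transcendental_iff_injective.1 hu)
  haveI t2 : IsScalarTower K[X] K⟮u⟯ F := IsScalarTower.of_algebraMap_eq fun p => by
    show aeval u p = algebraMap K⟮u⟯ F (aeval (AdjoinSimple.gen K u) p)
    rw [← aeval_algebraMap_apply, AdjoinSimple.algebraMap_gen]
  haveI fr := isFractionRing_adjoin u hu
  haveI : CharZero K⟮u⟯ := charZero_of_injective_algebraMap (algebraMap K K⟮u⟯).injective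
  haveI d1 : IsDedekindDomain (integralClosure K[X] F) := integralClosure.isDedekindDomain K[X] K⟮u⟯ F
  haveI d2 : IsFractionRing (integralClosure K[X] F) F :=
    integralClosure.isFractionRing_of_finite_extension K⟮u⟯ F
  haveI d3 : Module.Finite K[X] (integralClosure K[X] F) :=
    IsIntegralClosure.finite K[X] K⟮u⟯ F (integralClosure K[X] F)
  obtain ⟨s, hs, hsum⟩ := exists_finset_zeros (K := K) (F := F) (0 : K)
  have hX : algebraMap K[X] F (X - C 0) = u := by
    show aeval u (X - C 0) = u
    simp
  rw [hX] at hs hsum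
  refine ⟨s, hs, ?_⟩
  rw [hsum, IsFractionRing.finrank_eq K[X] K⟮u⟯ (integralClosure K[X] F) F]

theorem exists_emb_of_place' (u : F) (hu : Transcendental K u) [FiniteDimensional K⟮u⟯ F]
    {C : Type*} [Field C] [Algebra K C]
    {I : Type*} [Fintype I] (emb : I → F →ₐ[K] LaurentSeries C)
    (hinj : Function.Injective emb) (hcard : Fintype.card I = Module.finrank K⟮u⟯ F)
    (hU : ∀ i j, emb i u = emb j u) (hpos : ∀ i, 0 < (emb i u).order)
    (v : Place K F) (hv : 0 < v.ord u) :
    ∃ i, ∃ m : ℕ, 0 < m ∧ ∀ f : F, f ≠ 0 → (emb i f).order = m * v.ord f := by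
  letI a1 := algPoly (K := K) u
  letI a2 := algPolyE (K := K) u
  haveI t1 : IsScalarTower K K[X] F := IsScalarTower.of_algebraMap_eq fun a => by
    show _ = aeval u (algebraMap K K[X] a)
    rw [Polynomial.algebraMap_eq, aeval_C]
  haveI f1 : FaithfulSMul K[X] F :=
    (faithfulSMul_iff_algebraMap_injective K[X] F).2 (transcendental_iff_injective.1 hu)
  haveI t2 : IsScalarTower K[X] K⟮u⟯ F := IsScalarTower.of_algebraMap_eq fun p => by
    show aeval u p = algebraMap K⟮u⟯ F (aeval (AdjoinSimple.gen K u) p)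
    rw [← aeval_algebraMap_apply, AdjoinSimple.algebraMap_gen]
  haveI fr := isFractionRing_adjoin u hu
  haveI : CharZero K⟮u⟯ := charZero_of_injective_algebraMap (algebraMap K K⟮u⟯).injective
  haveI d1 : IsDedekindDomain (integralClosure K[X] F) := integralClosure.isDedekindDomain K[X] K⟮u⟯ F
  haveI d2 : IsFractionRing (integralClosure K[X] F) F :=
    integralClosure.isFractionRing_of_finite_extension K⟮u⟯ F
  haveI d3 : Module.Finite K[X] (integralClosure K[X] F) :=
    IsIntegralClosure.finite K[X] K⟮u⟯ F (integralClosure K[X] F)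
  have hX : algebraMap K[X] F X = u := by
    show aeval u X = u
    simp
  exact exists_emb_of_place K⟮u⟯ emb hinj hcard (by rw [hX]; exact hU) (by rw [hX]; exact hpos) v
    (by rw [hX]; exact hv)

end main
/-- combinatorial core of the fibre count -/
theorem card_eq_of_fibres {X Ω S : Type*} [Finite X] [Finite Ω] [Finite S]
    (q : X → Ω) (p : Ω → S) (hp : Function.Surjective p) (e : S → ℕ)
    (hsum : ∑ᶠ v, e v = Nat.card X) (hq : Function.Surjective q)
    (hle : ∀ ω, e (p ω) ≤ Nat.card {x // q x = ω}) :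
    Nat.card S = Nat.card Ω := by
  classical
  haveI := Fintype.ofFinite X
  haveI := Fintype.ofFinite Ω
  haveI := Fintype.ofFinite S
  apply le_antisymm (Nat.card_le_card_of_surjective p hp)
  obtain ⟨σ, hσ⟩ := hp.hasRightInverse
  have hσinj : Function.Injective σ := hσ.injective
  rw [finsum_eq_sum_of_fintype] at hsum
  have hX : ∑ ω : Ω, Nat.card {x // q x = ω} = Nat.card X := by
    rw [← Nat.card_congr (Equiv.sigmaFiberEquiv q), Nat.card_sigma]
  have hpos : ∀ ω, 1 ≤ Nat.card {x // q x = ω} := by
    intro ω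
    obtain ⟨x, hx⟩ := hq ω
    haveI : Nonempty {x // q x = ω} := ⟨⟨x, hx⟩⟩
    exact Nat.card_pos
  have h1 : ∑ v : S, ((e v : ℤ) - 1) ≤ ∑ v : S, ((Nat.card {x // q x = σ v} : ℤ) - 1) := by
    refine Finset.sum_le_sum fun v _ => ?_
    have := hle (σ v)
    rw [hσ v] at this
    omega
  have h2 : ∑ v : S, ((Nat.card {x // q x = σ v} : ℤ) - 1)
      ≤ ∑ ω : Ω, ((Nat.card {x // q x = ω} : ℤ) - 1) := by
    rw [← Finset.sum_image (f := fun ω => ((Nat.card {x // q x = ω} : ℤ) - 1)) (g := σ)
      (s := Finset.univ) (fun a _ b _ h => hσinj h)]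
    refine Finset.sum_le_sum_of_subset_of_nonneg (Finset.subset_univ _) fun ω _ _ => ?_
    have := hpos ω
    omega
  rw [Finset.sum_sub_distrib, Finset.sum_sub_distrib] at h1
  rw [Finset.sum_sub_distrib, Finset.sum_sub_distrib] at h2
  simp only [Finset.sum_const, Finset.card_univ, nsmul_eq_mul, mul_one] at h1 h2
  have e1 : (∑ v : S, (e v : ℤ)) = Nat.card X := by exact_mod_cast hsum
  have e2 : (∑ ω : Ω, (Nat.card {x // q x = ω} : ℤ)) = Nat.card X := by exact_mod_cast hX
  rw [Nat.card_eq_fintype_card, Nat.card_eq_fintype_card]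
  omega

section final
variable {K F : Type*} [Field K] [Field F] [Algebra K F]

theorem Place.eq_of_mul_ord {v w : Place K F} {m n : ℕ} (hm : 0 < m) (hn : 0 < n)
    (h : ∀ f : F, f ≠ 0 → (m : ℤ) * v.ord f = n * w.ord f) : v = w := by
  apply Place.ext
  ext f
  rw [Place.mem_iff, Place.mem_iff]
  by_cases hf : f = 0
  · simp [hf]
  have hm' : (0 : ℤ) < m := by exact_mod_cast hm
  have hn' : (0 : ℤ) < n := by exact_mod_cast hn
  have h1 : 0 ≤ v.ord f ↔ 0 ≤ (m : ℤ) * v.ord f := (mul_nonneg_iff_of_pos_left hm').symm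
  have h2 : 0 ≤ w.ord f ↔ 0 ≤ (n : ℤ) * w.ord f := (mul_nonneg_iff_of_pos_left hn').symm
  rw [h1, h2, h f hf]

theorem Place.exists_ord_eq_one (v : Place K F) : ∃ f : F, f ≠ 0 ∧ v.ord f = 1 := by
  obtain ⟨π, hπ⟩ := IsDiscreteValuationRing.exists_irreducible v.toValuationSubring
  refine ⟨π, ?_, v.ord_coe_irreducible hπ⟩
  simpa [ne_eq, ZeroMemClass.coe_eq_zero] using hπ.ne_zero

end final

/-- Let `u ∈ F` be transcendental with `[F : K(u)] = |X|`, and let `emb x : F → C((t))`, `x ∈ X`,
be pairwise distinct embeddings which agree on `u`, where `emb x u` has order `r > 0`.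
Assume `g` acts on `X` such that `emb (g • x)` and `emb x` induce the same order function, and that
`g ^ k • x = x` forces `r ∣ k * order (emb x f)`.  Then the zeros of `u` are in bijection with the
`g`-orbits on `X`. -/
theorem card_places_eq_card_orbits
    {K F C : Type*} [Field K] [IsAlgClosed K] [CharZero K] [Field F] [Algebra K F]
    [Field C] [Algebra K C]
    (u : F) (hu : Transcendental K u) [FiniteDimensional K⟮u⟯ F]
    {X : Type*} [Finite X] (hX : Nat.card X = Module.finrank K⟮u⟯ F)
    (emb : X → F →ₐ[K] LaurentSeries C) (hinj : Function.Injective emb)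
    (hagree : ∀ x y, emb x u = emb y u) (r : ℕ) (hr : 0 < r)
    (hord : ∀ x, (emb x u).order = r)
    {G : Type*} [Group G] [MulAction G X] (g : G)
    (hg : ∀ x f, (emb (g • x) f).order = (emb x f).order)
    (hstab : ∀ x (k : ℕ), g ^ k • x = x → ∀ f, (r : ℤ) ∣ k * (emb x f).order) :
    Nat.card {v : Place K F // 0 < v.ord u} =
      Nat.card (MulAction.orbitRel.Quotient (Subgroup.zpowers g) X) := by
  classical
  haveI := Fintype.ofFinite X
  have hr' : (0 : ℤ) < r := by exact_mod_cast hr
  have hu0 : u ≠ 0 := by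
    rintro rfl
    exact hu (isAlgebraic_zero)
  obtain ⟨s, hs, hsum⟩ := exists_finset_zeros' u hu
  have hpl : ∀ x, ∃ w : Place K F, ∃ m : ℕ, 0 < m ∧
      ∀ f : F, f ≠ 0 → (emb x f).order = m * w.ord f :=
    fun x => exists_place_of_emb (emb x) ⟨u, hu0, by rw [hord]; omega⟩
  choose w m hm hw using hpl
  have hm' : ∀ x, (0 : ℤ) < m x := fun x => by exact_mod_cast hm x
  have hwu : ∀ x, (r : ℤ) = m x * (w x).ord u := fun x => by rw [← hw x u hu0, hord]
  have hwpos : ∀ x, 0 < (w x).ord u := by
    intro x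
    have h2 := hr'
    rw [hwu x] at h2
    exact (mul_pos_iff_of_pos_left (hm' x)).1 h2
  rw [Nat.card_congr (Equiv.subtypeEquivRight (fun v => (hs v).symm))]
  let π : X → s := fun x => ⟨w x, (hs _).2 (hwpos x)⟩
  have hπg : ∀ x, π (g • x) = π x := by
    intro x
    apply Subtype.ext
    refine Place.eq_of_mul_ord (hm (g • x)) (hm x) fun f hf => ?_
    rw [← hw _ f hf, ← hw _ f hf, hg]
  let H : Subgroup G :=
    { carrier := {h | ∀ y, π (h • y) = π y}
      mul_mem' := by
        intro a b ha hb y
        rw [mul_smul, ha, hb]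
      one_mem' := by intro y; rw [one_smul]
      inv_mem' := by
        intro a ha y
        have := ha (a⁻¹ • y)
        rw [smul_inv_smul] at this
        exact this.symm }
  have hH : Subgroup.zpowers g ≤ H := by
    rw [Subgroup.zpowers_le]
    exact hπg
  let p : MulAction.orbitRel.Quotient (Subgroup.zpowers g) X → s :=
    Quotient.lift π (by
      rintro a b ⟨⟨h, hh⟩, rfl⟩
      exact hH hh b)
  have hp : Function.Surjective p := by
    rintro ⟨v, hv⟩
    obtain ⟨x, n, hn, hx⟩ := exists_emb_of_place' u hu emb hinj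
      (by rw [← hX, Nat.card_eq_fintype_card]) hagree (fun x => by rw [hord]; exact hr') v
      ((hs v).1 hv)
    refine ⟨Quotient.mk'' x, Subtype.ext ?_⟩
    show w x = v
    refine Place.eq_of_mul_ord (hm x) hn fun f hf => ?_
    rw [← hw _ f hf, hx f hf]
  refine card_eq_of_fibres (Quotient.mk'' : X → MulAction.orbitRel.Quotient (Subgroup.zpowers g) X)
    p hp (fun v => (v.1.ord u).toNat) ?_ Quotient.mk''_surjective ?_
  · rw [finsum_eq_sum_of_fintype, Finset.sum_coe_sort s (fun v => (v.ord u).toNat), hX]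
    have : ((∑ v ∈ s, (v.ord u).toNat : ℕ) : ℤ) = Module.finrank K⟮u⟯ F := by
      rw [← hsum, Nat.cast_sum]
      refine Finset.sum_congr rfl fun v hv => ?_
      have := (hs v).1 hv
      omega
    exact_mod_cast this
  · intro ω
    induction ω using Quotient.inductionOn' with
    | h x =>
      show ((w x).ord u).toNat ≤ _
      have hcard : Nat.card {x' // (Quotient.mk'' x' :
          MulAction.orbitRel.Quotient (Subgroup.zpowers g) X) = Quotient.mk'' x}
          = Function.minimalPeriod (g • ·) x := by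
        rw [MulAction.minimalPeriod_eq_card, ← Nat.card_eq_fintype_card]
        refine Nat.card_congr (Equiv.subtypeEquivRight fun y => ?_)
        rw [Quotient.eq'']
        exact Iff.rfl
      rw [hcard]
      set k := Function.minimalPeriod (g • ·) x with hk
      have hkpos : 0 < k := by
        rw [hk, MulAction.minimalPeriod_eq_card]
        exact Fintype.card_pos_iff.2 ⟨⟨x, MulAction.mem_orbit_self x⟩⟩
      have hgk : g ^ k • x = x := MulAction.pow_smul_eq_iff_minimalPeriod_dvd.2 dvd_rfl
      obtain ⟨f, hf, hf1⟩ := Place.exists_ord_eq_one (w x)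
      have h1 := hstab x k hgk f
      rw [hw x f hf, hf1, mul_one, hwu x, mul_comm (k : ℤ)] at h1
      have h2 : (w x).ord u ∣ (k : ℤ) := (mul_dvd_mul_iff_left (hm' x).ne').1 h1
      have h3 := Int.le_of_dvd (by exact_mod_cast hkpos) h2
      omega

end Fermat.Agent.S24lib
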