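import Fermat.Agent.S24.PlaceBasic

/-!
# S24 library: places of a function field via the integral closure of `K[X]`
-/

set_option autoImplicit false
set_option linter.unusedSectionVars false
set_option linter.style.haveILetI false

open AlgebraicCurve Polynomial IsDedekindDomain

namespace Fermat.Agent.S24lib

section general

variable {K F : Type*} [Field K] [Field F] [Algebra K F]

/-- the normalised valuation of the place attached to a height one prime -/
theorem ord_ofHeightOneSpectrum {R : Type*} [CommRing R] [IsDedekindDomain R] [Algebra R F]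
    [IsFractionRing R F] [Algebra K R] [IsScalarTower K R F] (w : HeightOneSpectrum R) {f : F}
    (hf : f ≠ 0) :
    (Place.ofHeightOneSpectrum (K := K) (F := F) w).ord f = - WithZero.log (w.valuation F f) := by
  set v := Place.ofHeightOneSpectrum (K := K) (F := F) w with hv
  have hne : ∀ g : F, g ≠ 0 → w.valuation F g ≠ 0 := fun g hg => (Valuation.ne_zero_iff _).mpr hg
  obtain ⟨m, hm, h⟩ := Place.exists_mul_ord v (fun g => - WithZero.log (w.valuation F g))
    (fun f g hf hg => by
      simp only [map_mul]
      rw [WithZero.log_mul (hne f hf) (hne g hg)]; ring)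
    (fun g hg => by
      show g ∈ (w.valuation F).valuationSubring ↔ _
      rw [Valuation.mem_valuationSubring_iff, ← WithZero.log_le_log (hne g hg) one_ne_zero]
      simp)
  obtain ⟨π, hπ⟩ := w.valuation_exists_uniformizer F
  have hπ0 : π ≠ 0 := by
    rintro rfl
    rw [map_zero] at hπ
    exact WithZero.exp_ne_zero hπ.symm
  have h1 := h π hπ0
  simp only [hπ, WithZero.log_exp, neg_neg] at h1
  have hm1 : m = 1 := by
    have : (m : ℤ) ∣ 1 := ⟨_, h1⟩
    have := Int.eq_one_of_dvd_one (by positivity) this
    exact_mod_cast this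
  have h2 := h f hf
  rw [hm1] at h2
  simp only [Nat.cast_one, one_mul] at h2
  exact h2.symm

theorem Place.eq_of_le {v v' : Place K F} (h : v.toValuationSubring ≤ v'.toValuationSubring) :
    v = v' := by
  have : Ring.KrullDimLE 1 v.toValuationSubring := inferInstance
  exact Place.ext (ValuationSubring.eq_of_le_of_ne_top _ h v'.ne_top')

end general


section core

variable {K F : Type*} [Field K] [Field F] [Algebra K F]
  [Algebra K[X] F] [IsScalarTower K K[X] F]

theorem algebraMap_polynomial_eq_aeval (p : K[X]) :
    algebraMap K[X] F p = aeval (algebraMap K[X] F X) p := by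
  have h := Polynomial.aeval_algHom_apply (IsScalarTower.toAlgHom K K[X] F) X p
  rw [aeval_X_left_apply] at h
  exact h.symm

theorem algebraMap_polynomial_mem (v : Place K F)
    (hu : algebraMap K[X] F X ∈ v.toValuationSubring) (p : K[X]) :
    algebraMap K[X] F p ∈ v.toValuationSubring := by
  rw [algebraMap_polynomial_eq_aeval, aeval_eq_sum_range]
  refine sum_mem fun i _ => ?_
  rw [Algebra.smul_def]
  exact mul_mem (v.algebraMap_mem' _) (pow_mem hu i)

theorem integralClosure_le (v : Place K F)
    (hu : algebraMap K[X] F X ∈ v.toValuationSubring) (b : integralClosure K[X] F) :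
    (b : F) ∈ v.toValuationSubring := by
  obtain ⟨p, hp, hpb⟩ := b.2
  let φ : K[X] →+* v.toValuationSubring :=
    (algebraMap K[X] F).codRestrict v.toValuationSubring.toSubring
      (algebraMap_polynomial_mem v hu)
  have hint : IsIntegral v.toValuationSubring (b : F) := by
    refine ⟨p.map φ, hp.map φ, ?_⟩
    rw [eval₂_map]
    exact hpb
  obtain ⟨y, hy⟩ := IsIntegrallyClosed.isIntegral_iff.mp hint
  rw [← hy]
  exact y.2

variable [IsDedekindDomain (integralClosure K[X] F)] [IsFractionRing (integralClosure K[X] F) F]

/-- the place attached to a prime of the integral closure of `K[X]` -/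
noncomputable def placeOf (w : HeightOneSpectrum (integralClosure K[X] F)) : Place K F :=
  Place.ofHeightOneSpectrum w

theorem ord_placeOf (w : HeightOneSpectrum (integralClosure K[X] F)) {f : F} (hf : f ≠ 0) :
    (placeOf (K := K) w).ord f = - WithZero.log (w.valuation F f) :=
  ord_ofHeightOneSpectrum w hf

theorem mem_asIdeal_iff (w : HeightOneSpectrum (integralClosure K[X] F))
    (b : integralClosure K[X] F) :
    b ∈ w.asIdeal ↔ b = 0 ∨ 0 < (placeOf (K := K) w).ord (b : F) := by
  by_cases hb : b = 0
  · simp [hb]
  have hbF : (b : F) ≠ 0 := by simpa using hb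
  rw [ord_placeOf w hbF, ← w.valuation_lt_one_iff_mem (K := F)]
  have hne : w.valuation F (b : F) ≠ 0 := (Valuation.ne_zero_iff _).mpr hbF
  show w.valuation F (b : F) < 1 ↔ _
  rw [← WithZero.log_lt_log hne one_ne_zero]
  simp [hb]

theorem placeOf_injective :
    Function.Injective (placeOf (K := K) (F := F)) := by
  intro w w' h
  ext b
  rw [mem_asIdeal_iff (K := K), mem_asIdeal_iff (K := K), h]

theorem exists_placeOf_eq (v : Place K F)
    (hu : algebraMap K[X] F X ∈ v.toValuationSubring) :
    ∃ w : HeightOneSpectrum (integralClosure K[X] F), placeOf w = v := by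
  classical
  let ψ : integralClosure K[X] F →+* v.toValuationSubring :=
    (algebraMap (integralClosure K[X] F) F).codRestrict v.toValuationSubring.toSubring
      (integralClosure_le v hu)
  let q : Ideal (integralClosure K[X] F) := (IsLocalRing.maximalIdeal v.toValuationSubring).comap ψ
  have hq : q.IsPrime := Ideal.comap_isPrime _ _
  have hmemq : ∀ b : integralClosure K[X] F, b ∈ q ↔ ¬ IsUnit (ψ b) := by
    intro b
    simp [q, Ideal.mem_comap]
  have hq0 : q ≠ ⊥ := by
    intro hbot
    -- then every nonzero element of `B` is a unit in `O_v`, so `O_v = F`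
    apply v.ne_top'
    rw [eq_top_iff]
    intro f _
    obtain ⟨a, s, hs, rfl⟩ := IsFractionRing.div_surjective (A := integralClosure K[X] F) f
    have hs0 : s ≠ 0 := nonZeroDivisors.ne_zero hs
    have hsu : IsUnit (ψ s) := by
      by_contra hcon
      have : s ∈ q := (hmemq s).mpr hcon
      rw [hbot] at this
      exact hs0 (by simpa using this)
    obtain ⟨t, ht⟩ := hsu.exists_right_inv
    have ht' : (s : F) * (t : F) = 1 := congrArg Subtype.val ht
    have : (algebraMap (integralClosure K[X] F) F s)⁻¹ = (t : F) :=
      inv_eq_of_mul_eq_one_right ht'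
    rw [div_eq_mul_inv, this]
    exact mul_mem (integralClosure_le v hu a) t.2
  refine ⟨⟨q, hq, hq0⟩, Place.eq_of_le ?_⟩
  intro f hf
  have hf' : (HeightOneSpectrum.valuation F (⟨q, hq, hq0⟩ : HeightOneSpectrum _)) f ≤ 1 := hf
  obtain ⟨n, d, hnd⟩ := HeightOneSpectrum.exists_primeCompl_mul_eq_of_integer _ f hf'
  have hdu : IsUnit (ψ d) := by
    by_contra hcon
    exact d.2 ((hmemq d).mpr hcon)
  obtain ⟨t, ht⟩ := hdu.exists_right_inv
  have ht' : ((d : integralClosure K[X] F) : F) * (t : F) = 1 := congrArg Subtype.val ht
  have : f = (n : F) * (t : F) := by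
    have h1 : f * ((d : integralClosure K[X] F) : F) = (n : F) := hnd
    rw [← h1, mul_assoc, ht', mul_one]
  rw [this]
  exact mul_mem (integralClosure_le v hu n) t.2

end core


section count

variable {K F : Type*} [Field K] [Field F] [Algebra K F]
  [Algebra K[X] F] [IsScalarTower K K[X] F] [FaithfulSMul K[X] F]
  [IsDedekindDomain (integralClosure K[X] F)] [IsFractionRing (integralClosure K[X] F) F]
  [IsAlgClosed K] [Module.Finite K[X] (integralClosure K[X] F)]

theorem isMaximal_span_X_sub_C (a : K) : (Ideal.span {X - C a} : Ideal K[X]).IsMaximal :=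
  PrincipalIdealRing.isMaximal_of_irreducible (irreducible_X_sub_C a)

theorem span_X_sub_C_ne_bot (a : K) : (Ideal.span {X - C a} : Ideal K[X]) ≠ ⊥ := by
  rw [ne_eq, Ideal.span_singleton_eq_bot]
  exact X_sub_C_ne_zero a

theorem inertiaDeg_eq_one (a : K) (q : Ideal (integralClosure K[X] F)) [q.IsPrime]
    [q.LiesOver (Ideal.span {X - C a} : Ideal K[X])] :
    q.inertiaDeg K[X] = 1 := by
  haveI := isMaximal_span_X_sub_C a
  haveI : q.IsMaximal := Ideal.IsMaximal.of_liesOver_isMaximal q (Ideal.span {X - C a} : Ideal K[X])
  rw [Ideal.inertiaDeg_eq_of_isMaximal (Ideal.span {X - C a} : Ideal K[X]) q]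
  letI : Field (K[X] ⧸ (Ideal.span {X - C a} : Ideal K[X])) := Ideal.Quotient.field _
  letI : Field (integralClosure K[X] F ⧸ q) := Ideal.Quotient.field _
  haveI : IsAlgClosed (K[X] ⧸ (Ideal.span {X - C a} : Ideal K[X])) :=
    IsAlgClosed.of_ringEquiv K _ (quotientSpanXSubCAlgEquiv a).symm.toRingEquiv
  haveI : Module.Finite (K[X] ⧸ (Ideal.span {X - C a} : Ideal K[X]))
      (integralClosure K[X] F ⧸ q) :=
    Module.Finite.of_restrictScalars_finite K[X] _ _
  have hbij : Function.Bijective (algebraMap (K[X] ⧸ (Ideal.span {X - C a} : Ideal K[X]))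
      (integralClosure K[X] F ⧸ q)) :=
    IsAlgClosed.algebraMap_bijective_of_isIntegral
  rw [← Module.finrank_self (K[X] ⧸ (Ideal.span {X - C a} : Ideal K[X]))]
  exact ((AlgEquiv.ofBijective (Algebra.ofId _ _) hbij).toLinearEquiv.finrank_eq).symm

/-- the prime of the integral closure attached to a prime over `(X - a)` -/
noncomputable def primeOf (a : K)
    (q : (Ideal.span {X - C a} : Ideal K[X]).primesOver (integralClosure K[X] F)) :
    HeightOneSpectrum (integralClosure K[X] F) :=
  ⟨q.1, inferInstance, Ideal.ne_bot_of_liesOver_of_ne_bot (span_X_sub_C_ne_bot a) q.1⟩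

theorem algebraMap_X_sub_C_ne_zero (a : K) : algebraMap K[X] F (X - C a) ≠ 0 := by
  rw [ne_eq, FaithfulSMul.algebraMap_eq_zero_iff]
  exact X_sub_C_ne_zero a

theorem ord_primeOf (a : K)
    (q : (Ideal.span {X - C a} : Ideal K[X]).primesOver (integralClosure K[X] F)) :
    (placeOf (K := K) (primeOf a q)).ord (algebraMap K[X] F (X - C a))
      = (q.1.ramificationIdx K[X] : ℤ) := by
  have hb0 : algebraMap K[X] (integralClosure K[X] F) (X - C a) ≠ 0 := by
    rw [ne_eq, FaithfulSMul.algebraMap_eq_zero_iff]
    exact X_sub_C_ne_zero a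
  have hmap : (Ideal.span {X - C a} : Ideal K[X]).map (algebraMap K[X] (integralClosure K[X] F))
      = Ideal.span {algebraMap K[X] (integralClosure K[X] F) (X - C a)} := by
    rw [Ideal.map_span, Set.image_singleton]
  have hmap0 : (Ideal.span {X - C a} : Ideal K[X]).map
      (algebraMap K[X] (integralClosure K[X] F)) ≠ ⊥ := by
    rw [hmap, ne_eq, Ideal.span_singleton_eq_bot]; exact hb0
  rw [ord_placeOf _ (algebraMap_X_sub_C_ne_zero a),
    IsScalarTower.algebraMap_apply K[X] (integralClosure K[X] F) F,
    HeightOneSpectrum.valuation_of_algebraMap,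
    HeightOneSpectrum.intValuation_eq_exp_neg_multiplicity _ hb0,
    Ideal.IsDedekindDomain.ramificationIdx_eq_multiplicity _ q.1 hmap0, hmap]
  simp [primeOf]

theorem exists_finset_zeros (a : K) :
    ∃ s : Finset (Place K F), (∀ v, v ∈ s ↔ 0 < v.ord (algebraMap K[X] F (X - C a))) ∧
      ∑ v ∈ s, v.ord (algebraMap K[X] F (X - C a))
        = (Module.finrank K[X] (integralClosure K[X] F) : ℤ) := by
  classical
  haveI := isMaximal_span_X_sub_C a
  set p : Ideal K[X] := Ideal.span {X - C a} with hp
  haveI : Fintype (p.primesOver (integralClosure K[X] F)) :=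
    (Algebra.QuasiFinite.finite_primesOver p).fintype
  have hinj : Function.Injective
      (fun q : p.primesOver (integralClosure K[X] F) => placeOf (K := K) (primeOf a q)) := by
    intro q q' h
    have := placeOf_injective h
    exact Subtype.ext (congrArg HeightOneSpectrum.asIdeal this)
  refine ⟨Finset.univ.image
    (fun q : p.primesOver (integralClosure K[X] F) => placeOf (K := K) (primeOf a q)), ?_, ?_⟩
  · intro v
    simp only [Finset.mem_image, Finset.mem_univ, true_and]
    constructor
    · rintro ⟨q, rfl⟩
      rw [ord_primeOf]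
      exact_mod_cast Ideal.ramificationIdx_pos q.1 K[X]
    · intro hv
      have hmem : algebraMap K[X] F (X - C a) ∈ v.toValuationSubring :=
        (Place.mem_iff v).mpr (Or.inr hv.le)
      have hX : algebraMap K[X] F X ∈ v.toValuationSubring := by
        have h1 : algebraMap K[X] F X = algebraMap K[X] F (X - C a) + algebraMap K F a := by
          rw [IsScalarTower.algebraMap_apply K K[X] F, ← map_add]
          simp
        rw [h1]
        exact add_mem hmem (v.algebraMap_mem' a)
      obtain ⟨w, rfl⟩ := exists_placeOf_eq v hX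
      have hw : algebraMap K[X] (integralClosure K[X] F) (X - C a) ∈ w.asIdeal := by
        rw [mem_asIdeal_iff (K := K)]
        right
        exact hv
      have hlies : w.asIdeal.LiesOver p := by
        constructor
        refine (Ideal.IsMaximal.eq_of_le inferInstance ?_ ?_)
        · exact (Ideal.comap_ne_top _ w.isPrime.ne_top)
        · rw [hp, Ideal.span_le]
          simpa using hw
      exact ⟨⟨w.asIdeal, w.isPrime, hlies⟩, rfl⟩
  · rw [Finset.sum_image (fun x _ y _ h => hinj h)]
    have h := Ideal.sum_ramification_inertia_eq_finrank p (integralClosure K[X] F)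
    rw [← h, Nat.cast_sum]
    refine Finset.sum_congr rfl fun q _ => ?_
    rw [ord_primeOf, inertiaDeg_eq_one a q.1]
    simp

end count
end Fermat.Agent.S24lib
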