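import Fermat.Agent.S24.JDef
import Fermat.Agent.S20.Periodic

/-!
# S24 library: Ramanujan identities (up to nonzero constants) and the derivative of `j`
-/

set_option autoImplicit false

open UpperHalfPlane hiding I
open ModularForm MatrixGroups Filter Topology Complex
open scoped Manifold Real
open Derivative

namespace Fermat.Agent.S24lib

local notation "Δ" => ModularForm.discriminant

open S20lib in
/-- the Serre derivative preserves level one forms -/
theorem isR_serre {k : ℤ} {a : ℍ → ℂ} (ha : IsR k a) :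
    IsR (k + 2) (serreDerivative (k : ℂ) a) where
  holo := serreDerivative_mdifferentiable _ ha.holo
  inv g := serreDerivative_slash_invariant ha.holo (ha.inv g)
  bdd := by
    have h1 := isBoundedAtImInfty_normalizedDeriv ha.holo ha.bdd
    have h2 : IsBoundedAtImInfty (fun z => (k : ℂ) * 12⁻¹ * EisensteinSeries.E2 z * a z) :=
      ((Filter.const_boundedAtFilter _ ((k : ℂ) * 12⁻¹)).mul S20lib.isBoundedAtImInfty_E2).mul ha.bdd
    have h3 := h1.add h2.neg
    simpa [sub_eq_add_neg] using! h3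

open S20lib in
theorem isR_six_eq {a : ℍ → ℂ} (ha : IsR 6 a) : ∃ c : ℂ, a = c • (E₆ : ℍ → ℂ) := by
  obtain ⟨b, c, hb, hc, rfl⟩ := ha.decomp (by norm_num)
  have hb0 : b = 0 := IsR.eq_zero_of_two (hb.congr_weight (by norm_num))
  obtain ⟨c', rfl⟩ := IsR.eq_const (hc.congr_weight (by norm_num))
  refine ⟨c', ?_⟩
  funext z
  simp [hb0, mul_comm]

open S20lib in
theorem isR_four_eq {a : ℍ → ℂ} (ha : IsR 4 a) : ∃ c : ℂ, a = c • (E₄ : ℍ → ℂ) := by
  obtain ⟨b, c, hb, hc, rfl⟩ := ha.decomp (by norm_num)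
  have hc0 : c = 0 := IsR.eq_zero_of_neg (by norm_num) hc
  obtain ⟨c', rfl⟩ := IsR.eq_const (hb.congr_weight (by norm_num))
  refine ⟨c', ?_⟩
  funext z
  simp [hc0, mul_comm]

open S20lib in
theorem isR_eight_eq {a : ℍ → ℂ} (ha : IsR 8 a) : ∃ c : ℂ, a = c • ((E₄ : ℍ → ℂ) ^ 2) := by
  obtain ⟨b, c, hb, hc, rfl⟩ := ha.decomp (by norm_num)
  have hc0 : c = 0 := IsR.eq_zero_of_two (hc.congr_weight (by norm_num))
  obtain ⟨c', rfl⟩ := isR_four_eq (hb.congr_weight (by norm_num))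
  refine ⟨c', ?_⟩
  funext z
  simp only [hc0, Pi.add_apply, Pi.mul_apply, Pi.smul_apply, Pi.pow_apply, Pi.zero_apply,
    smul_eq_mul]
  ring

theorem tendsto_disc_zero : Tendsto (Δ : ℍ → ℂ) atImInfty (𝓝 0) := by
  have := S20lib.tendsto_disc_mul_exp (c := 0) (by norm_num)
  simpa using this

/-- `∂₄ E₄ = c E₆` with `c ≠ 0` -/
theorem exists_serre_E4 : ∃ c : ℂ, c ≠ 0 ∧
    serreDerivative 4 (E₄ : ℍ → ℂ) = c • (E₆ : ℍ → ℂ) := by
  obtain ⟨c, hc⟩ := isR_six_eq ((isR_serre S20lib.isR_E4).congr_weight (by norm_num))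
  have hc' : serreDerivative 4 (E₄ : ℍ → ℂ) = c • (E₆ : ℍ → ℂ) := by
    simpa using! hc
  refine ⟨c, ?_, hc'⟩
  rintro rfl
  rw [zero_smul] at hc'
  obtain ⟨a, ha⟩ := S20lib.eq_const_mul_eta_zpow S20lib.isR_E4.holo 4 (by simpa using! hc')
  have h1 : ∀ z : ℍ, (E₄ z) ^ 3 = a ^ 3 * Δ z := by
    intro z
    rw [ha z, ModularForm.discriminant, mul_pow]
    congr 1
    rw [← zpow_natCast, ← zpow_mul, ← zpow_natCast]
    norm_num
  have h2 : Tendsto (fun z : ℍ => (E₄ z) ^ 3) atImInfty (𝓝 (1 ^ 3)) := S20lib.tendsto_E4.pow 3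
  have h3 : Tendsto (fun z : ℍ => (E₄ z) ^ 3) atImInfty (𝓝 (a ^ 3 * 0)) := by
    simp_rw [h1]
    exact tendsto_disc_zero.const_mul _
  have := tendsto_nhds_unique h2 h3
  simp at this

/-- `∂₆ E₆ = c E₄²` with `c ≠ 0` -/
theorem exists_serre_E6 : ∃ c : ℂ, c ≠ 0 ∧
    serreDerivative 6 (E₆ : ℍ → ℂ) = c • ((E₄ : ℍ → ℂ) ^ 2) := by
  obtain ⟨c, hc⟩ := isR_eight_eq ((isR_serre S20lib.isR_E6).congr_weight (by norm_num))
  have hc' : serreDerivative 6 (E₆ : ℍ → ℂ) = c • ((E₄ : ℍ → ℂ) ^ 2) := by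
    simpa using! hc
  refine ⟨c, ?_, hc'⟩
  rintro rfl
  rw [zero_smul] at hc'
  obtain ⟨a, ha⟩ := S20lib.eq_const_mul_eta_zpow S20lib.isR_E6.holo 6 (by simpa using! hc')
  have h1 : ∀ z : ℍ, (E₆ z) ^ 2 = a ^ 2 * Δ z := by
    intro z
    rw [ha z, ModularForm.discriminant, mul_pow]
    congr 1
    rw [← zpow_natCast, ← zpow_mul, ← zpow_natCast]
    norm_num
  have h2 : Tendsto (fun z : ℍ => (E₆ z) ^ 2) atImInfty (𝓝 (1 ^ 2)) := S20lib.tendsto_E6.pow 2
  have h3 : Tendsto (fun z : ℍ => (E₆ z) ^ 2) atImInfty (𝓝 (a ^ 2 * 0)) := by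
    simp_rw [h1]
    exact tendsto_disc_zero.const_mul _
  have := tendsto_nhds_unique h2 h3
  simp at this

/-- `D Δ = E₂ Δ` -/
theorem D_disc (z : ℍ) : D (Δ : ℍ → ℂ) z = EisensteinSeries.E2 z * Δ z := by
  have hη : HasDerivAt ModularForm.eta (deriv ModularForm.eta z) z :=
    (differentiableAt_eta_of_mem_upperHalfPlaneSet z.2).hasDerivAt
  have hη0 : ModularForm.eta z ≠ 0 := eta_ne_zero z.2
  have h1 : deriv ModularForm.eta z = (π * I / 12) * EisensteinSeries.E2 z * ModularForm.eta z := by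
    have := logDeriv_eta_eq_E2 z
    rw [logDeriv_apply, div_eq_iff hη0] at this
    exact this
  have h2 : ((Δ : ℍ → ℂ) ∘ ofComplex) =ᶠ[𝓝 (z : ℂ)] fun w => ModularForm.eta w ^ 24 := by
    filter_upwards [isOpen_upperHalfPlaneSet.mem_nhds z.im_pos] with w hw
    simp [ModularForm.discriminant, ofComplex_apply_of_im_pos hw]
  have h3 : HasDerivAt (fun w => ModularForm.eta w ^ 24)
      (24 * ModularForm.eta z ^ 23 * deriv ModularForm.eta z) z := by
    simpa using! hη.pow 24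
  rw [normalizedDerivOfComplex, h2.deriv_eq, h3.deriv, h1, ModularForm.discriminant]
  have : (2 * π * I : ℂ) ≠ 0 := by simp [Real.pi_ne_zero]
  field_simp
  ring

end Fermat.Agent.S24lib
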