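import Fermat.Agent.S24.ChartDefs

/-!
# S24 library, task G2: Hermite normal form, `j (d γ τ)`
-/


set_option autoImplicit false

open UpperHalfPlane hiding I
open ModularForm MatrixGroups Filter Topology ModularCurve Complex
open scoped Manifold Real

namespace Fermat.Agent.S24lib

/-- Hermite normal form: `diag(d,1) γ = γ' (a b; 0 δ)` -/
theorem hermite (d : ℕ) [NeZero d] (γ : SL(2, ℤ)) :
    ∃ (γ' : SL(2, ℤ)) (a δ : ℕ) (b : ℤ), a * δ = d ∧ a = Int.gcd (d * γ.1 0 0) (γ.1 1 0) ∧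
      ∀ τ : ℍ, ofComplex ((d : ℂ) * ((γ • τ : ℍ) : ℂ)) = γ' • ofComplex (((a : ℂ) * τ + b) / δ) := by
  obtain ⟨p, hp⟩ : ∃ p, p = γ.1 0 0 := ⟨_, rfl⟩
  obtain ⟨q, hq⟩ : ∃ q, q = γ.1 0 1 := ⟨_, rfl⟩
  obtain ⟨r, hr⟩ : ∃ r, r = γ.1 1 0 := ⟨_, rfl⟩
  obtain ⟨s, hs⟩ : ∃ s, s = γ.1 1 1 := ⟨_, rfl⟩
  have hdet : p * s - q * r = 1 := by
    have := γ.2; rw [Matrix.det_fin_two] at this; rw [hp, hq, hr, hs]; exact this
  rw [← hp, ← hr]
  obtain ⟨a, ha⟩ : ∃ a, a = Int.gcd (d * p) r := ⟨_, rfl⟩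
  have hd0 : (d : ℤ) ≠ 0 := by exact_mod_cast NeZero.ne d
  have h1 : (a : ℤ) ∣ d * p := ha ▸ Int.gcd_dvd_left ..
  have h2 : (a : ℤ) ∣ r := ha ▸ Int.gcd_dvd_right ..
  have h3 : (a : ℤ) ∣ d := by
    have : (d : ℤ) = (d * p) * s - (d * q) * r := by linear_combination (-(d : ℤ)) * hdet
    rw [this]
    exact dvd_sub (h1.mul_right _) (h2.mul_left _)
  have h3' : a ∣ d := by exact_mod_cast h3
  obtain ⟨δ, hδ⟩ := h3'
  obtain ⟨p', hp'⟩ := h1
  obtain ⟨r', hr'⟩ := h2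
  have ha0 : a ≠ 0 := by
    rintro rfl
    exact NeZero.ne d (by simpa using hδ)
  have hδ0 : δ ≠ 0 := by
    rintro rfl
    exact NeZero.ne d (by simpa using hδ)
  have ha0' : (a : ℤ) ≠ 0 := by exact_mod_cast ha0
  obtain ⟨u, v, bez⟩ : ∃ u v : ℤ, (a : ℤ) = d * p * u + r * v := ⟨_, _, ha ▸ Int.gcd_eq_gcd_ab _ _⟩
  have hδ' : (d : ℤ) = a * δ := by exact_mod_cast hδ
  have hdet' : p' * u + r' * v = 1 := by
    apply mul_left_cancel₀ ha0'
    linear_combination (-1 : ℤ) * bez + (-u) * hp' + (-v) * hr'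
  have hrel : p' * s - r' * (d * q) = δ := by
    apply mul_left_cancel₀ ha0'
    linear_combination (-s) * hp' + (d * q) * hr' + (d : ℤ) * hdet + hδ'
  obtain ⟨γ', g00, g01, g10, g11⟩ : ∃ γ' : SL(2, ℤ), γ' 0 0 = p' ∧ γ' 0 1 = -v ∧ γ' 1 0 = r' ∧
      γ' 1 1 = u :=
    ⟨⟨!![p', -v; r', u], by rw [Matrix.det_fin_two_of]; linear_combination hdet'⟩, rfl, rfl, rfl, rfl⟩
  refine ⟨γ', a, δ, u * d * q + v * s, hδ.symm, ha, fun τ => ?_⟩
  have hdpos : (0 : ℝ) < d := by exact_mod_cast Nat.pos_of_ne_zero (NeZero.ne d)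
  have hapos : (0 : ℝ) < a := by exact_mod_cast Nat.pos_of_ne_zero ha0
  have hδpos : (0 : ℝ) < δ := by exact_mod_cast Nat.pos_of_ne_zero hδ0
  have him1 : 0 < ((d : ℂ) * ((γ • τ : ℍ) : ℂ)).im := by
    have : ((d : ℂ) * ((γ • τ : ℍ) : ℂ)).im = d * (γ • τ : ℍ).im := by simp
    rw [this]
    exact mul_pos hdpos (γ • τ : ℍ).im_pos
  have him2 : 0 < (((a : ℂ) * τ + ((u * d * q + v * s : ℤ) : ℂ)) / δ).im := by
    have : (((a : ℂ) * τ + ((u * d * q + v * s : ℤ) : ℂ)) / δ).im = a * τ.im / δ := by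
      rw [Complex.div_natCast_im]
      simp
    rw [this]
    exact div_pos (mul_pos hapos τ.im_pos) hδpos
  rw [ofComplex_apply_of_im_pos him1, ofComplex_apply_of_im_pos him2]
  ext
  rw [coe_specialLinearGroup_apply γ']
  show (d : ℂ) * ((γ • τ : ℍ) : ℂ) = _
  rw [coe_specialLinearGroup_apply γ, g00, g01, g10, g11]
  show _ = (_ * (((a : ℂ) * τ + ((u * d * q + v * s : ℤ) : ℂ)) / δ) + _) /
    (_ * (((a : ℂ) * τ + ((u * d * q + v * s : ℤ) : ℂ)) / δ) + _)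
  have hp'C : (d : ℂ) * p = a * p' := by exact_mod_cast hp'
  have hr'C : (r : ℂ) = a * r' := by exact_mod_cast hr'
  have hdet'C : (p' : ℂ) * u + r' * v = 1 := by exact_mod_cast hdet'
  have hrelC : (p' : ℂ) * s - r' * (d * q) = δ := by exact_mod_cast hrel
  have hδC : (δ : ℂ) ≠ 0 := by exact_mod_cast hδ0
  have e1 : (p' : ℂ) * (((a : ℂ) * τ + ((u * d * q + v * s : ℤ) : ℂ)) / δ) + ((-v : ℤ) : ℂ)
      = (d * (p * τ + q)) / δ := by
    push_cast
    field_simp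
    linear_combination (-(τ : ℂ)) * hp'C + ((d : ℂ) * q) * hdet'C + (v : ℂ) * hrelC
  have e2 : (r' : ℂ) * (((a : ℂ) * τ + ((u * d * q + v * s : ℤ) : ℂ)) / δ) + (u : ℂ)
      = (r * τ + s) / δ := by
    push_cast
    field_simp
    linear_combination (-(τ : ℂ)) * hr'C + (s : ℂ) * hdet'C - (u : ℂ) * hrelC
  simp only [algebraMap_int_eq, eq_intCast, Complex.ofReal_intCast]
  rw [e1, e2, div_div_div_cancel_right₀ hδC, ← hp, ← hq, ← hr, ← hs, mul_div_assoc]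

theorem jd_smul (d : ℕ) [NeZero d] (γ : SL(2, ℤ)) :
    ∃ (a δ : ℕ) (b : ℤ), a * δ = d ∧ a = Int.gcd (d * γ.1 0 0) (γ.1 1 0) ∧
      ∀ τ : ℍ, jd d (γ • τ) = jfun (ofComplex (((a : ℂ) * τ + b) / δ)) := by
  obtain ⟨γ', a, δ, b, h1, h2, h3⟩ := hermite d γ
  exact ⟨a, δ, b, h1, h2, fun τ => by rw [jd, h3, jfun_smul]⟩

/-- `q`-parameter of an affine transform of `invQParam` -/
theorem qParam_affine (N : ℕ) [NeZero N] (a δ m : ℕ) (b : ℤ) (hδ : δ ≠ 0) (hN : N = δ * m)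
    {q : ℂ} (hq : q ≠ 0) :
    Function.Periodic.qParam 1 (((a : ℂ) * Function.Periodic.invQParam N q + b) / δ) =
      Complex.exp (2 * π * I * b / δ) * q ^ (a * m) := by
  have hδC : (δ : ℂ) ≠ 0 := by exact_mod_cast hδ
  have hpi : (2 * π * I : ℂ) ≠ 0 := Complex.two_pi_I_ne_zero
  have : 2 * π * I * (((a : ℂ) * Function.Periodic.invQParam N q + b) / δ) / (1 : ℝ) =
      2 * π * I * b / δ + ((a * m : ℕ) : ℂ) * Complex.log q := by
    rw [Function.Periodic.invQParam, hN]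
    push_cast
    field_simp
    ring
  rw [Function.Periodic.qParam, this, Complex.exp_add, Complex.exp_nat_mul, Complex.exp_log hq]

theorem im_invQParam_pos (N : ℕ) [NeZero N] {q : ℂ} (hq : q ≠ 0) (hq1 : ‖q‖ < 1) :
    0 < (Function.Periodic.invQParam N q).im := by
  rw [Function.Periodic.im_invQParam]
  have hN : (0 : ℝ) < N := by exact_mod_cast Nat.pos_of_ne_zero (NeZero.ne N)
  have hl : Real.log ‖q‖ < 0 := Real.log_neg (norm_pos_iff.mpr hq) hq1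
  have : -(N : ℝ) / (2 * π) < 0 := div_neg_of_neg_of_pos (by linarith) (by positivity)
  exact mul_pos_of_neg_of_neg this hl

theorem eventually_punctured_unit : ∀ᶠ q in 𝓝[≠] (0 : ℂ), q ≠ 0 ∧ ‖q‖ < 1 := by
  have h1 : ∀ᶠ q in 𝓝[≠] (0 : ℂ), q ≠ 0 := eventually_mem_nhdsWithin
  have h2 : ∀ᶠ q in 𝓝[≠] (0 : ℂ), ‖q‖ < 1 := by
    apply Filter.Eventually.filter_mono nhdsWithin_le_nhds
    have := Metric.ball_mem_nhds (0 : ℂ) one_pos
    filter_upwards [this] with q hq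
    simpa using hq
  exact h1.and h2

variable (N : ℕ) [NeZero N]

theorem jfun_ofComplex_add_int {z : ℂ} (hz : 0 < z.im) (b : ℤ) :
    jfun (ofComplex (z + b)) = jfun (ofComplex z) := by
  have hz' : 0 < (z + b).im := by simpa using hz
  rw [jfun_eq_jcusp, jfun_eq_jcusp, ofComplex_apply_of_im_pos hz, ofComplex_apply_of_im_pos hz']
  show jcusp (Function.Periodic.qParam 1 (z + b)) = jcusp (Function.Periodic.qParam 1 z)
  congr 1
  rw [Function.Periodic.qParam, Function.Periodic.qParam]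
  have : 2 * π * I * (z + b) / (1 : ℝ) = 2 * π * I * z / (1 : ℝ) + b * (2 * π * I) := by
    push_cast
    ring
  rw [this, Complex.exp_add, Complex.exp_int_mul_two_pi_mul_I, mul_one]

theorem jd_Gamma0 {d : ℕ} (hd : d ∣ N) (δ : SL(2, ℤ)) (hδ : δ ∈ CongruenceSubgroup.Gamma0 N)
    (τ : ℍ) : jd d (δ • τ) = jd d τ := by
  have : NeZero d := ⟨fun h => NeZero.ne N (Nat.eq_zero_of_zero_dvd (h ▸ hd))⟩
  obtain ⟨a, δ', b, h1, h2, h3⟩ := jd_smul d δ
  rw [CongruenceSubgroup.Gamma0_mem, ZMod.intCast_zmod_eq_zero_iff_dvd] at hδ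
  obtain ⟨r', hr'⟩ : (d : ℤ) ∣ δ.1 1 0 := (Int.natCast_dvd_natCast.mpr hd).trans hδ
  have hdet : δ.1 0 0 * δ.1 1 1 - δ.1 0 1 * δ.1 1 0 = 1 := by
    have := δ.2; rw [Matrix.det_fin_two] at this; exact this
  have hcop : IsCoprime (δ.1 0 0) r' := by
    refine ⟨δ.1 1 1, -(δ.1 0 1 * d), ?_⟩
    rw [hr'] at hdet
    linear_combination hdet
  have ha : a = d := by
    rw [h2, hr', Int.gcd_mul_left, Int.isCoprime_iff_gcd_eq_one.mp hcop]
    simp
  have hδ' : δ' = 1 := by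
    rw [ha] at h1
    exact Nat.eq_of_mul_eq_mul_left (Nat.pos_of_ne_zero (NeZero.ne d)) (by rw [h1, mul_one])
  rw [h3, ha, hδ', Nat.cast_one, div_one, jd]
  apply jfun_ofComplex_add_int
  have hdpos : (0 : ℝ) < d := by exact_mod_cast Nat.pos_of_ne_zero (NeZero.ne d)
  have : ((d : ℂ) * (τ : ℂ)).im = d * τ.im := by simp
  rw [this]
  exact mul_pos hdpos τ.im_pos

theorem jd_cCusp {d : ℕ} (hd : d ∣ N) (γ : SL(2, ℤ)) :
    ∃ (a δ e : ℕ) (ζ : ℂ), a * δ = d ∧ a = Int.gcd (d * γ.1 0 0) (γ.1 1 0) ∧ e * δ = a * N ∧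
      ζ ^ N = 1 ∧ ∀ᶠ q in 𝓝[≠] (0 : ℂ), jd d (cCusp N γ q) = jcusp (ζ * q ^ e) := by
  have : NeZero d := ⟨fun h => NeZero.ne N (Nat.eq_zero_of_zero_dvd (h ▸ hd))⟩
  obtain ⟨a, δ, b, h1, h2, h3⟩ := jd_smul d γ
  have hδ0 : δ ≠ 0 := by
    rintro rfl
    exact NeZero.ne d (by simpa using h1.symm)
  have ha0 : a ≠ 0 := by
    rintro rfl
    exact NeZero.ne d (by simpa using h1.symm)
  obtain ⟨m, hm⟩ : δ ∣ N := (Dvd.intro_left a h1).trans hd
  have hδC : (δ : ℂ) ≠ 0 := by exact_mod_cast hδ0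
  refine ⟨a, δ, a * m, Complex.exp (2 * π * I * b / δ), h1, h2, by rw [hm]; ring, ?_, ?_⟩
  · rw [← Complex.exp_nat_mul, Complex.exp_eq_one_iff]
    refine ⟨b * m, ?_⟩
    rw [hm]
    push_cast
    field_simp
  · filter_upwards [eventually_punctured_unit] with q ⟨hq0, hq1⟩
    have him := im_invQParam_pos N hq0 hq1
    rw [cCusp, h3, jfun_eq_jcusp, ofComplex_apply_of_im_pos him]
    have hapos : (0 : ℝ) < a := by exact_mod_cast Nat.pos_of_ne_zero ha0
    have hδpos : (0 : ℝ) < δ := by exact_mod_cast Nat.pos_of_ne_zero hδ0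
    have him2 : 0 < (((a : ℂ) * Function.Periodic.invQParam N q + (b : ℂ)) / δ).im := by
      have : (((a : ℂ) * Function.Periodic.invQParam N q + (b : ℂ)) / δ).im =
          a * (Function.Periodic.invQParam N q).im / δ := by
        rw [Complex.div_natCast_im]
        simp
      rw [this]
      exact div_pos (mul_pos hapos him) hδpos
    show jcusp (Function.Periodic.qParam 1
      ((ofComplex (((a : ℂ) * Function.Periodic.invQParam N q + (b : ℂ)) / δ) : ℍ) : ℂ)) = _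
    rw [ofComplex_apply_of_im_pos him2]
    show jcusp (Function.Periodic.qParam 1
      (((a : ℂ) * Function.Periodic.invQParam N q + (b : ℂ)) / δ)) = _
    rw [qParam_affine N a δ m b hδ0 hm hq0]

theorem jd_cCusp_one (d : ℕ) [NeZero d] :
    ∀ᶠ q in 𝓝[≠] (0 : ℂ), jd d (cCusp N 1 q) = jcusp (q ^ (d * N)) := by
  filter_upwards [eventually_punctured_unit] with q ⟨hq0, hq1⟩
  have him := im_invQParam_pos N hq0 hq1
  rw [cCusp, one_smul, jd, jfun_eq_jcusp, ofComplex_apply_of_im_pos him]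
  have hdpos : (0 : ℝ) < d := by exact_mod_cast Nat.pos_of_ne_zero (NeZero.ne d)
  have him2 : 0 < ((d : ℂ) * Function.Periodic.invQParam N q).im := by
    have : ((d : ℂ) * Function.Periodic.invQParam N q).im =
        d * (Function.Periodic.invQParam N q).im := by simp
    rw [this]
    exact mul_pos hdpos him
  show jcusp (Function.Periodic.qParam 1
      ((ofComplex ((d : ℂ) * Function.Periodic.invQParam N q) : ℍ) : ℂ)) = _
  rw [ofComplex_apply_of_im_pos him2]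
  show jcusp (Function.Periodic.qParam 1 ((d : ℂ) * Function.Periodic.invQParam N q)) = _
  have := qParam_affine N d 1 N 0 one_ne_zero (by simp) hq0
  simp only [Int.cast_zero, add_zero, Nat.cast_one, div_one, mul_zero, Complex.exp_zero,
    one_mul] at this
  rw [this]

end Fermat.Agent.S24lib
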